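import Mathlib
import Fermat.Agent.S23.QFun
import Fermat.Agent.S23.DeltaN
import Fermat.Prelude.Def_ModularForm_HeckeOperator

/-!
# S16 library: the Fricke involution on `Γ₀(N)` (blocks F1–F4 of the S16 interface)

For `f : ModularForm (Gamma0 N) k` we put `sharp N f z = (f ∣[k] S) (N z)`
(classically `N^(-k/2) f|w_N`).
-/

set_option autoImplicit false
set_option linter.unusedSectionVars false

open UpperHalfPlane ModularForm CongruenceSubgroup Matrix Filter Topology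
open scoped MatrixGroups ModularForm Manifold Pointwise Real

noncomputable section

namespace Fermat.Agent.S16

open Fermat.Agent.S23 Fermat.Agent.S23.QF

variable (N : ℕ) [NeZero N] {k : ℤ}

/-- The Fricke matrix `W = S * diag(N,1) = (0 -1; N 0)`. -/
def frW : GL (Fin 2) ℝ := Matrix.SpecialLinearGroup.mapGL ℝ ModularGroup.S * alphaN N

theorem fr_val_frW :
    ((frW N : GL (Fin 2) ℝ) : Matrix (Fin 2) (Fin 2) ℝ) = !![0, -1; (N : ℝ), 0] := by
  rw [frW, Matrix.GeneralLinearGroup.coe_mul, coe_GL_val, val_alphaN]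
  ext i j
  fin_cases i <;> fin_cases j <;> simp [ModularGroup.S, Matrix.mul_apply, Fin.sum_univ_two]

theorem fr_det_frW : (frW N).det.val = (N : ℝ) := by
  rw [Matrix.GeneralLinearGroup.val_det_apply, fr_val_frW, Matrix.det_fin_two_of]
  ring

theorem fr_det_frW_pos : 0 < (frW N).det.val := by
  rw [fr_det_frW]; exact_mod_cast Nat.pos_of_ne_zero (NeZero.ne N)

/-- `W γ = γ' W` with `γ' ∈ Γ₀(N)` for `γ ∈ Γ₀(N)`. -/
theorem fr_conj_of_mem_Gamma0 (γ : SL(2, ℤ)) (hγ : γ ∈ Gamma0 N) :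
    ∃ γ' : SL(2, ℤ), γ' ∈ Gamma0 N ∧
      frW N * Matrix.SpecialLinearGroup.mapGL ℝ γ =
        Matrix.SpecialLinearGroup.mapGL ℝ γ' * frW N := by
  have hγ' := hγ
  rw [Gamma0_mem, ZMod.intCast_zmod_eq_zero_iff_dvd] at hγ'
  obtain ⟨c', hc'⟩ := hγ'
  have hdet := sl_det_eq γ
  refine ⟨mkSL (γ 1 1) (-c') (-(N * γ 0 1)) (γ 0 0)
    (by rw [hc'] at hdet; linear_combination hdet), ?_, ?_⟩
  · rw [Gamma0_mem]
    simp [mkSL]
  · apply Matrix.GeneralLinearGroup.ext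
    intro i j
    rw [Matrix.GeneralLinearGroup.coe_mul, Matrix.GeneralLinearGroup.coe_mul, coe_GL_val,
      coe_GL_val, fr_val_frW]
    fin_cases i <;> fin_cases j <;> simp [mkSL, hc', mul_comm]

/-- `sharp N f z = (f ∣[k] S) (N z)`; classically `N^(-k/2) f|w_N`. -/
def sharp (f : ModularForm (Gamma0 N) k) : ℍ → ℂ :=
  fun z => (⇑f ∣[k] ModularGroup.S) (alphaN N • z)

theorem sharp_apply (f : ModularForm (Gamma0 N) k) (z : ℍ) :
    sharp N f z = (⇑f ∣[k] ModularGroup.S) (alphaN N • z) := rfl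

theorem fr_slash_alphaN (g : ℍ → ℂ) (z : ℍ) :
    (g ∣[k] alphaN N) z = (N : ℂ) ^ (k - 1) * g (alphaN N • z) := by
  rw [ModularForm.slash_apply, sigma_alphaN, denom_alphaN, det_alphaN]
  simp [mul_comm]

theorem fr_slash_frW (g : ℍ → ℂ) (z : ℍ) :
    (g ∣[k] frW N) z = (N : ℂ) ^ (k - 1) * (g ∣[k] ModularGroup.S) (alphaN N • z) := by
  rw [frW, SlashAction.slash_mul, fr_slash_alphaN]
  rfl

theorem fr_natCast_zpow_ne_zero (m : ℤ) : ((N : ℂ) ^ m) ≠ 0 :=
  zpow_ne_zero _ (Nat.cast_ne_zero.mpr (NeZero.ne N))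

/-- `sharp f = N^(1-k) • (f ∣[k] W)`. -/
theorem sharp_eq_smul_slash (f : ModularForm (Gamma0 N) k) :
    sharp N f = ((N : ℂ) ^ (k - 1))⁻¹ • (⇑f ∣[k] frW N) := by
  ext z
  rw [Pi.smul_apply, fr_slash_frW, smul_eq_mul, ← mul_assoc,
    inv_mul_cancel₀ (fr_natCast_zpow_ne_zero N _), one_mul, sharp_apply]

theorem fr_Gamma0_le_conj :
    (Gamma0 N : Subgroup (GL (Fin 2) ℝ)) ≤
      ConjAct.toConjAct (frW N)⁻¹ • (Gamma0 N : Subgroup (GL (Fin 2) ℝ)) := by
  rintro _ ⟨γ, hγ, rfl⟩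
  obtain ⟨γ', hγ', h⟩ := fr_conj_of_mem_Gamma0 N γ hγ
  rw [Subgroup.mem_pointwise_smul_iff_inv_smul_mem, ConjAct.smul_def]
  simp only [map_inv, inv_inv, ConjAct.ofConjAct_toConjAct]
  refine ⟨γ', hγ', ?_⟩
  rw [h]
  simp [mul_assoc]

/-- `f ∣[k] W` is again `Γ₀(N)`-invariant. -/
theorem fr_slash_frW_slash_of_mem (f : ModularForm (Gamma0 N) k) (γ : SL(2, ℤ))
    (hγ : γ ∈ Gamma0 N) :
    (⇑f ∣[k] frW N) ∣[k] (Matrix.SpecialLinearGroup.mapGL ℝ γ) = ⇑f ∣[k] frW N := by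
  obtain ⟨γ', hγ', h⟩ := fr_conj_of_mem_Gamma0 N γ hγ
  rw [← SlashAction.slash_mul, h, SlashAction.slash_mul]
  congr 1
  exact SlashInvariantFormClass.slash_action_eq f _ ⟨γ', hγ', rfl⟩

/-- **(F2)** The Fricke transform as a modular form on `Γ₀(N)`. -/
def sharpForm (f : ModularForm (Gamma0 N) k) : ModularForm (Gamma0 N) k where
  toFun := sharp N f
  slash_action_eq' := by
    rintro _ ⟨γ, hγ, rfl⟩
    rw [sharp_eq_smul_slash, ModularForm.smul_slash, sigma_mapGL,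
      fr_slash_frW_slash_of_mem N f γ hγ]
  holo' := by
    show MDiff (sharp N f)
    rw [sharp_eq_smul_slash]
    exact ((ModularFormClass.holo f).slash k (frW N)).const_smul _
  bdd_at_cusps' := by
    intro c hc
    have h1 := (ModularForm.translate f (frW N)).bdd_at_cusps' (hc.mono (fr_Gamma0_le_conj N))
    intro g hg
    have h2 := h1 g hg
    show IsBoundedAtImInfty ((sharp N f) ∣[k] g)
    rw [sharp_eq_smul_slash, ModularForm.smul_slash]
    exact h2.const_smul_left _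

@[simp] theorem coe_sharpForm (f : ModularForm (Gamma0 N) k) :
    ⇑(sharpForm N f) = sharp N f := rfl

/-- Modular forms on a group with strict period `1` are `q`-functions. -/
theorem fr_isQFun_of_modularForm {Γ : Subgroup (GL (Fin 2) ℝ)} {T : Type*} [FunLike T ℍ ℂ]
    [ModularFormClass T Γ k] (hΓ : (1 : ℝ) ∈ Γ.strictPeriods) (f : T) : IsQFun (f : ℍ → ℂ) where
  mdiff := ModularFormClass.holo f
  periodic := by
    simpa using SlashInvariantFormClass.periodic_comp_ofComplex f hΓ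
  bdd := by
    have : Fact (IsCusp OnePoint.infty Γ) := ⟨Γ.isCusp_of_mem_strictPeriods one_pos hΓ⟩
    exact ModularFormClass.bdd_at_infty f

theorem fr_isQFun_coe (f : ModularForm (Gamma0 N) k) : IsQFun (⇑f) :=
  fr_isQFun_of_modularForm (CongruenceSubgroup.one_mem_strictPeriods_Gamma0 N) f

/-- **(F1)** -/
theorem isQFun_sharp (f : ModularForm (Gamma0 N) k) : IsQFun (sharp N f) :=
  fr_isQFun_coe N (sharpForm N f)

theorem sharp_add (f g : ModularForm (Gamma0 N) k) :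
    sharp N (f + g) = sharp N f + sharp N g := by
  ext z
  simp [sharp, SlashAction.add_slash]

theorem sharp_smul (c : ℂ) (f : ModularForm (Gamma0 N) k) :
    sharp N (c • f) = c • sharp N f := by
  ext z
  simp [sharp, ModularForm.SL_smul_slash]

theorem sharp_neg (f : ModularForm (Gamma0 N) k) : sharp N (-f) = -sharp N f := by
  ext z
  simp [sharp, SlashAction.neg_slash]

theorem sharp_sub (f g : ModularForm (Gamma0 N) k) :
    sharp N (f - g) = sharp N f - sharp N g := by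
  ext z
  simp [sharp, sub_eq_add_neg, SlashAction.add_slash, SlashAction.neg_slash]

theorem sharp_mul {k₁ k₂ : ℤ} (f : ModularForm (Gamma0 N) k₁) (g : ModularForm (Gamma0 N) k₂) :
    sharp N (f.mul g) = sharp N f * sharp N g := by
  ext z
  simp only [sharp, ModularForm.coe_mul, Pi.mul_apply]
  rw [ModularForm.mul_slash_SL2]
  rfl

/-- Restriction of a level-one form to `Γ₀(N)`. -/
def fr_ofLevelOne (F : ModularForm 𝒮ℒ k) : ModularForm (Gamma0 N) k where
  toFun := F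
  slash_action_eq' := by
    rintro _ ⟨γ, hγ, rfl⟩
    exact SlashInvariantFormClass.slash_action_eq F _ ⟨γ, rfl⟩
  holo' := F.holo'
  bdd_at_cusps' := by
    intro c hc
    exact F.bdd_at_cusps' (hc.mono (by rintro _ ⟨γ, hγ, rfl⟩; exact ⟨γ, rfl⟩))

@[simp] theorem coe_fr_ofLevelOne (F : ModularForm 𝒮ℒ k) : ⇑(fr_ofLevelOne N F) = ⇑F := rfl

/-- If `f` coincides with a level-one form `F`, then `sharp f (z) = F (N z)`. -/
theorem sharp_of_coe_eq_levelOne (f : ModularForm (Gamma0 N) k) (F : ModularForm 𝒮ℒ k)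
    (h : ⇑f = ⇑F) : sharp N f = fun z => F (alphaN N • z) := by
  ext z
  rw [sharp_apply, h]
  have : (⇑F ∣[k] ModularGroup.S) = ⇑F :=
    SlashInvariantFormClass.slash_action_eq F _ ⟨ModularGroup.S, rfl⟩
  rw [this]

theorem sharp_levelOne (F : ModularForm 𝒮ℒ k) :
    sharp N (fr_ofLevelOne N F) = fun z => F (alphaN N • z) :=
  sharp_of_coe_eq_levelOne N _ F rfl

theorem fr_val_frW_sq :
    ((frW N * frW N : GL (Fin 2) ℝ) : Matrix (Fin 2) (Fin 2) ℝ) = !![-(N : ℝ), 0; 0, -(N : ℝ)] := by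
  rw [Matrix.GeneralLinearGroup.coe_mul, fr_val_frW]
  ext i j
  fin_cases i <;> fin_cases j <;> simp [Matrix.mul_apply, Fin.sum_univ_two]

theorem fr_det_frW_sq : (frW N * frW N).det.val = (N : ℝ) ^ 2 := by
  rw [Matrix.GeneralLinearGroup.val_det_apply, fr_val_frW_sq, Matrix.det_fin_two_of]
  ring

theorem fr_frW_sq_smul (z : ℍ) : (frW N * frW N) • z = z := by
  have hpos : 0 < (frW N * frW N).det.val := by
    rw [fr_det_frW_sq]; exact pow_pos (by exact_mod_cast Nat.pos_of_ne_zero (NeZero.ne N)) 2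
  apply UpperHalfPlane.ext
  rw [UpperHalfPlane.coe_smul_of_det_pos hpos]
  have hN : (N : ℂ) ≠ 0 := Nat.cast_ne_zero.mpr (NeZero.ne N)
  simp only [num, denom, fr_val_frW_sq]
  simp
  field_simp

theorem fr_slash_frW_sq (g : ℍ → ℂ) :
    g ∣[k] (frW N * frW N) = ((-1 : ℂ) ^ k * (N : ℂ) ^ (k - 2)) • g := by
  have hpos : 0 < (frW N * frW N).det.val := by
    rw [fr_det_frW_sq]; exact pow_pos (by exact_mod_cast Nat.pos_of_ne_zero (NeZero.ne N)) 2
  have hN : (N : ℂ) ≠ 0 := Nat.cast_ne_zero.mpr (NeZero.ne N)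
  ext z
  rw [ModularForm.slash_apply, fr_frW_sq_smul, fr_det_frW_sq]
  have hσ : UpperHalfPlane.σ (frW N * frW N) = ContinuousAlgEquiv.refl ℝ ℂ := by
    unfold UpperHalfPlane.σ
    rw [if_pos hpos]
  have hden : denom (frW N * frW N) (z : ℂ) = -(N : ℂ) := by
    unfold denom
    rw [fr_val_frW_sq]
    simp
  rw [hσ, hden]
  simp only [ContinuousAlgEquiv.refl_apply, Pi.smul_apply, smul_eq_mul]
  have h1 : ((|(N : ℝ) ^ 2| : ℝ) : ℂ) = (N : ℂ) ^ 2 := by
    rw [abs_of_nonneg (by positivity)]; push_cast; rfl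
  rw [h1]
  have h2 : (-(N : ℂ)) ^ (-k) = (-1 : ℂ) ^ k * (N : ℂ) ^ (-k) := by
    rw [neg_eq_neg_one_mul, mul_zpow]
    congr 1
    rw [_root_.zpow_neg, ← _root_.inv_zpow]
    norm_num
  rw [h2, ← zpow_natCast ((N:ℂ)) 2, ← _root_.zpow_mul]
  have h3 : (N : ℂ) ^ (k - 2) = (N : ℂ) ^ (((2 : ℕ) : ℤ) * (k - 1)) * (N : ℂ) ^ (-k) := by
    rw [← zpow_add₀ hN]; congr 1; push_cast; ring
  rw [h3]
  ring

theorem fr_sigma_frW (w : ℂ) : UpperHalfPlane.σ (frW N) w = w := by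
  unfold UpperHalfPlane.σ
  rw [if_pos (fr_det_frW_pos N)]
  rfl

/-- **(F2)** the Fricke transform is an involution up to the scalar `(-1)^k N^(-k)`. -/
theorem sharp_sharpForm (f : ModularForm (Gamma0 N) k) :
    sharp N (sharpForm N f) = ((-1 : ℂ) ^ k * (N : ℂ) ^ (-k)) • ⇑f := by
  have hN : (N : ℂ) ≠ 0 := Nat.cast_ne_zero.mpr (NeZero.ne N)
  rw [sharp_eq_smul_slash, coe_sharpForm, sharp_eq_smul_slash, ModularForm.smul_slash, fr_sigma_frW,
    ← SlashAction.slash_mul, fr_slash_frW_sq, smul_smul, smul_smul]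
  congr 1
  have h3 : (N : ℂ) ^ (k - 2) = (N : ℂ) ^ (k - 1) * (N : ℂ) ^ (k - 1) * (N : ℂ) ^ (-k) := by
    rw [← zpow_add₀ hN, ← zpow_add₀ hN]; congr 1; ring
  rw [h3]
  have h4 := fr_natCast_zpow_ne_zero N (k - 1)
  field_simp

theorem fr_alphaN_heckeMatrix_smul (j : ℕ) (z : ℍ) :
    alphaN N • (heckeMatrix N j • z) = ModularGroup.T ^ j • z := by
  have hN : (N : ℂ) ≠ 0 := Nat.cast_ne_zero.mpr (NeZero.ne N)
  apply UpperHalfPlane.ext
  rw [coe_alphaN_smul, coe_heckeMatrix_smul (NeZero.ne N), ← zpow_natCast,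
    ModularGroup.coe_T_zpow_smul_eq]
  push_cast
  field_simp

theorem fr_slash_T_pow (g : ℍ → ℂ) (j : ℕ) (z : ℍ) :
    (g ∣[k] (ModularGroup.T ^ j)) z = g (ModularGroup.T ^ j • z) := by
  rw [ModularForm.SL_slash_apply]
  have : denom (Matrix.SpecialLinearGroup.toGL
      ((Matrix.SpecialLinearGroup.map (Int.castRingHom ℝ)) (ModularGroup.T ^ j))) (z : ℂ) = 1 := by
    show denom (Matrix.SpecialLinearGroup.mapGL ℝ (ModularGroup.T ^ j)) (z : ℂ) = 1
    unfold denom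
    rw [coe_GL_val]
    have h := ModularGroup.coe_T_zpow (j : ℤ)
    rw [zpow_natCast] at h
    have h10 : (ModularGroup.T ^ j) 1 0 = 0 := by
      have := congrFun (congrFun h 1) 0
      simpa using this
    have h11 : (ModularGroup.T ^ j) 1 1 = 1 := by
      have := congrFun (congrFun h 1) 1
      simpa using this
    simp [h10, h11]
  rw [this, _root_.one_zpow, mul_one]

/-- **(F3)** the conjugates `f ∣ S T^j` in terms of `sharp f`. -/
theorem fr_slash_S_mul_T_pow (f : ModularForm (Gamma0 N) k) (j : ℕ) :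
    (⇑f ∣[k] (ModularGroup.S * ModularGroup.T ^ j)) =
      fun z => sharp N f (heckeMatrix N j • z) := by
  ext z
  rw [SlashAction.slash_mul, fr_slash_T_pow, sharp_apply, fr_alphaN_heckeMatrix_smul]

/-! ### (F4) coset representatives of `Γ₀(p)` in `SL(2,ℤ)` -/

theorem fr_mul_one_zero (α γ : SL(2, ℤ)) : (α * γ) 1 0 = α 1 0 * γ 0 0 + α 1 1 * γ 1 0 := by
  rw [Matrix.SpecialLinearGroup.coe_mul, Matrix.mul_apply, Fin.sum_univ_two]

theorem fr_inv_zero_zero (β : SL(2, ℤ)) : (β⁻¹) 0 0 = β 1 1 := by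
  rw [Matrix.SpecialLinearGroup.SL2_inv_expl]; rfl

theorem fr_inv_one_zero (β : SL(2, ℤ)) : (β⁻¹) 1 0 = - β 1 0 := by
  rw [Matrix.SpecialLinearGroup.SL2_inv_expl]; rfl

theorem fr_mul_inv_one_zero (α β : SL(2, ℤ)) :
    (α * β⁻¹) 1 0 = α 1 0 * β 1 1 - α 1 1 * β 1 0 := by
  rw [fr_mul_one_zero, fr_inv_zero_zero, fr_inv_one_zero]; ring

theorem fr_ST_val (j : ℕ) :
    ((ModularGroup.S * ModularGroup.T ^ j : SL(2, ℤ)) : Matrix (Fin 2) (Fin 2) ℤ) =
      !![0, -1; 1, (j : ℤ)] := by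
  have h := ModularGroup.coe_T_zpow (j : ℤ)
  rw [zpow_natCast] at h
  rw [Matrix.SpecialLinearGroup.coe_mul, h, ModularGroup.coe_S]
  ext a b
  fin_cases a <;> fin_cases b <;> simp [Matrix.mul_apply, Fin.sum_univ_two]

theorem fr_ST_one_zero (j : ℕ) : (ModularGroup.S * ModularGroup.T ^ j : SL(2, ℤ)) 1 0 = 1 := by
  have := congrFun (congrFun (fr_ST_val j) 1) 0
  simpa using this

theorem fr_ST_one_one (j : ℕ) : (ModularGroup.S * ModularGroup.T ^ j : SL(2, ℤ)) 1 1 = j := by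
  have := congrFun (congrFun (fr_ST_val j) 1) 1
  simpa using this

variable (p : ℕ) [Fact p.Prime]

/-- Representatives of the right cosets `Γ₀(p) \ SL(2,ℤ)`: `1` and `S T^j`, `j < p`. -/
def frRepSL : Option (Fin p) → SL(2, ℤ)
  | none => 1
  | some j => ModularGroup.S * ModularGroup.T ^ (j : ℕ)

theorem fr_rep_surj (γ : SL(2, ℤ)) : ∃ o, frRepSL p o * γ ∈ Gamma0 p := by
  by_cases hc : ((γ 1 0 : ℤ) : ZMod p) = 0
  · exact ⟨none, by simpa [frRepSL, Gamma0_mem] using hc⟩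
  · set j : ZMod p := -((γ 0 0 : ℤ) : ZMod p) * (((γ 1 0 : ℤ) : ZMod p))⁻¹ with hj
    have hp : 0 < p := (Fact.out : p.Prime).pos
    refine ⟨some ⟨j.val, ZMod.val_lt j⟩, ?_⟩
    rw [Gamma0_mem]
    show (((ModularGroup.S * ModularGroup.T ^ j.val * γ : SL(2, ℤ)) 1 0 : ℤ) : ZMod p) = 0
    rw [fr_mul_one_zero, fr_ST_one_zero, fr_ST_one_one]
    push_cast
    rw [ZMod.natCast_zmod_val, hj]
    field_simp
    ring

theorem fr_rep_inj (o o' : Option (Fin p)) (h : frRepSL p o * (frRepSL p o')⁻¹ ∈ Gamma0 p) :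
    o = o' := by
  have hp1 : (1 : ZMod p) ≠ 0 := by
    have : Fact (1 < p) := ⟨(Fact.out : p.Prime).one_lt⟩
    exact one_ne_zero
  rw [Gamma0_mem, fr_mul_inv_one_zero] at h
  rcases o with _ | i <;> rcases o' with _ | j
  · rfl
  · exfalso
    simp only [frRepSL] at h
    rw [fr_ST_one_zero, fr_ST_one_one] at h
    simp at h
  · exfalso
    simp only [frRepSL] at h
    rw [fr_ST_one_zero, fr_ST_one_one] at h
    simp at h
  · simp only [frRepSL] at h
    rw [fr_ST_one_zero, fr_ST_one_one, fr_ST_one_zero, fr_ST_one_one] at h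
    push_cast at h
    have h' : ((j : ℕ) : ZMod p) = ((i : ℕ) : ZMod p) := by
      have := sub_eq_zero.mp (by simpa using h : ((j : ℕ) : ZMod p) - ((i : ℕ) : ZMod p) = 0)
      exact this
    have := congrArg ZMod.val h'
    rw [ZMod.val_natCast, ZMod.val_natCast, Nat.mod_eq_of_lt j.2, Nat.mod_eq_of_lt i.2] at this
    congr 1
    exact Fin.ext this.symm

local notation "𝒢p" => (Gamma0 p : Subgroup (GL (Fin 2) ℝ))

/-- The coset representatives as elements of `𝒮ℒ ≤ GL(2,ℝ)` (inverted, so that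
`quotientFunc f ⟦frRep o⟧ = f ∣[k] frRepSL o`). -/
def frRep (o : Option (Fin p)) : (𝒮ℒ : Subgroup (GL (Fin 2) ℝ)) :=
  ⟨Matrix.SpecialLinearGroup.mapGL ℝ (frRepSL p o)⁻¹, ⟨_, rfl⟩⟩

theorem fr_mapGL_mem_iff (γ : SL(2, ℤ)) :
    Matrix.SpecialLinearGroup.mapGL ℝ γ ∈ 𝒢p ↔ γ ∈ Gamma0 p :=
  Subgroup.mem_map_iff_mem Matrix.SpecialLinearGroup.mapGL_injective

/-- The map `Option (Fin p) → 𝒮ℒ ⧸ Γ₀(p)`. -/
def frRepQ (o : Option (Fin p)) : (𝒮ℒ : Subgroup (GL (Fin 2) ℝ)) ⧸ (𝒢p).subgroupOf 𝒮ℒ :=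
  QuotientGroup.mk (frRep p o)

theorem frRepQ_bijective : Function.Bijective (frRepQ p) := by
  constructor
  · intro o o' h
    rw [frRepQ, frRepQ, QuotientGroup.eq, Subgroup.mem_subgroupOf] at h
    apply fr_rep_inj p o o'
    rw [← fr_mapGL_mem_iff]
    convert h using 1
    simp [frRep]
  · intro q
    induction q using QuotientGroup.induction_on with
    | H h =>
      obtain ⟨_, γ, rfl⟩ := h
      obtain ⟨o, ho⟩ := fr_rep_surj p γ
      refine ⟨o, ?_⟩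
      rw [frRepQ, QuotientGroup.eq, Subgroup.mem_subgroupOf]
      rw [← fr_mapGL_mem_iff] at ho
      convert ho using 1
      simp [frRep]

/-- The equivalence `Option (Fin p) ≃ 𝒮ℒ ⧸ Γ₀(p)`. -/
def frRepEquiv : Option (Fin p) ≃ (𝒮ℒ : Subgroup (GL (Fin 2) ℝ)) ⧸ (𝒢p).subgroupOf 𝒮ℒ :=
  Equiv.ofBijective (frRepQ p) (frRepQ_bijective p)

/-- **(F4)** the index of `Γ₀(p)` in `SL(2,ℤ)` is `p + 1`. -/
theorem fr_card_quotient :
    Nat.card ((𝒮ℒ : Subgroup (GL (Fin 2) ℝ)) ⧸ (𝒢p).subgroupOf 𝒮ℒ) = p + 1 := by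
  rw [← Nat.card_congr (frRepEquiv p)]
  simp

variable {k : ℤ}

theorem fr_quotientFunc_frRepQ (f : ModularForm (Gamma0 p) k) (o : Option (Fin p)) :
    SlashInvariantForm.quotientFunc (𝒢 := 𝒢p) (ℋ := 𝒮ℒ) f (frRepQ p o) =
      ⇑f ∣[k] (frRepSL p o) := by
  show SlashInvariantForm.quotientFunc (𝒢 := 𝒢p) (ℋ := 𝒮ℒ) f ⟦frRep p o⟧ = _
  rw [SlashInvariantForm.quotientFunc_mk]
  simp [frRep]
  rfl

theorem fr_quotientFunc_frRepQ_none (f : ModularForm (Gamma0 p) k) :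
    SlashInvariantForm.quotientFunc (𝒢 := 𝒢p) (ℋ := 𝒮ℒ) f (frRepQ p none) = ⇑f := by
  rw [fr_quotientFunc_frRepQ]
  simp [frRepSL]

theorem fr_quotientFunc_frRepQ_some (f : ModularForm (Gamma0 p) k) (j : Fin p) :
    SlashInvariantForm.quotientFunc (𝒢 := 𝒢p) (ℋ := 𝒮ℒ) f (frRepQ p (some j)) =
      fun z => sharp p f (heckeMatrix p j • z) := by
  rw [fr_quotientFunc_frRepQ]
  exact fr_slash_S_mul_T_pow p f j

/-- **(F4)** the trace to level one in terms of the Fricke transform and `U_p`. -/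
theorem fr_coe_trace (f : ModularForm (Gamma0 p) k) :
    ⇑(ModularForm.trace 𝒮ℒ f) = ⇑f + (p : ℂ) • heckeU k p (sharp p f) := by
  have hp0 : p ≠ 0 := (Fact.out : p.Prime).ne_zero
  have hpC : (p : ℂ) ≠ 0 := Nat.cast_ne_zero.mpr hp0
  rw [ModularForm.coe_trace]
  ext z
  let _ : Fintype ((𝒮ℒ : Subgroup (GL (Fin 2) ℝ)) ⧸ (𝒢p).subgroupOf 𝒮ℒ) := Fintype.ofFinite _
  rw [Finset.sum_apply, ← Equiv.sum_comp (frRepEquiv p), Fintype.sum_option]
  simp only [frRepEquiv, Equiv.ofBijective_apply]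
  rw [fr_quotientFunc_frRepQ_none]
  simp only [fr_quotientFunc_frRepQ_some]
  rw [Pi.add_apply, Pi.smul_apply, heckeU_apply k hp0, smul_eq_mul, ← mul_assoc,
    mul_inv_cancel₀ hpC, one_mul, ← Fin.sum_univ_eq_sum_range (fun j => sharp p f (heckeMatrix p j • z))]

/-- **(F4)** the norm to level one in terms of the Fricke transform. -/
theorem fr_norm_apply (f : ModularForm (Gamma0 p) k) (z : ℍ) :
    ModularForm.norm 𝒮ℒ f z = f z * ∏ j ∈ Finset.range p, sharp p f (heckeMatrix p j • z) := by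
  rw [ModularForm.coe_norm]
  let _ : Fintype ((𝒮ℒ : Subgroup (GL (Fin 2) ℝ)) ⧸ (𝒢p).subgroupOf 𝒮ℒ) := Fintype.ofFinite _
  rw [Finset.prod_apply, ← Equiv.prod_comp (frRepEquiv p), Fintype.prod_option]
  simp only [frRepEquiv, Equiv.ofBijective_apply]
  rw [fr_quotientFunc_frRepQ_none]
  simp only [fr_quotientFunc_frRepQ_some]
  rw [← Fin.prod_univ_eq_prod_range (fun j => sharp p f (heckeMatrix p j • z))]

/-- The norm to level one with its weight in the normal form `k * (p + 1)`. -/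
def fr_normOne (f : ModularForm (Gamma0 p) k) : ModularForm 𝒮ℒ (k * (p + 1)) :=
  ModularForm.mcast (by rw [fr_card_quotient]; push_cast; ring) (ModularForm.norm 𝒮ℒ f)

theorem fr_normOne_apply (f : ModularForm (Gamma0 p) k) (z : ℍ) :
    fr_normOne p f z = f z * ∏ j ∈ Finset.range p, sharp p f (heckeMatrix p j • z) := by
  rw [fr_normOne, ModularForm.mcast_apply, fr_norm_apply]

end Fermat.Agent.S16
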