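import Mathlib

/-!
# S16 library, piece [DEFS]

* `Rl ℓ : Subring ℂ` : the algebraic numbers which are integral at `ℓ`
  (`x` such that `d * x` is an algebraic integer for some natural `d > 0` coprime to `ℓ`).
* `dvd_of_mem` : the only arithmetic fact about `Rl ℓ` which the S16 argument uses:
  if `(N : ℂ) = ℓ ^ a * y` with `N : ℤ` and `y ∈ Rl ℓ`, then `ℓ ^ a ∣ N`.
* `PS R : Subring (PowerSeries ℂ)` : the power series with coefficients in the subring `R`.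
* `mulSet R M : AddSubgroup ℂ` (`= M • R`) and `MI R M : AddSubgroup (PowerSeries ℂ)`
  (`= M • PS R`, coefficientwise): congruences `P ≡ Q mod M` are written `P - Q ∈ MI R M`.
* `sigmaP p n` : the sum of the divisors of `n` prime to `p`.
-/

set_option autoImplicit false

namespace Fermat.Agent.S16

open PowerSeries

/-! ### The ring of `ℓ`-integral algebraic numbers -/

/-- The algebraic numbers integral at `ℓ`. -/
def Rl (ℓ : ℕ) : Subring ℂ where
  carrier := {x | ∃ d : ℕ, 0 < d ∧ d.Coprime ℓ ∧ IsIntegral ℤ ((d : ℂ) * x)}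
  mul_mem' := by
    rintro x y ⟨d, hd, hdl, hx⟩ ⟨e, he, hel, hy⟩
    refine ⟨d * e, Nat.mul_pos hd he, Nat.Coprime.mul_left hdl hel, ?_⟩
    have : ((d * e : ℕ) : ℂ) * (x * y) = ((d : ℂ) * x) * ((e : ℂ) * y) := by
      push_cast; ring
    rw [this]
    exact hx.mul hy
  one_mem' := ⟨1, one_pos, Nat.coprime_one_left _, by simpa using isIntegral_one⟩
  add_mem' := by
    rintro x y ⟨d, hd, hdl, hx⟩ ⟨e, he, hel, hy⟩
    refine ⟨d * e, Nat.mul_pos hd he, Nat.Coprime.mul_left hdl hel, ?_⟩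
    have : ((d * e : ℕ) : ℂ) * (x + y) = (e : ℂ) * ((d : ℂ) * x) + (d : ℂ) * ((e : ℂ) * y) := by
      push_cast; ring
    rw [this]
    exact ((isIntegral_algebraMap (R := ℤ) (x := (e : ℤ))).mul hx |>.add
      ((isIntegral_algebraMap (R := ℤ) (x := (d : ℤ))).mul hy) : _)
  zero_mem' := ⟨1, one_pos, Nat.coprime_one_left _, by simpa using isIntegral_zero⟩
  neg_mem' := by
    rintro x ⟨d, hd, hdl, hx⟩
    refine ⟨d, hd, hdl, ?_⟩
    rw [mul_neg]
    exact hx.neg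

lemma mem_Rl_iff {ℓ : ℕ} {x : ℂ} :
    x ∈ Rl ℓ ↔ ∃ d : ℕ, 0 < d ∧ d.Coprime ℓ ∧ IsIntegral ℤ ((d : ℂ) * x) := Iff.rfl

/-- Algebraic integers are `ℓ`-integral. -/
lemma mem_Rl_of_isIntegral (ℓ : ℕ) {x : ℂ} (hx : IsIntegral ℤ x) : x ∈ Rl ℓ :=
  ⟨1, one_pos, Nat.coprime_one_left _, by simpa using hx⟩

/-- Roots of unity are `ℓ`-integral. -/
lemma mem_Rl_of_pow_eq_one (ℓ : ℕ) {x : ℂ} {n : ℕ} (hn : 0 < n) (hx : x ^ n = 1) : x ∈ Rl ℓ :=
  mem_Rl_of_isIntegral ℓ (IsIntegral.of_pow hn (by rw [hx]; exact isIntegral_one))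

/-- The inverse of a natural number prime to `ℓ` is `ℓ`-integral. -/
lemma inv_natCast_mem_Rl {ℓ d : ℕ} (hd : 0 < d) (hdl : d.Coprime ℓ) : ((d : ℂ))⁻¹ ∈ Rl ℓ := by
  refine ⟨d, hd, hdl, ?_⟩
  have : (d : ℂ) ≠ 0 := by exact_mod_cast hd.ne'
  rw [mul_inv_cancel₀ this]
  exact isIntegral_one

/-- Quotients `n / d` with `d` prime to `ℓ` are `ℓ`-integral. -/
lemma intCast_div_natCast_mem_Rl {ℓ d : ℕ} (n : ℤ) (hd : 0 < d) (hdl : d.Coprime ℓ) :
    (n : ℂ) / (d : ℂ) ∈ Rl ℓ := by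
  rw [div_eq_mul_inv]
  exact (Rl ℓ).mul_mem (intCast_mem _ n) (inv_natCast_mem_Rl hd hdl)

/-- An integer which is `ℓ ^ a` times an `ℓ`-integral number is divisible by `ℓ ^ a`. -/
theorem dvd_of_mem {ℓ : ℕ} (hℓ : ℓ.Prime) (N : ℤ) (a : ℕ)
    (h : ∃ y ∈ Rl ℓ, (N : ℂ) = (ℓ : ℂ) ^ a * y) : (ℓ : ℤ) ^ a ∣ N := by
  obtain ⟨y, ⟨d, hd, hdl, hy⟩, hN⟩ := h
  have hℓ0 : (ℓ : ℂ) ^ a ≠ 0 := pow_ne_zero _ (by exact_mod_cast hℓ.ne_zero)
  -- `d * y = d * N / ℓ ^ a` is a rational algebraic integer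
  have hq : (d : ℂ) * y = algebraMap ℚ ℂ (((d : ℤ) * N : ℤ) / ((ℓ : ℤ) ^ a : ℤ) : ℚ) := by
    have : y = (N : ℂ) / (ℓ : ℂ) ^ a := by rw [hN]; field_simp
    rw [this]
    simp only [eq_ratCast]
    push_cast
    ring
  rw [hq, isIntegral_algebraMap_iff (algebraMap ℚ ℂ).injective,
    IsIntegrallyClosed.isIntegral_iff] at hy
  obtain ⟨m, hm⟩ := hy
  have hℓq : ((ℓ : ℤ) ^ a : ℚ) ≠ 0 := pow_ne_zero _ (by exact_mod_cast hℓ.ne_zero)
  have h1 : (d : ℤ) * N = (ℓ : ℤ) ^ a * m := by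
    have : ((m : ℤ) : ℚ) = (((d : ℤ) * N : ℤ) : ℚ) / (((ℓ : ℤ) ^ a : ℤ) : ℚ) := by
      simpa using hm
    have hℓq' : (((ℓ : ℤ) ^ a : ℤ) : ℚ) ≠ 0 := by push_cast; exact hℓq
    have h2 : (((d : ℤ) * N : ℤ) : ℚ) = (((ℓ : ℤ) ^ a : ℤ) : ℚ) * (m : ℚ) := by
      rw [this, mul_div_cancel₀ _ hℓq']
    exact_mod_cast h2
  have hcop : IsCoprime ((ℓ : ℤ) ^ a) (d : ℤ) := by
    apply IsCoprime.pow_left
    exact (Nat.isCoprime_iff_coprime.mpr hdl.symm)
  exact hcop.dvd_of_dvd_mul_left ⟨m, h1⟩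

/-- `1` is not `ℓ` times an `ℓ`-integral number. -/
theorem one_ne_mul_of_mem {ℓ : ℕ} (hℓ : ℓ.Prime) {y : ℂ} (hy : y ∈ Rl ℓ) :
    (1 : ℂ) ≠ (ℓ : ℂ) * y := by
  intro h
  have := dvd_of_mem hℓ 1 1 ⟨y, hy, by simpa using h⟩
  rw [pow_one] at this
  have h1 : (ℓ : ℤ) = 1 ∨ (ℓ : ℤ) = -1 := Int.isUnit_iff.mp (isUnit_of_dvd_one this)
  rcases h1 with h1 | h1
  · exact hℓ.one_lt.ne' (by exact_mod_cast h1)
  · have : (0 : ℤ) ≤ (ℓ : ℤ) := Int.natCast_nonneg _
    omega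

/-! ### Power series with coefficients in a subring -/

/-- The power series all of whose coefficients lie in the subring `R`. -/
def PS (R : Subring ℂ) : Subring (PowerSeries ℂ) where
  carrier := {P | ∀ n, coeff n P ∈ R}
  mul_mem' := by
    intro P Q hP hQ n
    rw [coeff_mul]
    exact R.sum_mem fun x _ => R.mul_mem (hP _) (hQ _)
  one_mem' := by
    intro n
    rw [coeff_one]
    split_ifs
    · exact R.one_mem
    · exact R.zero_mem
  add_mem' := by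
    intro P Q hP hQ n
    rw [map_add]
    exact R.add_mem (hP _) (hQ _)
  zero_mem' := by
    intro n
    rw [map_zero]
    exact R.zero_mem
  neg_mem' := by
    intro P hP n
    rw [map_neg]
    exact R.neg_mem (hP _)

lemma mem_PS_iff {R : Subring ℂ} {P : PowerSeries ℂ} : P ∈ PS R ↔ ∀ n, coeff n P ∈ R := Iff.rfl

lemma C_mem_PS {R : Subring ℂ} {r : ℂ} (hr : r ∈ R) : C r ∈ PS R := by
  intro n
  rw [coeff_C]
  split_ifs
  · exact hr
  · exact R.zero_mem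

lemma X_mem_PS (R : Subring ℂ) : (X : PowerSeries ℂ) ∈ PS R := by
  intro n
  rw [coeff_X]
  split_ifs
  · exact R.one_mem
  · exact R.zero_mem

lemma smul_mem_PS {R : Subring ℂ} {r : ℂ} (hr : r ∈ R) {P : PowerSeries ℂ} (hP : P ∈ PS R) :
    r • P ∈ PS R := by
  intro n
  rw [coeff_smul]
  exact R.mul_mem hr (hP n)

/-- Integral power series have coefficients in every subring. -/
lemma map_intCast_mem_PS (R : Subring ℂ) (P : PowerSeries ℤ) :
    P.map (Int.castRingHom ℂ) ∈ PS R := by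
  intro n
  rw [coeff_map]
  exact intCast_mem R _

lemma rescale_mem_PS {R : Subring ℂ} {r : ℂ} (hr : r ∈ R) {P : PowerSeries ℂ} (hP : P ∈ PS R) :
    rescale r P ∈ PS R := by
  intro n
  rw [coeff_rescale]
  exact R.mul_mem (R.pow_mem hr n) (hP n)

/-! ### Congruences modulo `M` -/

/-- `M • R` as an additive subgroup of `ℂ`. -/
def mulSet (R : Subring ℂ) (M : ℂ) : AddSubgroup ℂ where
  carrier := {x | ∃ y ∈ R, x = M * y}
  add_mem' := by
    rintro x x' ⟨y, hy, rfl⟩ ⟨y', hy', rfl⟩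
    exact ⟨y + y', R.add_mem hy hy', by ring⟩
  zero_mem' := ⟨0, R.zero_mem, by ring⟩
  neg_mem' := by
    rintro x ⟨y, hy, rfl⟩
    exact ⟨-y, R.neg_mem hy, by ring⟩

lemma mem_mulSet_iff {R : Subring ℂ} {M x : ℂ} : x ∈ mulSet R M ↔ ∃ y ∈ R, x = M * y := Iff.rfl

lemma mul_mem_mulSet {R : Subring ℂ} {M r x : ℂ} (hr : r ∈ R) (hx : x ∈ mulSet R M) :
    r * x ∈ mulSet R M := by
  obtain ⟨y, hy, rfl⟩ := hx
  exact ⟨r * y, R.mul_mem hr hy, by ring⟩

lemma mul_mem_mulSet' {R : Subring ℂ} {M r x : ℂ} (hr : r ∈ R) (hx : x ∈ mulSet R M) :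
    x * r ∈ mulSet R M := by
  rw [mul_comm]; exact mul_mem_mulSet hr hx

/-- `M • PS R` (coefficientwise) as an additive subgroup of `PowerSeries ℂ`. -/
def MI (R : Subring ℂ) (M : ℂ) : AddSubgroup (PowerSeries ℂ) where
  carrier := {P | ∀ n, coeff n P ∈ mulSet R M}
  add_mem' := by
    intro P Q hP hQ n
    rw [map_add]
    exact (mulSet R M).add_mem (hP n) (hQ n)
  zero_mem' := by
    intro n
    rw [map_zero]
    exact (mulSet R M).zero_mem
  neg_mem' := by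
    intro P hP n
    rw [map_neg]
    exact (mulSet R M).neg_mem (hP n)

lemma mem_MI_iff {R : Subring ℂ} {M : ℂ} {P : PowerSeries ℂ} :
    P ∈ MI R M ↔ ∀ n, coeff n P ∈ mulSet R M := Iff.rfl

lemma C_mul_mem_MI {R : Subring ℂ} (M : ℂ) {K : PowerSeries ℂ} (hK : K ∈ PS R) :
    C M * K ∈ MI R M := by
  intro n
  rw [coeff_C_mul]
  exact ⟨_, hK n, rfl⟩

/-- The coefficientwise and the global description of `M • PS R` agree. -/
lemma mem_MI_iff_exists {R : Subring ℂ} {M : ℂ} {P : PowerSeries ℂ} :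
    P ∈ MI R M ↔ ∃ K ∈ PS R, P = C M * K := by
  constructor
  · intro h
    choose y hy hP using h
    refine ⟨PowerSeries.mk y, fun n => by rw [coeff_mk]; exact hy n, ?_⟩
    ext n
    rw [coeff_C_mul, coeff_mk, hP n]
  · rintro ⟨K, hK, rfl⟩
    exact C_mul_mem_MI M hK

/-- `M • PS R` is stable under multiplication by `PS R`. -/
lemma mul_mem_MI {R : Subring ℂ} {M : ℂ} {K P : PowerSeries ℂ} (hK : K ∈ PS R)
    (hP : P ∈ MI R M) : K * P ∈ MI R M := by
  obtain ⟨L, hL, rfl⟩ := mem_MI_iff_exists.mp hP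
  have : K * (C M * L) = C M * (K * L) := by ring
  rw [this]
  exact C_mul_mem_MI M ((PS R).mul_mem hK hL)

lemma mul_mem_MI' {R : Subring ℂ} {M : ℂ} {K P : PowerSeries ℂ} (hK : K ∈ PS R)
    (hP : P ∈ MI R M) : P * K ∈ MI R M := by
  rw [mul_comm]; exact mul_mem_MI hK hP

lemma MI_le_PS {R : Subring ℂ} {M : ℂ} (hM : M ∈ R) {P : PowerSeries ℂ} (hP : P ∈ MI R M) :
    P ∈ PS R := by
  intro n
  obtain ⟨y, hy, h⟩ := hP n
  rw [h]
  exact R.mul_mem hM hy

/-- Congruences can be multiplied. -/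
lemma mul_sub_mul_mem_MI {R : Subring ℂ} {M : ℂ} {P P' Q Q' : PowerSeries ℂ}
    (hQ : Q ∈ PS R) (hP' : P' ∈ PS R)
    (hP : P - P' ∈ MI R M) (hQQ : Q - Q' ∈ MI R M) : P * Q - P' * Q' ∈ MI R M := by
  have : P * Q - P' * Q' = Q * (P - P') + P' * (Q - Q') := by ring
  rw [this]
  exact (MI R M).add_mem (mul_mem_MI hQ hP) (mul_mem_MI hP' hQQ)

/-- Congruences can be raised to powers. -/
lemma pow_sub_pow_mem_MI {R : Subring ℂ} {M : ℂ} {P P' : PowerSeries ℂ}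
    (hP : P ∈ PS R) (hP' : P' ∈ PS R) (h : P - P' ∈ MI R M) (n : ℕ) :
    P ^ n - P' ^ n ∈ MI R M := by
  induction n with
  | zero => simp
  | succ n ih =>
    rw [pow_succ, pow_succ]
    exact mul_sub_mul_mem_MI hP ((PS R).pow_mem hP' n) ih h

/-- Congruences can be multiplied over a finite set. -/
lemma prod_sub_prod_mem_MI {R : Subring ℂ} {M : ℂ} {ι : Type*} (s : Finset ι)
    (P P' : ι → PowerSeries ℂ) (hP : ∀ i ∈ s, P i ∈ PS R) (hP' : ∀ i ∈ s, P' i ∈ PS R)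
    (h : ∀ i ∈ s, P i - P' i ∈ MI R M) :
    ∏ i ∈ s, P i - ∏ i ∈ s, P' i ∈ MI R M := by
  classical
  induction s using Finset.induction_on with
  | empty => simp
  | insert a s ha ih =>
    rw [Finset.prod_insert ha, Finset.prod_insert ha]
    refine mul_sub_mul_mem_MI ((PS R).prod_mem fun i hi => hP i (Finset.mem_insert_of_mem hi))
      (hP' a (Finset.mem_insert_self a s)) (h a (Finset.mem_insert_self a s))
      (ih (fun i hi => hP i (Finset.mem_insert_of_mem hi))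
        (fun i hi => hP' i (Finset.mem_insert_of_mem hi))
        (fun i hi => h i (Finset.mem_insert_of_mem hi)))

lemma rescale_mem_MI {R : Subring ℂ} {M r : ℂ} (hr : r ∈ R) {P : PowerSeries ℂ}
    (hP : P ∈ MI R M) : rescale r P ∈ MI R M := by
  intro n
  rw [coeff_rescale]
  exact mul_mem_mulSet (R.pow_mem hr n) (hP n)

/-! ### `expandP` : substitution `q ↦ q ^ p` -/

/-- The substitution `q ↦ q ^ p` on power series (`p` will be positive). -/
noncomputable def expandP (p : ℕ) (φ : PowerSeries ℂ) : PowerSeries ℂ :=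
  PowerSeries.mk fun m => if p ∣ m then coeff (m / p) φ else 0

lemma coeff_expandP (p : ℕ) (φ : PowerSeries ℂ) (m : ℕ) :
    coeff m (expandP p φ) = if p ∣ m then coeff (m / p) φ else 0 := by
  rw [expandP, coeff_mk]

lemma coeff_expandP_mul {p : ℕ} (hp : 0 < p) (φ : PowerSeries ℂ) (n : ℕ) :
    coeff (p * n) (expandP p φ) = coeff n φ := by
  rw [coeff_expandP, if_pos (dvd_mul_right p n), Nat.mul_div_cancel_left n hp]

lemma expandP_mem_PS {R : Subring ℂ} (p : ℕ) {P : PowerSeries ℂ} (hP : P ∈ PS R) :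
    expandP p P ∈ PS R := by
  intro n
  rw [coeff_expandP]
  split_ifs
  · exact hP _
  · exact R.zero_mem

lemma expandP_sub (p : ℕ) (P Q : PowerSeries ℂ) :
    expandP p (P - Q) = expandP p P - expandP p Q := by
  ext n
  rw [map_sub, coeff_expandP, coeff_expandP, coeff_expandP]
  split_ifs
  · rw [map_sub]
  · rw [sub_zero]

lemma expandP_mem_MI {R : Subring ℂ} {M : ℂ} (p : ℕ) {P : PowerSeries ℂ} (hP : P ∈ MI R M) :
    expandP p P ∈ MI R M := by
  intro n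
  rw [coeff_expandP]
  split_ifs
  · exact hP _
  · exact (mulSet R M).zero_mem

/-- `rescale ζ` fixes `expandP p φ` when `ζ ^ p = 1`. -/
lemma rescale_expandP {p : ℕ} {ζ : ℂ} (hζ : ζ ^ p = 1) (φ : PowerSeries ℂ) :
    rescale ζ (expandP p φ) = expandP p φ := by
  ext n
  rw [coeff_rescale, coeff_expandP]
  split_ifs with h
  · obtain ⟨m, rfl⟩ := h
    rw [pow_mul, hζ, one_pow, one_mul]
  · rw [mul_zero]

/-! ### The divisor sum prime to `p` -/

/-- The sum of the divisors of `n` which are prime to `p`. -/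
def sigmaP (p n : ℕ) : ℕ := ∑ d ∈ n.divisors.filter (fun d => ¬ p ∣ d), d

lemma sigmaP_one (p : ℕ) (hp : 1 < p) : sigmaP p 1 = 1 := by
  have : (Nat.divisors 1).filter (fun d => ¬ p ∣ d) = {1} := by
    rw [Nat.divisors_one, Finset.filter_singleton, if_pos]
    intro h
    exact absurd (Nat.le_of_dvd one_pos h) (not_le.mpr hp)
  rw [sigmaP, this, Finset.sum_singleton]

lemma sigmaP_zero (p : ℕ) : sigmaP p 0 = 0 := by
  simp [sigmaP]

/-- `σ'(p n) = σ'(n)`. -/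
lemma sigmaP_mul_self {p : ℕ} (hp : p.Prime) (n : ℕ) : sigmaP p (p * n) = sigmaP p n := by
  rcases Nat.eq_zero_or_pos n with rfl | hn
  · simp
  unfold sigmaP
  congr 1
  ext d
  simp only [Finset.mem_filter, Nat.mem_divisors]
  constructor
  · rintro ⟨⟨h1, -⟩, h2⟩
    refine ⟨⟨?_, hn.ne'⟩, h2⟩
    have hcop : Nat.Coprime d p := ((Nat.Prime.coprime_iff_not_dvd hp).mpr h2).symm
    exact hcop.dvd_of_dvd_mul_left h1
  · rintro ⟨⟨h1, h0⟩, h2⟩
    exact ⟨⟨Dvd.dvd.mul_left h1 p, Nat.mul_ne_zero hp.ne_zero h0⟩, h2⟩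

/-- `σ'(n) = σ(n)` when `p ∤ n`. -/
lemma sigmaP_of_not_dvd {p n : ℕ} (h : ¬ p ∣ n) : sigmaP p n = ArithmeticFunction.sigma 1 n := by
  rw [ArithmeticFunction.sigma_one_apply, sigmaP]
  apply Finset.sum_congr _ (fun _ _ => rfl)
  apply Finset.filter_true_of_mem
  intro d hd hpd
  exact h (hpd.trans (Nat.dvd_of_mem_divisors hd))

/-- `σ'(p m) = σ(p m) - p σ(m)`. -/
lemma sigmaP_mul_eq_sub {p : ℕ} (hp : 0 < p) (m : ℕ) :
    (sigmaP p (p * m) : ℤ) =
      ArithmeticFunction.sigma 1 (p * m) - p * ArithmeticFunction.sigma 1 m := by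
  rcases Nat.eq_zero_or_pos m with rfl | hm
  · simp [sigmaP_zero]
  have hsplit : ArithmeticFunction.sigma 1 (p * m) =
      sigmaP p (p * m) + ∑ d ∈ (p * m).divisors.filter (fun d => p ∣ d), d := by
    rw [ArithmeticFunction.sigma_one_apply, sigmaP, add_comm]
    exact (Finset.sum_filter_add_sum_filter_not _ _ _).symm
  have himg : (p * m).divisors.filter (fun d => p ∣ d) = m.divisors.image (fun d => p * d) := by
    ext d
    simp only [Finset.mem_filter, Nat.mem_divisors, Finset.mem_image]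
    constructor
    · rintro ⟨⟨h1, -⟩, ⟨e, rfl⟩⟩
      exact ⟨e, ⟨(Nat.mul_dvd_mul_iff_left hp).mp h1, hm.ne'⟩, rfl⟩
    · rintro ⟨e, ⟨h1, h0⟩, rfl⟩
      exact ⟨⟨Nat.mul_dvd_mul_left p h1, Nat.mul_ne_zero hp.ne' h0⟩, dvd_mul_right p e⟩
  have hsum : ∑ d ∈ (p * m).divisors.filter (fun d => p ∣ d), d =
      p * ArithmeticFunction.sigma 1 m := by
    rw [himg, Finset.sum_image, ArithmeticFunction.sigma_one_apply, Finset.mul_sum]
    intro x _ y _ hxy
    exact Nat.eq_of_mul_eq_mul_left hp hxy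
  rw [hsplit, hsum]
  push_cast
  ring

end Fermat.Agent.S16
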