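import Mathlib
import Fermat.Agent.S23.QFun
import Fermat.Agent.S23.DeltaN
import Fermat.Agent.S16.Defs
import Fermat.Prelude.Def_ModularForm_HeckeOperator
import Fermat.Prelude.Thm_UpperHalfPlane_qExpansion_prod

/-!
# S16 library, piece [N]: `q`-expansions of twists, of `z ↦ F (p z)` and of norm-type products

All statements are about plain functions `ℍ → ℂ` satisfying `IsQFun` (holomorphic, `1`-periodic,
bounded at `i∞`).

* `ne_qExpansion_vadd` : `qExpansion 1 (F (t + ·)) = rescale (e(t)) (qExpansion 1 F)`.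
* `ne_qExpansion_alphaN` : `qExpansion 1 (F (p ·)) = expandP p (qExpansion 1 F)`.
* `ne_expandP_qExpansion_prod` : if `ν z = f₀ z * ∏ j < p, s ((z + j)/p)` then
  `expandP p (qExp ν) = expandP p (qExp f₀) * ∏ j < p, rescale (ζ ^ j) (qExp s)`, `ζ = e(1/p)`.
* `ne_norm_congr` : the congruence corollary (NC).
-/

set_option autoImplicit false

open UpperHalfPlane hiding I
open Complex Function ModularForm
open scoped Manifold Real
open Fermat.Agent.S23 Fermat.Agent.S23.QF

noncomputable section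

namespace Fermat.Agent.S16

local notation "𝕢" => Function.Periodic.qParam

/-! ### Generalities -/

/-- Uniqueness of `q`-expansion coefficients for plain functions. -/
theorem ne_qExpansion_coeff_unique (f : ℍ → ℂ) (c : ℕ → ℂ)
    (h1 : AnalyticAt ℂ (cuspFunction 1 f) 0)
    (h2 : ∀ τ : ℍ, HasSum (fun m => c m • 𝕢 1 (τ : ℂ) ^ m) (f τ)) (m : ℕ) :
    (qExpansion 1 f).coeff m = c m := by
  let _i : FunLike (ℍ → ℂ) ℍ ℂ := ⟨fun f => f, fun _ _ h => h⟩
  exact (@UpperHalfPlane.qExpansion_coeff_unique (ℍ → ℂ) _ 1 f c one_pos h1 h2 m).symm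

/-- Periodicity criterion. -/
theorem ne_periodic_of_vadd {F : ℍ → ℂ} (h : ∀ z : ℍ, F ((1 : ℝ) +ᵥ z) = F z) :
    Periodic (F ∘ ofComplex) (1 : ℂ) := by
  intro w
  by_cases hw : 0 < w.im
  · have hw1 : 0 < (w + 1).im := by simpa using hw
    simp only [comp_apply]
    rw [ofComplex_apply_of_im_pos hw1, ofComplex_apply_of_im_pos hw, ← h ⟨w, hw⟩]
    congr 1
    ext
    simp [coe_vadd, add_comm]
  · have hw' : w.im ≤ 0 := not_lt.mp hw
    exact comp_ofComplex_of_im_le_zero F _ _ (by simpa using hw') hw'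

theorem ne_vadd_one {F : ℍ → ℂ} (hF : IsQFun F) (z : ℍ) : F ((1 : ℝ) +ᵥ z) = F z := by
  have h := hF.periodic (z : ℂ)
  simp only [comp_apply] at h
  rw [ofComplex_apply] at h
  rw [← h]
  congr 1
  have hz1 : 0 < ((z : ℂ) + 1).im := by simpa using z.im_pos
  rw [ofComplex_apply_of_im_pos hz1]
  ext
  simp [coe_vadd, add_comm]

theorem ne_vadd_nat {F : ℍ → ℂ} (hF : IsQFun F) (n : ℕ) (z : ℍ) : F ((n : ℝ) +ᵥ z) = F z := by
  induction n with
  | zero => simp
  | succ n ih =>
    rw [← ih, ← ne_vadd_one hF ((n : ℝ) +ᵥ z)]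
    congr 1
    ext
    simp [coe_vadd]
    ring

/-! ### (N1) twists -/

theorem ne_isQFun_vadd {F : ℍ → ℂ} (hF : IsQFun F) (t : ℝ) : IsQFun (fun z => F (t +ᵥ z)) := by
  refine ⟨?_, ?_, ?_⟩
  · rw [UpperHalfPlane.mdifferentiable_iff]
    have h1 := UpperHalfPlane.mdifferentiable_iff.mp hF.mdiff
    have h2 : DifferentiableOn ℂ ((F ∘ ofComplex) ∘ (fun w : ℂ => w + t)) {z | 0 < z.im} := by
      apply h1.comp (by fun_prop)
      intro w hw
      simpa using hw
    refine h2.congr (fun w hw => ?_)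
    have hw' : 0 < (w + t).im := by simpa using hw
    simp only [comp_apply]
    rw [ofComplex_apply_of_im_pos hw, ofComplex_apply_of_im_pos hw']
    congr 1
    ext
    simp [coe_vadd, add_comm]
  · apply ne_periodic_of_vadd
    intro z
    rw [← ne_vadd_one hF (t +ᵥ z)]
    congr 1
    ext
    simp [coe_vadd]
    ring
  · obtain ⟨M, A, h⟩ := isBoundedAtImInfty_iff.mp hF.bdd
    refine isBoundedAtImInfty_iff.mpr ⟨M, A, fun z hz => ?_⟩
    apply h
    simpa [vadd_im] using hz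

theorem ne_qParam_vadd (t : ℝ) (z : ℍ) :
    𝕢 1 ((t +ᵥ z : ℍ) : ℂ) = cexp (2 * π * I * t) * 𝕢 1 (z : ℂ) := by
  rw [coe_vadd, Function.Periodic.qParam, Function.Periodic.qParam, ← Complex.exp_add]
  congr 1
  simp only [ofReal_one, div_one]
  ring

/-- (N1) The `q`-expansion of a translate. -/
theorem ne_qExpansion_vadd {F : ℍ → ℂ} (hF : IsQFun F) (t : ℝ) :
    qExpansion 1 (fun z => F (t +ᵥ z)) =
      PowerSeries.rescale (cexp (2 * π * I * t)) (qExpansion 1 F) := by
  ext m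
  rw [PowerSeries.coeff_rescale]
  apply ne_qExpansion_coeff_unique _ (fun m => cexp (2 * π * I * t) ^ m * (qExpansion 1 F).coeff m)
    (ne_isQFun_vadd hF t).analyticAt
  intro τ
  have h := hasSum_qExpansion one_pos hF.periodic' hF.mdiff hF.bdd (t +ᵥ τ)
  convert h using 2 with m
  rw [ne_qParam_vadd, mul_pow, smul_eq_mul, smul_eq_mul]
  ring

/-! ### (N2) `z ↦ F (p z)` -/

section alpha

variable (p : ℕ) [NeZero p]

theorem ne_alphaN_vadd (z : ℍ) : alphaN p • ((1 : ℝ) +ᵥ z) = ((p : ℕ) : ℝ) +ᵥ (alphaN p • z) := by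
  ext
  simp [coe_vadd, coe_alphaN_smul]
  ring

theorem ne_im_alphaN (z : ℍ) : (alphaN p • z).im = p * z.im := by
  have h := congrArg Complex.im (coe_alphaN_smul p z)
  simpa using h

theorem ne_isQFun_alphaN {F : ℍ → ℂ} (hF : IsQFun F) : IsQFun (fun z => F (alphaN p • z)) := by
  refine ⟨?_, ?_, ?_⟩
  · exact hF.mdiff.comp (mdifferentiable_smul (det_alphaN_pos p))
  · apply ne_periodic_of_vadd
    intro z
    rw [ne_alphaN_vadd, ne_vadd_nat hF]
  · obtain ⟨M, A, h⟩ := isBoundedAtImInfty_iff.mp hF.bdd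
    refine isBoundedAtImInfty_iff.mpr ⟨M, A, fun z hz => ?_⟩
    apply h
    rw [ne_im_alphaN]
    have hp1 : (1 : ℝ) ≤ p := by exact_mod_cast Nat.one_le_iff_ne_zero.mpr (NeZero.ne p)
    have : z.im ≤ p * z.im := by nlinarith [z.im_pos]
    linarith

/-- (N2) The `q`-expansion of `z ↦ F (p z)`. -/
theorem ne_qExpansion_alphaN {F : ℍ → ℂ} (hF : IsQFun F) :
    qExpansion 1 (fun z => F (alphaN p • z)) = expandP p (qExpansion 1 F) := by
  ext m
  rw [coeff_expandP]
  apply ne_qExpansion_coeff_unique _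
    (fun m => if p ∣ m then (qExpansion 1 F).coeff (m / p) else 0)
    (ne_isQFun_alphaN p hF).analyticAt
  intro τ
  have h1 := hasSum_qExpansion one_pos hF.periodic' hF.mdiff hF.bdd (alphaN p • τ)
  have hppos : 0 < p := Nat.pos_of_ne_zero (NeZero.ne p)
  have hinj : Function.Injective (fun m : ℕ => p * m) := fun a b hab =>
    Nat.eq_of_mul_eq_mul_left hppos hab
  rw [← hinj.hasSum_iff]
  · have h3 : ((fun m : ℕ => (if p ∣ m then (qExpansion 1 F).coeff (m / p) else 0) •
        𝕢 1 (τ : ℂ) ^ m) ∘ fun m : ℕ => p * m) =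
        fun m => (PowerSeries.coeff m) (qExpansion 1 F) • 𝕢 1 ↑(alphaN p • τ) ^ m := by
      funext m
      simp only [Function.comp, Nat.mul_div_cancel_left _ hppos, dvd_mul_right, if_true]
      rw [qParam_alphaN_smul, pow_mul]
    rw [h3]
    exact h1
  · intro x hx
    have : ¬ p ∣ x := fun ⟨m, hm⟩ => hx ⟨m, hm.symm⟩
    simp [this]

end alpha

/-! ### `expandP` is a ring homomorphism -/

theorem expandP_eq_expand {p : ℕ} (hp : p ≠ 0) (φ : PowerSeries ℂ) :
    expandP p φ = PowerSeries.expand p hp φ := by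
  ext n
  rw [coeff_expandP, PowerSeries.coeff_expand]

theorem expandP_mul {p : ℕ} (hp : p ≠ 0) (φ ψ : PowerSeries ℂ) :
    expandP p (φ * ψ) = expandP p φ * expandP p ψ := by
  simp only [expandP_eq_expand hp, map_mul]

theorem expandP_pow {p : ℕ} (hp : p ≠ 0) (φ : PowerSeries ℂ) (n : ℕ) :
    expandP p (φ ^ n) = expandP p φ ^ n := by
  simp only [expandP_eq_expand hp, map_pow]

theorem expandP_one {p : ℕ} (hp : p ≠ 0) : expandP p 1 = 1 := by
  simp only [expandP_eq_expand hp, map_one]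

theorem expandP_add {p : ℕ} (hp : p ≠ 0) (φ ψ : PowerSeries ℂ) :
    expandP p (φ + ψ) = expandP p φ + expandP p ψ := by
  simp only [expandP_eq_expand hp, map_add]

theorem expandP_C {p : ℕ} (hp : p ≠ 0) (c : ℂ) : expandP p (PowerSeries.C c) = PowerSeries.C c := by
  rw [expandP_eq_expand hp, PowerSeries.expand_C]

theorem expandP_injective {p : ℕ} (hp : p ≠ 0) {φ ψ : PowerSeries ℂ}
    (h : expandP p φ = expandP p ψ) : φ = ψ := by
  ext n
  have := congrArg (PowerSeries.coeff (p * n)) h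
  rwa [coeff_expandP_mul (Nat.pos_of_ne_zero hp), coeff_expandP_mul (Nat.pos_of_ne_zero hp)] at this

/-! ### (N3) norm-type products -/

section norm

variable (p : ℕ) [NeZero p]

theorem ne_heckeMatrix_alphaN (j : ℕ) (z : ℍ) :
    heckeMatrix p j • (alphaN p • z) = ((j : ℝ) / (p : ℝ)) +ᵥ z := by
  have hp : (p : ℂ) ≠ 0 := by exact_mod_cast NeZero.ne p
  ext
  rw [coe_heckeMatrix_smul (NeZero.ne p), coe_alphaN_smul, coe_vadd]
  push_cast
  field_simp
  ring

/-- (N3) The `q`-expansion of a norm-type product, evaluated at `p z`. -/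
theorem ne_expandP_qExpansion_prod {ν f₀ s : ℍ → ℂ} (hν : IsQFun ν) (hf : IsQFun f₀)
    (hs : IsQFun s)
    (h : ∀ z : ℍ, ν z = f₀ z * ∏ j ∈ Finset.range p, s (heckeMatrix p j • z)) :
    expandP p (qExpansion 1 ν) =
      expandP p (qExpansion 1 f₀) *
        ∏ j ∈ Finset.range p,
          PowerSeries.rescale (cexp (2 * π * I / p) ^ j) (qExpansion 1 s) := by
  have hsj : ∀ j ∈ Finset.range p, IsQFun (fun z => s (((j : ℝ) / (p : ℝ)) +ᵥ z)) :=
    fun j _ => ne_isQFun_vadd hs _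
  have hfun : (fun z => ν (alphaN p • z)) =
      (fun z => f₀ (alphaN p • z)) *
        ∏ j ∈ Finset.range p, (fun z => s (((j : ℝ) / (p : ℝ)) +ᵥ z)) := by
    funext z
    rw [Pi.mul_apply, Finset.prod_apply, h]
    congr 1
    apply Finset.prod_congr rfl
    intro j _
    rw [ne_heckeMatrix_alphaN]
  rw [← ne_qExpansion_alphaN p hν, hfun,
    qExpansion_mul (ne_isQFun_alphaN p hf).analyticAt (IsQFun.prod _ hsj).analyticAt,
    ne_qExpansion_alphaN p hf,
    UpperHalfPlane.qExpansion_prod _ (fun j hj => (hsj j hj).analyticAt)]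
  congr 1
  apply Finset.prod_congr rfl
  intro j _
  rw [ne_qExpansion_vadd hs]
  congr 2
  rw [← Complex.exp_nat_mul]
  congr 1
  have hp : (p : ℂ) ≠ 0 := by exact_mod_cast NeZero.ne p
  push_cast
  field_simp

/-- (N3'), coefficientwise. -/
theorem ne_coeff_qExpansion_prod {ν f₀ s : ℍ → ℂ} (hν : IsQFun ν) (hf : IsQFun f₀)
    (hs : IsQFun s)
    (h : ∀ z : ℍ, ν z = f₀ z * ∏ j ∈ Finset.range p, s (heckeMatrix p j • z)) (n : ℕ) :
    (qExpansion 1 ν).coeff n =
      (expandP p (qExpansion 1 f₀) *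
        ∏ j ∈ Finset.range p,
          PowerSeries.rescale (cexp (2 * π * I / p) ^ j) (qExpansion 1 s)).coeff (p * n) := by
  rw [← ne_expandP_qExpansion_prod p hν hf hs h,
    coeff_expandP_mul (Nat.pos_of_ne_zero (NeZero.ne p))]

theorem ne_zeta_pow (j : ℕ) : (cexp (2 * π * I / p) ^ j) ^ p = 1 := by
  have hp : (p : ℂ) ≠ 0 := by exact_mod_cast NeZero.ne p
  have h1 : cexp (2 * π * I / p) ^ p = 1 := by
    rw [← Complex.exp_nat_mul]
    have : (p : ℂ) * (2 * π * I / p) = 2 * π * I := by field_simp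
    rw [this, Complex.exp_two_pi_mul_I]
  rw [← pow_mul, mul_comm j p, pow_mul, h1, one_pow]

/-- (NC) The congruence corollary: if `qExp f₀ ≡ δ` and `qExp s ≡ c · δ(q^p)` modulo `M`, then
`qExp ν ≡ c^p · δ^(p+1)` modulo `M`. -/
theorem ne_norm_congr {ν f₀ s : ℍ → ℂ} (hν : IsQFun ν) (hf : IsQFun f₀) (hs : IsQFun s)
    (h : ∀ z : ℍ, ν z = f₀ z * ∏ j ∈ Finset.range p, s (heckeMatrix p j • z))
    (R : Subring ℂ) (hζ : cexp (2 * π * I / p) ∈ R) (M : ℂ) (hM : M ∈ R)
    (δ : PowerSeries ℂ) (hδ : δ ∈ PS R) (c : ℂ) (hc : c ∈ R)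
    (h1 : qExpansion 1 f₀ - δ ∈ MI R M)
    (h2 : qExpansion 1 s - PowerSeries.C c * expandP p δ ∈ MI R M) :
    qExpansion 1 ν - PowerSeries.C (c ^ p) * δ ^ (p + 1) ∈ MI R M := by
  have hp : p ≠ 0 := NeZero.ne p
  set φ := qExpansion 1 f₀ with hφ
  set ψ := qExpansion 1 s with hψ
  set D := PowerSeries.C c * expandP p δ with hD
  have hDmem : D ∈ PS R := (PS R).mul_mem (C_mem_PS hc) (expandP_mem_PS p hδ)
  have hφmem : φ ∈ PS R := by
    have : φ = (φ - δ) + δ := by ring
    rw [this]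
    exact (PS R).add_mem (MI_le_PS hM h1) hδ
  have hψmem : ψ ∈ PS R := by
    have : ψ = (ψ - D) + D := by ring
    rw [this]
    exact (PS R).add_mem (MI_le_PS hM h2) hDmem
  -- each factor
  have hfac : ∀ j ∈ Finset.range p,
      PowerSeries.rescale (cexp (2 * π * I / p) ^ j) ψ - D ∈ MI R M := by
    intro j _
    have hfix : PowerSeries.rescale (cexp (2 * π * I / p) ^ j) D = D := by
      rw [hD, map_mul, rescale_expandP (ne_zeta_pow p j)]
      congr 1
      ext n
      rw [PowerSeries.coeff_rescale, PowerSeries.coeff_C]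
      split_ifs with hn
      · rw [hn, pow_zero, one_mul]
      · rw [mul_zero]
    have := rescale_mem_MI (R.pow_mem hζ j) h2
    rwa [map_sub, hfix] at this
  have hprod := prod_sub_prod_mem_MI (Finset.range p)
    (fun j => PowerSeries.rescale (cexp (2 * π * I / p) ^ j) ψ) (fun _ => D)
    (fun j _ => rescale_mem_PS (R.pow_mem hζ j) hψmem) (fun _ _ => hDmem) hfac
  rw [Finset.prod_const, Finset.card_range] at hprod
  have h1' : expandP p φ - expandP p δ ∈ MI R M := by
    rw [← expandP_sub]; exact expandP_mem_MI p h1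
  have hall := mul_sub_mul_mem_MI
    ((PS R).prod_mem fun j _ => rescale_mem_PS (R.pow_mem hζ j) hψmem)
    (expandP_mem_PS p hδ) h1' hprod
  rw [← ne_expandP_qExpansion_prod p hν hf hs h] at hall
  have hrw : expandP p δ * D ^ p = expandP p (PowerSeries.C (c ^ p) * δ ^ (p + 1)) := by
    rw [expandP_mul hp, expandP_C hp, expandP_pow hp, hD, mul_pow, ← map_pow, pow_succ]
    ring
  rw [hrw, ← expandP_sub] at hall
  intro n
  have := hall (p * n)
  rwa [coeff_expandP_mul (Nat.pos_of_ne_zero hp)] at this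

end norm

end Fermat.Agent.S16
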