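import Mathlib
import Fermat.Agent.S23.DeltaN
import Fermat.Agent.S16.Defs
import Fermat.Prelude.Def_ModularForm_HeckeOperator
import Fermat.Prelude.Thm_CongruenceSubgroup_one_mem_strictPeriods_Gamma0
import Fermat.Prelude.Thm_ModularFormClass_qCoeff_heckeU
import Fermat.Prelude.Thm_UpperHalfPlane_eq_of_forall_qCoeff_eq
import Fermat.Prelude.Thm_ModularForm_periodic_heckeU_comp_ofComplex
import Fermat.Prelude.Thm_ModularForm_mdifferentiable_heckeU
import Fermat.Prelude.Thm_ModularForm_isBoundedAtImInfty_heckeU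

set_option autoImplicit false

/-!
# S16 / EisLevel: the weight-two Eisenstein series of prime level

`eisP p = (p E₂(p z) - E₂(z)) / 24` as a modular form of weight `2` on `Γ₀(p)`, and its
`q`-expansion `(p - 1) / 24 + ∑ σ'(n) qⁿ`, `σ'(n) = ∑_{d ∣ n, p ∤ d} d`.
-/

open UpperHalfPlane ModularForm CongruenceSubgroup Matrix Filter Topology EisensteinSeries
open scoped MatrixGroups ModularForm Manifold Pointwise Real

noncomputable section

namespace Fermat.Agent.S16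

open Fermat.Agent.S23 (alphaN val_alphaN det_alphaN det_alphaN_pos coe_alphaN_smul denom_alphaN
  sigma_alphaN coe_GL_val sl_det_eq mkSL mkSL_val sigma_mapGL)

local notation "𝕢" => Function.Periodic.qParam

variable (N : ℕ) [NeZero N]

/-- `(E₂ ∣[2] diag(N,1)) z = N * E₂ (N z)`. -/
theorem el_E2_slash_alphaN_apply (z : ℍ) :
    (E2 ∣[(2 : ℤ)] alphaN N) z = (N : ℂ) * E2 (alphaN N • z) := by
  rw [ModularForm.slash_apply, sigma_alphaN, denom_alphaN, det_alphaN]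
  simp [mul_comm]

/-- The function `(N E₂(N z) - E₂(z)) / 24`. -/
def el_fun : ℍ → ℂ := (24 : ℂ)⁻¹ • (E2 ∣[(2 : ℤ)] alphaN N - E2)

theorem el_fun_apply (z : ℍ) :
    el_fun N z = ((N : ℂ) * E2 (alphaN N • z) - E2 z) / 24 := by
  simp only [el_fun, Pi.smul_apply, Pi.sub_apply, el_E2_slash_alphaN_apply, smul_eq_mul]
  ring

theorem el_mdiff : MDiff (el_fun N) :=
  ((E2_mdifferentiable.slash 2 (alphaN N)).sub E2_mdifferentiable).const_smul _

/-- `E₂ ∣[2] γ` for `γ ∈ SL(2,ℤ)` viewed in `GL(2,ℝ)`. -/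
theorem el_E2_slash_mapGL (γ : SL(2, ℤ)) :
    E2 ∣[(2 : ℤ)] (Matrix.SpecialLinearGroup.mapGL ℝ γ) =
      E2 - (1 / (2 * riemannZeta 2)) • D2 γ :=
  E2_slash_action γ


/-- The constant `1 / (2 ζ(2))` is real, hence fixed by `σ g`. -/
theorem el_sigma_const (g : GL (Fin 2) ℝ) :
    UpperHalfPlane.σ g (1 / (2 * riemannZeta 2)) = 1 / (2 * riemannZeta 2) := by
  have h : (1 / (2 * riemannZeta 2) : ℂ) = ((1 / (2 * (π ^ 2 / 6)) : ℝ) : ℂ) := by
    rw [riemannZeta_two]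
    push_cast
    ring
  rw [h, UpperHalfPlane.σ_ofReal]

/-- Conjugating `γ ∈ Γ₀(N)` by `diag(N,1)`, with explicit bottom row. -/
theorem el_exists_conj (γ : SL(2, ℤ)) (c' : ℤ) (hc' : γ 1 0 = N * c') :
    ∃ γ' : SL(2, ℤ), γ' 1 0 = c' ∧ γ' 1 1 = γ 1 1 ∧
      Matrix.SpecialLinearGroup.mapGL ℝ γ' * alphaN N =
        alphaN N * Matrix.SpecialLinearGroup.mapGL ℝ γ := by
  have hdet := sl_det_eq γ
  refine ⟨mkSL (γ 0 0) (N * γ 0 1) c' (γ 1 1) (by rw [hc'] at hdet; linear_combination hdet),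
    rfl, rfl, ?_⟩
  apply Matrix.GeneralLinearGroup.ext
  intro i j
  rw [Matrix.GeneralLinearGroup.coe_mul, Matrix.GeneralLinearGroup.coe_mul, coe_GL_val, coe_GL_val,
    val_alphaN]
  fin_cases i <;> fin_cases j <;> simp [mkSL, hc', mul_comm]

/-- Key conjugation identity for the correction term `D2`. -/
theorem el_D2_slash_alphaN (γ γ' : SL(2, ℤ)) (h10 : γ 1 0 = N * γ' 1 0) (h11 : γ' 1 1 = γ 1 1) :
    (D2 γ') ∣[(2 : ℤ)] alphaN N = D2 γ := by
  ext z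
  rw [ModularForm.slash_apply, sigma_alphaN, denom_alphaN, det_alphaN]
  have hN : (N : ℂ) ≠ 0 := Nat.cast_ne_zero.mpr (NeZero.ne N)
  have hden : ((γ 1 0 : ℤ) : ℂ) * z + ((γ 1 1 : ℤ) : ℂ) ≠ 0 := by
    have := UpperHalfPlane.denom_ne_zero (Matrix.SpecialLinearGroup.mapGL ℝ γ) z
    simpa [UpperHalfPlane.denom] using this
  have hd1 : UpperHalfPlane.denom (γ' : GL (Fin 2) ℝ) ((alphaN N • z : ℍ) : ℂ) =
      ((γ 1 0 : ℤ) : ℂ) * z + ((γ 1 1 : ℤ) : ℂ) := by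
    rw [coe_alphaN_smul]
    simp [UpperHalfPlane.denom, h10, h11]
    ring
  have hd2 : UpperHalfPlane.denom (γ : GL (Fin 2) ℝ) (z : ℂ) =
      ((γ 1 0 : ℤ) : ℂ) * z + ((γ 1 1 : ℤ) : ℂ) := by
    simp [UpperHalfPlane.denom]
  simp only [D2, hd1, hd2, h10]
  rw [abs_of_pos (Nat.cast_pos.mpr (Nat.pos_of_ne_zero (NeZero.ne N)) : (0 : ℝ) < N)]
  push_cast
  field_simp


theorem el_sub_slash (k : ℤ) (A : GL (Fin 2) ℝ) (f g : ℍ → ℂ) :
    (f - g) ∣[k] A = f ∣[k] A - g ∣[k] A := by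
  rw [sub_eq_add_neg, SlashAction.add_slash, SlashAction.neg_slash, ← sub_eq_add_neg]

/-- Slash of `E₂ ∣ diag(N,1)` by `γ`, through a decomposition `diag(N,1) γ = γ' u`. -/
theorem el_slash_alphaN_slash (γ γ' : SL(2, ℤ)) (u : GL (Fin 2) ℝ)
    (h : Matrix.SpecialLinearGroup.mapGL ℝ γ' * u =
      alphaN N * Matrix.SpecialLinearGroup.mapGL ℝ γ) :
    (E2 ∣[(2 : ℤ)] alphaN N) ∣[(2 : ℤ)] (Matrix.SpecialLinearGroup.mapGL ℝ γ) =
      (E2 - (1 / (2 * riemannZeta 2)) • D2 γ') ∣[(2 : ℤ)] u := by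
  rw [← SlashAction.slash_mul, ← h, SlashAction.slash_mul, el_E2_slash_mapGL]

/-- `el_fun N` is invariant under `Γ₀(N)`. -/
theorem el_fun_slash_of_mem (γ : SL(2, ℤ)) (hγ : γ ∈ Gamma0 N) :
    el_fun N ∣[(2 : ℤ)] (Matrix.SpecialLinearGroup.mapGL ℝ γ) = el_fun N := by
  rw [Gamma0_mem, ZMod.intCast_zmod_eq_zero_iff_dvd] at hγ
  obtain ⟨c', hc'⟩ := hγ
  obtain ⟨γ', h10, h11, hconj⟩ := el_exists_conj N γ c' hc'
  have hD : (D2 γ') ∣[(2 : ℤ)] alphaN N = D2 γ :=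
    el_D2_slash_alphaN N γ γ' (by rw [h10]; exact hc') h11
  rw [el_fun, ModularForm.smul_slash, sigma_mapGL, el_sub_slash,
    el_slash_alphaN_slash N γ γ' (alphaN N) hconj, el_E2_slash_mapGL, el_sub_slash,
    ModularForm.smul_slash, el_sigma_const, hD]
  congr 1
  abel


/-- The correction term `D2 γ` is bounded at `i∞`. -/
theorem el_isBounded_D2 (γ : SL(2, ℤ)) : IsBoundedAtImInfty (D2 γ) := by
  rw [UpperHalfPlane.isBoundedAtImInfty_iff]
  refine ⟨2 * π, 1, fun z hz ↦ ?_⟩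
  have hd : UpperHalfPlane.denom (γ : GL (Fin 2) ℝ) (z : ℂ) =
      ((γ 1 0 : ℤ) : ℂ) * z + ((γ 1 1 : ℤ) : ℂ) := by
    simp [UpperHalfPlane.denom]
  simp only [D2, hd]
  by_cases hc : (γ 1 0 : ℤ) = 0
  · simp [hc]
    positivity
  have hcR : (0 : ℝ) < |((γ 1 0 : ℤ) : ℝ)| := abs_pos.mpr (Int.cast_ne_zero.mpr hc)
  have him : |((γ 1 0 : ℤ) : ℝ)| ≤ ‖((γ 1 0 : ℤ) : ℂ) * z + ((γ 1 1 : ℤ) : ℂ)‖ := by
    calc |((γ 1 0 : ℤ) : ℝ)| ≤ |((γ 1 0 : ℤ) : ℝ)| * z.im := by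
          nlinarith [hcR, hz]
      _ = |(((γ 1 0 : ℤ) : ℂ) * z + ((γ 1 1 : ℤ) : ℂ)).im| := by
          simp [abs_mul, abs_of_pos z.im_pos]
      _ ≤ ‖((γ 1 0 : ℤ) : ℂ) * z + ((γ 1 1 : ℤ) : ℂ)‖ := Complex.abs_im_le_norm _
  have hpos : 0 < ‖((γ 1 0 : ℤ) : ℂ) * z + ((γ 1 1 : ℤ) : ℂ)‖ := hcR.trans_le him
  rw [norm_div, div_le_iff₀ hpos]
  have : ‖2 * (π : ℂ) * Complex.I * ((γ 1 0 : ℤ) : ℂ)‖ = 2 * π * |((γ 1 0 : ℤ) : ℝ)| := by
    simp [abs_of_pos Real.pi_pos]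
  rw [this]
  exact mul_le_mul_of_nonneg_left him (by positivity)

/-- `E₂ - (1 / (2 ζ(2))) • D2 γ` is bounded at `i∞`. -/
theorem el_isBounded_E2_sub (γ : SL(2, ℤ)) :
    IsBoundedAtImInfty (E2 - (1 / (2 * riemannZeta 2)) • D2 γ) := by
  have h1 : IsBoundedAtImInfty E2 := isBoundedAtImInfty_E2
  have h2 : IsBoundedAtImInfty ((1 / (2 * riemannZeta 2)) • D2 γ) :=
    Filter.BoundedAtFilter.smul _ (el_isBounded_D2 γ)
  have := Filter.BoundedAtFilter.add h1 (Filter.BoundedAtFilter.neg h2)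
  rwa [← sub_eq_add_neg] at this


/-- Hermite decomposition `diag(p,1) γ = γ' u` with `u` upper triangular, `p` prime. -/
theorem el_exists_decomp (p : ℕ) [Fact p.Prime] (γ : SL(2, ℤ)) :
    ∃ (γ' : SL(2, ℤ)) (u : GL (Fin 2) ℝ), (u : Matrix (Fin 2) (Fin 2) ℝ) 1 0 = 0 ∧
      Matrix.SpecialLinearGroup.mapGL ℝ γ' * u =
        alphaN p * Matrix.SpecialLinearGroup.mapGL ℝ γ := by
  have hp : p.Prime := Fact.out
  by_cases hdvd : (p : ℤ) ∣ γ 1 0
  · obtain ⟨c', hc'⟩ := hdvd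
    obtain ⟨γ', -, -, hconj⟩ := el_exists_conj p γ c' hc'
    exact ⟨γ', alphaN p, by simp, hconj⟩
  · have hcop : IsCoprime (γ 1 0) (p : ℤ) :=
      ((Nat.prime_iff_prime_int.mp hp).coprime_iff_not_dvd.mpr hdvd).symm
    obtain ⟨s, t, hst⟩ := hcop
    have hdet := sl_det_eq γ
    have hp0 : ((1 : ℝ) * (p : ℝ)) ≠ 0 := by
      rw [one_mul]; exact_mod_cast hp.ne_zero
    refine ⟨mkSL (p * γ 0 0) (γ 0 1 - γ 0 0 * (s * γ 1 1)) (γ 1 0) (t * γ 1 1)
      (by linear_combination (γ 0 0 * γ 1 1) * hst + hdet),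
      ModularForm.upperTriangularGL 1 ((s * γ 1 1 : ℤ) : ℝ) p hp0, by simp, ?_⟩
    apply Matrix.GeneralLinearGroup.ext
    intro i j
    rw [Matrix.GeneralLinearGroup.coe_mul, Matrix.GeneralLinearGroup.coe_mul, coe_GL_val,
      coe_GL_val, val_alphaN, ModularForm.val_upperTriangularGL]
    have hstR : (s : ℝ) * ((γ 1 0 : ℤ) : ℝ) + (t : ℝ) * (p : ℝ) = 1 := by exact_mod_cast hst
    fin_cases i <;> fin_cases j
    · simp [mkSL]
    · simp [mkSL]
      ring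
    · simp [mkSL]
    · simp [mkSL]
      linear_combination (((γ 1 1 : ℤ) : ℝ)) * hstR

/-- All `SL(2,ℤ)`-translates of `el_fun p` are bounded at `i∞`. -/
theorem el_isBounded_slash (p : ℕ) [Fact p.Prime] (γ : SL(2, ℤ)) :
    IsBoundedAtImInfty (el_fun p ∣[(2 : ℤ)] (Matrix.SpecialLinearGroup.mapGL ℝ γ)) := by
  obtain ⟨γ', u, hu, hdec⟩ := el_exists_decomp p γ
  rw [el_fun, ModularForm.smul_slash, el_sub_slash, el_slash_alphaN_slash p γ γ' u hdec,
    el_E2_slash_mapGL]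
  refine Filter.BoundedAtFilter.smul _ ?_
  have h1 := UpperHalfPlane.IsBoundedAtImInfty.slash (g := u) 2 hu (el_isBounded_E2_sub γ')
  have := Filter.BoundedAtFilter.add h1 (Filter.BoundedAtFilter.neg (el_isBounded_E2_sub γ))
  rwa [← sub_eq_add_neg] at this


/-- The weight-two Eisenstein series `(p E₂(p z) - E₂(z)) / 24` of prime level `p`. -/
def eisP (p : ℕ) [Fact p.Prime] : ModularForm (Gamma0 p) 2 where
  toFun := el_fun p
  slash_action_eq' := by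
    rintro _ ⟨γ, hγ, rfl⟩
    exact el_fun_slash_of_mem p γ hγ
  holo' := el_mdiff p
  bdd_at_cusps' := by
    intro c hc
    have hc' : IsCusp c 𝒮ℒ := hc.mono (Subgroup.map_le_range _ _)
    rw [OnePoint.isBoundedAt_iff_forall_SL2Z hc']
    intro γ _
    exact el_isBounded_slash p γ


/-! ### The `q`-expansion -/

/-- The `q`-expansion coefficients of `E₂`. -/
def el_a (m : ℕ) : ℂ := if m = 0 then 1 else -24 * (ArithmeticFunction.sigma 1 m : ℂ)

theorem el_hasSum_E2 (z : ℍ) : HasSum (fun m : ℕ ↦ el_a m • 𝕢 1 (z : ℂ) ^ m) (E2 z) := by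
  have := hasSum_qExpansion_E2 (z := z)
  simpa only [Function.Periodic.qParam, Complex.ofReal_one, div_one, el_a] using this

theorem el_qParam_alphaN_smul (z : ℍ) :
    𝕢 1 ((alphaN N • z : ℍ) : ℂ) = 𝕢 1 (z : ℂ) ^ N := by
  rw [coe_alphaN_smul, Function.Periodic.qParam, Function.Periodic.qParam, ← Complex.exp_nat_mul]
  congr 1
  simp only [Complex.ofReal_one, div_one]
  ring

theorem el_hasSum_E2_alphaN (z : ℍ) :
    HasSum (fun n : ℕ ↦ (if N ∣ n then el_a (n / N) else 0) • 𝕢 1 (z : ℂ) ^ n)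
      (E2 (alphaN N • z)) := by
  have hNpos : 0 < N := Nat.pos_of_ne_zero (NeZero.ne N)
  have hinj : Function.Injective (fun m : ℕ => N * m) := fun a b hab =>
    Nat.eq_of_mul_eq_mul_left hNpos hab
  rw [← hinj.hasSum_iff]
  · have h3 : ((fun n : ℕ => (if N ∣ n then el_a (n / N) else 0) • 𝕢 1 (z : ℂ) ^ n) ∘
        fun m : ℕ => N * m) = fun m => el_a m • 𝕢 1 ((alphaN N • z : ℍ) : ℂ) ^ m := by
      funext m
      simp only [Function.comp, Nat.mul_div_cancel_left _ hNpos, dvd_mul_right, if_true]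
      rw [el_qParam_alphaN_smul, pow_mul]
    rw [h3]
    exact el_hasSum_E2 (alphaN N • z)
  · intro x hx
    have : ¬ N ∣ x := fun ⟨m, hm⟩ => hx ⟨m, hm.symm⟩
    simp [this]

/-- The `q`-expansion coefficients of `el_fun N`. -/
def el_c (n : ℕ) : ℂ := ((N : ℂ) * (if N ∣ n then el_a (n / N) else 0) - el_a n) / 24

theorem el_hasSum_fun (z : ℍ) : HasSum (fun n : ℕ ↦ el_c N n • 𝕢 1 (z : ℂ) ^ n) (el_fun N z) := by
  rw [el_fun_apply]
  have h1 := (el_hasSum_E2_alphaN N z).mul_left (N : ℂ)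
  have h2 := ((h1.sub (el_hasSum_E2 z)).div_const 24)
  refine h2.congr_fun fun n ↦ ?_   
  simp only [el_c, smul_eq_mul]
  ring


/-- `σ'(n) = ∑_{d ∣ n, p ∤ d} d = σ₁(n) - p σ₁(n / p)` (second term only if `p ∣ n`). -/
theorem el_sum_divisors_filter (p : ℕ) (hp : 0 < p) (n : ℕ) (hn : n ≠ 0) :
    ((∑ d ∈ n.divisors.filter (fun d => ¬ p ∣ d), d : ℕ) : ℤ) =
      (ArithmeticFunction.sigma 1 n : ℤ) -
        (if p ∣ n then (p : ℤ) * (ArithmeticFunction.sigma 1 (n / p) : ℤ) else 0) := by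
  have hsplit : ArithmeticFunction.sigma 1 n =
      (∑ d ∈ n.divisors.filter (fun d => p ∣ d), d) +
        ∑ d ∈ n.divisors.filter (fun d => ¬ p ∣ d), d := by
    rw [ArithmeticFunction.sigma_one_apply, Finset.sum_filter_add_sum_filter_not]
  have hdiv : (∑ d ∈ n.divisors.filter (fun d => p ∣ d), d) =
      if p ∣ n then p * ArithmeticFunction.sigma 1 (n / p) else 0 := by
    split_ifs with h
    · obtain ⟨m, rfl⟩ := h
      have hm : m ≠ 0 := fun h0 ↦ hn (by simp [h0])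
      rw [Nat.mul_div_cancel_left _ hp, ArithmeticFunction.sigma_one_apply, Finset.mul_sum]
      refine (Finset.sum_bij (fun d _ ↦ p * d) (fun d hd ↦ ?_) (fun a _ b _ hab ↦ ?_)
        (fun d hd ↦ ?_) (fun _ _ ↦ rfl)).symm
      · rw [Finset.mem_filter, Nat.mem_divisors]
        exact ⟨⟨Nat.mul_dvd_mul_left p (Nat.dvd_of_mem_divisors hd), hn⟩, dvd_mul_right _ _⟩
      · exact Nat.eq_of_mul_eq_mul_left hp hab
      · rw [Finset.mem_filter, Nat.mem_divisors] at hd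
        obtain ⟨⟨hd1, -⟩, ⟨d', rfl⟩⟩ := hd
        exact ⟨d', Nat.mem_divisors.mpr ⟨(Nat.mul_dvd_mul_iff_left hp).mp hd1, hm⟩, rfl⟩
    · refine Finset.sum_eq_zero fun d hd ↦ ?_
      rw [Finset.mem_filter, Nat.mem_divisors] at hd
      exact absurd (hd.2.trans hd.1.1) h
  rw [hsplit, hdiv]
  split_ifs <;> push_cast <;> ring

/-- **`q`-expansion of the Eisenstein series of level `p`.** -/
theorem el_qExpansion_eisP_sum (p : ℕ) [Fact p.Prime] (n : ℕ) :
    (qExpansion 1 (eisP p)).coeff n =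
      if n = 0 then ((p : ℂ) - 1) / 24
      else ((∑ d ∈ n.divisors.filter (fun d => ¬ p ∣ d), d : ℕ) : ℂ) := by
  have hp : p.Prime := Fact.out
  have hΓ : (1 : ℝ) ∈ ((Gamma0 p : Subgroup (GL (Fin 2) ℝ))).strictPeriods :=
    CongruenceSubgroup.one_mem_strictPeriods_Gamma0 p
  have key := ModularFormClass.qExpansion_coeff_unique (f := eisP p) (c := el_c p) one_pos hΓ
    (fun τ ↦ el_hasSum_fun p τ) n
  rw [← key]
  split_ifs with h0
  · subst h0
    simp [el_c, el_a]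
  · have h1 := el_sum_divisors_filter p hp.pos n h0
    have h2 : ((∑ d ∈ n.divisors.filter (fun d => ¬ p ∣ d), d : ℕ) : ℂ) =
        (((∑ d ∈ n.divisors.filter (fun d => ¬ p ∣ d), d : ℕ) : ℤ) : ℂ) := by push_cast; rfl
    rw [h2, h1]
    unfold el_c el_a
    by_cases hpn : p ∣ n
    · have hnp : n / p ≠ 0 := by
        obtain ⟨m, rfl⟩ := hpn
        rw [Nat.mul_div_cancel_left _ hp.pos]
        exact fun hm ↦ h0 (by simp [hm])
      simp only [hpn, if_true, h0, if_false, hnp]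
      push_cast
      ring
    · simp only [hpn, if_false, h0]
      push_cast
      ring


theorem eisP_apply (p : ℕ) [Fact p.Prime] (z : ℍ) :
    eisP p z = ((p : ℂ) * E2 (alphaN p • z) - E2 z) / 24 :=
  el_fun_apply p z

theorem coe_eisP (p : ℕ) [Fact p.Prime] : (eisP p : ℍ → ℂ) = el_fun p := rfl

/-- **`q`-expansion of the Eisenstein series of level `p`**, in terms of `sigmaP`. -/
theorem qExpansion_eisP (p : ℕ) [Fact p.Prime] (n : ℕ) :
    (qExpansion 1 (eisP p)).coeff n =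
      if n = 0 then ((p : ℂ) - 1) / 24 else (sigmaP p n : ℂ) :=
  el_qExpansion_eisP_sum p n

/-- The `q`-expansion of `eisP p` as a `HasSum`. -/
theorem hasSum_qExpansion_eisP (p : ℕ) [Fact p.Prime] (z : ℍ) :
    HasSum (fun n : ℕ ↦ (if n = 0 then ((p : ℂ) - 1) / 24 else (sigmaP p n : ℂ)) •
      𝕢 1 (z : ℂ) ^ n) (eisP p z) := by
  have hΓ : (1 : ℝ) ∈ ((Gamma0 p : Subgroup (GL (Fin 2) ℝ))).strictPeriods :=
    CongruenceSubgroup.one_mem_strictPeriods_Gamma0 p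
  have h := ModularForm.hasSum_qExpansion (f := eisP p) one_pos hΓ z
  refine h.congr_fun fun n ↦ ?_
  rw [qExpansion_eisP]
  rfl


/-- `eisP p` is bounded at `i∞`, is holomorphic and `1`-periodic (function-level facts). -/
theorem el_isBounded_eisP (p : ℕ) [Fact p.Prime] : IsBoundedAtImInfty (eisP p : ℍ → ℂ) := by
  have := el_isBounded_slash p 1
  rw [coe_eisP]
  simpa using this

theorem el_periodic_eisP (p : ℕ) [Fact p.Prime] :
    Function.Periodic ((eisP p : ℍ → ℂ) ∘ UpperHalfPlane.ofComplex) 1 := by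
  have hΓ : (1 : ℝ) ∈ ((Gamma0 p : Subgroup (GL (Fin 2) ℝ))).strictPeriods :=
    CongruenceSubgroup.one_mem_strictPeriods_Gamma0 p
  simpa using SlashInvariantFormClass.periodic_comp_ofComplex (eisP p) hΓ

/-- **`U_p` fixes the Eisenstein series of level `p`** (function identity). -/
theorem heckeU_eisP (p : ℕ) [Fact p.Prime] :
    ModularForm.heckeU 2 p (eisP p : ℍ → ℂ) = (eisP p : ℍ → ℂ) := by
  have hp : p.Prime := Fact.out
  have hΓ : (1 : ℝ) ∈ ((Gamma0 p : Subgroup (GL (Fin 2) ℝ))).strictPeriods :=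
    CongruenceSubgroup.one_mem_strictPeriods_Gamma0 p
  refine UpperHalfPlane.eq_of_forall_qCoeff_eq
    (ModularForm.periodic_heckeU_comp_ofComplex (el_periodic_eisP p) 2 p)
    (ModularForm.mdifferentiable_heckeU (el_mdiff p) 2 p)
    (ModularForm.isBoundedAtImInfty_heckeU (el_isBounded_eisP p) 2 p)
    (el_periodic_eisP p) (el_mdiff p) (el_isBounded_eisP p) fun n ↦ ?_
  rw [ModularFormClass.qCoeff_heckeU (eisP p) hΓ hp.ne_zero, ModularForm.coeffHeckeU_apply]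
  unfold ModularFormClass.qCoeff
  rw [qExpansion_eisP, qExpansion_eisP]
  rcases Nat.eq_zero_or_pos n with rfl | hn
  · simp
  · rw [if_neg (Nat.mul_ne_zero hn.ne' hp.ne_zero), if_neg hn.ne', mul_comm n p,
      sigmaP_mul_self hp]

end Fermat.Agent.S16
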