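import Mathlib
import Fermat.Agent.S16.Fricke
import Fermat.Prelude.Thm_UpperHalfPlane_qCoeff_heckeU
import Fermat.Prelude.Def_ModularForm_HeckeOperatorForms
import Fermat.Prelude.Thm_ModularForm_mdifferentiable_heckeU
import Fermat.Prelude.Thm_ModularForm_isBoundedAtImInfty_heckeU
import Fermat.Prelude.Thm_ModularForm_periodic_heckeU_comp_ofComplex

/-!
# S16 library: the Fricke involution in weights 2 and 4 (blocks F5–F7 of the S16 interface)

* (F5) on `M₂(Γ₀(p))`: `sharp f = -p⁻¹ U_p f`, `U_p² = 1`, and `a₀ f = 0 ⟹ f` is a cusp form;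
* (F6) for `f f' ∈ M₂(Γ₀(p))`: `p f f' + U_p (U_p f · U_p f') = (p+1) a₀(f) a₀(f') E₄`.
-/

set_option autoImplicit false
set_option linter.unusedSectionVars false

open UpperHalfPlane ModularForm CongruenceSubgroup Matrix Filter Topology
open scoped MatrixGroups ModularForm Manifold Pointwise Real

noncomputable section

namespace Fermat.Agent.S16

open Fermat.Agent.S23 Fermat.Agent.S23.QF

variable (p : ℕ) [Fact p.Prime]

/-! ### (F5) weight 2 -/

/-- Every level-one form of weight `2` vanishes. -/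
theorem fw_levelOne_wt_two_eq_zero (F : ModularForm 𝒮ℒ 2) : F = 0 :=
  rank_zero_iff_forall_zero.mp levelOne_weight_two_rank_zero F

/-- **(F5a)** on `M₂(Γ₀(p))` the Fricke transform is `-p⁻¹ U_p`. -/
theorem sharp_eq_heckeU (f : ModularForm (Gamma0 p) 2) :
    sharp p f = (-(p : ℂ)⁻¹) • heckeU 2 p ⇑f := by
  have hp0 : p ≠ 0 := (Fact.out : p.Prime).ne_zero
  have hpC : (p : ℂ) ≠ 0 := Nat.cast_ne_zero.mpr hp0
  have h0 : ⇑(ModularForm.trace 𝒮ℒ (sharpForm p f)) = 0 := by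
    rw [fw_levelOne_wt_two_eq_zero (ModularForm.trace 𝒮ℒ (sharpForm p f))]; rfl
  rw [fr_coe_trace, sharp_sharpForm, coe_sharpForm, heckeU_smul] at h0
  have h1 : sharp p f = -((p : ℂ) • (((-1 : ℂ) ^ (2 : ℤ) * (p : ℂ) ^ (-(2 : ℤ))) • heckeU 2 p ⇑f)) :=
    eq_neg_of_add_eq_zero_left h0
  rw [h1]
  ext z
  simp only [Pi.neg_apply, Pi.smul_apply, smul_eq_mul]
  rw [_root_.zpow_neg]
  norm_num
  field_simp

/-- **(F5b)** `U_p` is an involution on `M₂(Γ₀(p))`. -/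
theorem heckeU_heckeU (f : ModularForm (Gamma0 p) 2) :
    heckeU 2 p (heckeU 2 p ⇑f) = ⇑f := by
  have hp0 : p ≠ 0 := (Fact.out : p.Prime).ne_zero
  have hpC : (p : ℂ) ≠ 0 := Nat.cast_ne_zero.mpr hp0
  have h1 := sharp_eq_heckeU p (sharpForm p f)
  rw [sharp_sharpForm, coe_sharpForm, sharp_eq_heckeU, heckeU_smul] at h1
  ext z
  have h2 := congrFun h1 z
  simp only [Pi.smul_apply, smul_eq_mul] at h2
  rw [_root_.zpow_neg] at h2
  have h3 : ((p : ℂ) ^ (2 : ℤ)) = (p : ℂ) ^ 2 := by norm_cast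
  rw [h3] at h2
  have h4 : ((-1 : ℂ) ^ (2 : ℤ)) = 1 := by norm_num
  rw [h4] at h2
  field_simp at h2
  linear_combination -h2

/-- A `q`-function whose `q`-expansion has vanishing constant term is zero at `i∞`. -/
theorem fw_isZeroAtImInfty_of_coeff_zero {F : ℍ → ℂ} (hF : IsQFun F)
    (h : (qExpansion 1 F).coeff 0 = 0) : IsZeroAtImInfty F := by
  have hanal := hF.analyticAt
  have hper := hF.periodic'
  have h0 : cuspFunction 1 F 0 = 0 := by
    rw [qExpansion_coeff] at h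
    simpa using h
  have hcomp : (cuspFunction 1 F ∘ fun τ : ℍ ↦ Function.Periodic.qParam 1 τ : ℍ → ℂ) = F := by
    funext τ
    simpa using eq_cuspFunction τ one_ne_zero hper
  have := hanal.continuousAt.tendsto.comp (qParam_tendsto_atImInfty one_pos)
  rw [h0, hcomp] at this
  exact this

/-- the constant term of a `q`-function zero at `i∞` vanishes -/
theorem fw_coeff_zero_of_isZeroAtImInfty {F : ℍ → ℂ} (hF : IsQFun F)
    (h : IsZeroAtImInfty F) : (qExpansion 1 F).coeff 0 = 0 := by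
  rw [qExpansion_coeff_zero one_pos hF.analyticAt hF.periodic']
  exact h.valueAtInfty_eq_zero

variable {k : ℤ}

/-- `U_p` preserves vanishing at `i∞`. -/
theorem fw_isZeroAtImInfty_heckeU {g : ℍ → ℂ} (hg : IsZeroAtImInfty g) :
    IsZeroAtImInfty (heckeU k p g) := by
  have hp0 : p ≠ 0 := (Fact.out : p.Prime).ne_zero
  rw [heckeU_def]
  have : ∀ j ∈ Finset.range p, IsZeroAtImInfty (g ∣[k] heckeMatrix p j) := by
    intro j _
    exact hg.slash k (by simp [val_heckeMatrix hp0])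
  unfold IsZeroAtImInfty ZeroAtFilter at this ⊢
  have h2 := tendsto_finsetSum (Finset.range p) this
  have h3 : (∑ j ∈ Finset.range p, g ∣[k] heckeMatrix p j) =
      fun b => ∑ c ∈ Finset.range p, (g ∣[k] heckeMatrix p c) b := by
    ext b; rw [Finset.sum_apply]
  rw [h3]
  simpa using h2

/-- composition with `z ↦ (z + j)/p` preserves vanishing at `i∞`. -/
theorem fw_isZeroAtImInfty_comp_heckeMatrix {g : ℍ → ℂ} (hg : IsZeroAtImInfty g) (j : ℕ) :
    IsZeroAtImInfty (fun z => g (heckeMatrix p j • z)) := by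
  have hp0 : p ≠ 0 := (Fact.out : p.Prime).ne_zero
  have hpC : (p : ℂ) ≠ 0 := Nat.cast_ne_zero.mpr hp0
  have h1 : IsZeroAtImInfty (g ∣[(0 : ℤ)] heckeMatrix p j) :=
    hg.slash 0 (by simp [val_heckeMatrix hp0])
  have h2 : (fun z => g (heckeMatrix p j • z)) = (p : ℂ) • (g ∣[(0 : ℤ)] heckeMatrix p j) := by
    ext z
    rw [Pi.smul_apply, slash_heckeMatrix_apply 0 hp0, smul_eq_mul, ← mul_assoc,
      mul_inv_cancel₀ hpC, one_mul]
  rw [h2]
  exact h1.smul _

/-- every `SL(2,ℤ)`-translate of `f` is the translate by one of the `p + 1` representatives. -/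
theorem fw_slash_eq_slash_rep (f : ModularForm (Gamma0 p) k) (γ : SL(2, ℤ)) :
    ∃ o, ⇑f ∣[k] γ = ⇑f ∣[k] frRepSL p o := by
  obtain ⟨o, ho⟩ := fr_rep_surj p γ⁻¹
  refine ⟨o, ?_⟩
  have h1 : frRepSL p o = (frRepSL p o * γ⁻¹) * γ := by group
  have h2 : ⇑f ∣[k] (frRepSL p o * γ⁻¹) = ⇑f :=
    SlashInvariantFormClass.slash_action_eq f _ ⟨_, ho, rfl⟩
  conv_rhs => rw [h1, SlashAction.slash_mul, h2]

/-- `f` vanishes at every cusp as soon as `f` and `sharp f` vanish at `i∞`. -/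
theorem fw_isZeroAtImInfty_slash (f : ModularForm (Gamma0 p) k) (hf : IsZeroAtImInfty ⇑f)
    (hs : IsZeroAtImInfty (sharp p f)) (γ : SL(2, ℤ)) : IsZeroAtImInfty (⇑f ∣[k] γ) := by
  obtain ⟨o, ho⟩ := fw_slash_eq_slash_rep p f γ
  rw [ho]
  rcases o with _ | j
  · simpa [frRepSL] using hf
  · show IsZeroAtImInfty (⇑f ∣[k] (ModularGroup.S * ModularGroup.T ^ (j : ℕ)))
    rw [fr_slash_S_mul_T_pow]
    exact fw_isZeroAtImInfty_comp_heckeMatrix p hs j

/-- a modular form on `Γ₀(p)` such that `f` and `sharp f` vanish at `i∞` is a cusp form. -/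
def fw_toCuspForm (f : ModularForm (Gamma0 p) k) (hf : IsZeroAtImInfty ⇑f)
    (hs : IsZeroAtImInfty (sharp p f)) : CuspForm (Gamma0 p) k where
  toSlashInvariantForm := f.toSlashInvariantForm
  holo' := f.holo'
  zero_at_cusps' := by
    intro c hc
    rw [Subgroup.IsArithmetic.isCusp_iff_isCusp_SL2Z] at hc
    rw [OnePoint.isZeroAt_iff_forall_SL2Z hc]
    intro γ _
    exact fw_isZeroAtImInfty_slash p f hf hs γ

@[simp] theorem coe_fw_toCuspForm (f : ModularForm (Gamma0 p) k) (hf : IsZeroAtImInfty ⇑f)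
    (hs : IsZeroAtImInfty (sharp p f)) : ⇑(fw_toCuspForm p f hf hs) = ⇑f := rfl

/-- **(F5c)** a weight-2 form on `Γ₀(p)` with vanishing constant term is a cusp form. -/
theorem exists_cuspForm_of_coeff_zero (f : ModularForm (Gamma0 p) 2)
    (h : (qExpansion 1 f).coeff 0 = 0) : ∃ g : CuspForm (Gamma0 p) 2, ⇑g = ⇑f := by
  have hz : IsZeroAtImInfty ⇑f := fw_isZeroAtImInfty_of_coeff_zero (fr_isQFun_coe p f) h
  have hU : IsZeroAtImInfty (heckeU 2 p ⇑f) := fw_isZeroAtImInfty_heckeU p hz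
  have hs : IsZeroAtImInfty (sharp p f) := by
    rw [sharp_eq_heckeU]
    exact hU.smul _
  exact ⟨fw_toCuspForm p f hz hs, rfl⟩

/-! ### (F6) weight 4 -/

theorem fw_isQFun_heckeU {g : ℍ → ℂ} (hg : IsQFun g) (k : ℤ) : IsQFun (heckeU k p g) :=
  ⟨ModularForm.mdifferentiable_heckeU hg.mdiff k p,
    ModularForm.periodic_heckeU_comp_ofComplex hg.periodic k p,
    ModularForm.isBoundedAtImInfty_heckeU hg.bdd k p⟩

theorem fw_coeff_heckeU {g : ℍ → ℂ} (hg : IsQFun g) (k : ℤ) (n : ℕ) :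
    (qExpansion 1 (heckeU k p g)).coeff n = (qExpansion 1 g).coeff (n * p) := by
  have hp0 : p ≠ 0 := (Fact.out : p.Prime).ne_zero
  exact UpperHalfPlane.qCoeff_heckeU hg.periodic hg.mdiff hg.bdd k hp0 n

theorem fw_coeff_zero_heckeU {g : ℍ → ℂ} (hg : IsQFun g) (k : ℤ) :
    (qExpansion 1 (heckeU k p g)).coeff 0 = (qExpansion 1 g).coeff 0 := by
  rw [fw_coeff_heckeU p hg k 0, zero_mul]

/-- `sharp` of a form whose underlying function is a product. -/
theorem sharp_of_coe_eq_mul (N : ℕ) [NeZero N] {k₁ k₂ k : ℤ} (hk : k₁ + k₂ = k)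
    (f : ModularForm (Gamma0 N) k₁) (f' : ModularForm (Gamma0 N) k₂)
    (h : ModularForm (Gamma0 N) k) (hh : ⇑h = ⇑f * ⇑f') :
    sharp N h = sharp N f * sharp N f' := by
  subst hk
  rw [← sharp_mul]
  ext z
  simp only [sharp, hh, ModularForm.coe_mul]

/-- Every level-one form of weight `4` is a multiple of `E₄`. -/
theorem fw_levelOne_wt_four (F : ModularForm 𝒮ℒ 4) : ∃ c : ℂ, c • E₄ = F :=
  (finrank_eq_one_iff_of_nonzero' E₄ (EisensteinSeries.E_ne_zero _ ⟨2, rfl⟩)).mp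
    (Module.rank_eq_one_iff_finrank_eq_one.mp levelOne_weight_four_rank_one) F

/-- **(F6)** the trace identity in weight `4`:
`p f f' + U_p (U_p f · U_p f') = (p + 1) a₀(f) a₀(f') E₄` for `f f' ∈ M₂(Γ₀(p))`. -/
theorem heckeU_mul_identity (f f' : ModularForm (Gamma0 p) 2) :
    (p : ℂ) • (⇑f * ⇑f') + heckeU 4 p (heckeU 2 p ⇑f * heckeU 2 p ⇑f') =
      (((p : ℂ) + 1) * (qExpansion 1 f).coeff 0 * (qExpansion 1 f').coeff 0) • ⇑E₄ := by
  have hp0 : p ≠ 0 := (Fact.out : p.Prime).ne_zero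
  have hpC : (p : ℂ) ≠ 0 := Nat.cast_ne_zero.mpr hp0
  set h : ModularForm (Gamma0 p) 4 := ModularForm.mcast (by norm_num) (f.mul f') with hh
  have hcoe : ⇑h = ⇑f * ⇑f' := rfl
  obtain ⟨c, hc⟩ := fw_levelOne_wt_four (ModularForm.trace 𝒮ℒ h)
  have hf := fr_isQFun_coe p f
  have hf' := fr_isQFun_coe p f'
  have hUf := fw_isQFun_heckeU p hf 2
  have hUf' := fw_isQFun_heckeU p hf' 2
  have hUU := fw_isQFun_heckeU p (hUf.mul hUf') 4
  have htr : ⇑(ModularForm.trace 𝒮ℒ h) =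
      ⇑f * ⇑f' + (p : ℂ)⁻¹ • heckeU 4 p (heckeU 2 p ⇑f * heckeU 2 p ⇑f') := by
    rw [fr_coe_trace, hcoe, sharp_of_coe_eq_mul p (by norm_num) f f' h hcoe, sharp_eq_heckeU,
      sharp_eq_heckeU]
    have h1 : ((-(p : ℂ)⁻¹) • heckeU 2 p ⇑f) * ((-(p : ℂ)⁻¹) • heckeU 2 p ⇑f') =
        ((p : ℂ)⁻¹ * (p : ℂ)⁻¹) • (heckeU 2 p ⇑f * heckeU 2 p ⇑f') := by
      ext z
      simp only [Pi.mul_apply, Pi.smul_apply, smul_eq_mul]
      ring
    rw [h1, heckeU_smul, smul_smul]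
    congr 2
    field_simp
  -- the constant `c`
  have hc0 : c = (1 + (p : ℂ)⁻¹) * ((qExpansion 1 f).coeff 0 * (qExpansion 1 f').coeff 0) := by
    have h2 : (qExpansion 1 ⇑(ModularForm.trace 𝒮ℒ h)).coeff 0 = c := by
      rw [← hc]
      have : ⇑(c • E₄) = c • ⇑E₄ := rfl
      rw [this, qExpansion_smul (fr_isQFun_of_modularForm one_mem_strictPeriods_SL E₄).analyticAt,
        PowerSeries.coeff_smul, EisensteinSeries.E_qExpansion_coeff_zero _ ⟨2, rfl⟩, smul_eq_mul,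
        mul_one]
    rw [← h2, htr, qExpansion_add (hf.mul hf').analyticAt (hUU.smul _).analyticAt,
      qExpansion_smul hUU.analyticAt, map_add, PowerSeries.coeff_smul,
      fw_coeff_zero_heckeU p (hUf.mul hUf') 4,
      qExpansion_mul_coeff_zero hf.analyticAt.continuousAt hf'.analyticAt.continuousAt,
      qExpansion_mul_coeff_zero hUf.analyticAt.continuousAt hUf'.analyticAt.continuousAt,
      fw_coeff_zero_heckeU p hf 2, fw_coeff_zero_heckeU p hf' 2, smul_eq_mul]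
    ring
  have h3 : c • ⇑E₄ = ⇑f * ⇑f' + (p : ℂ)⁻¹ • heckeU 4 p (heckeU 2 p ⇑f * heckeU 2 p ⇑f') := by
    rw [← htr, ← hc]; rfl
  have h4 : (p : ℂ) • (⇑f * ⇑f') + heckeU 4 p (heckeU 2 p ⇑f * heckeU 2 p ⇑f') =
      (p : ℂ) • (c • ⇑E₄) := by
    rw [h3, smul_add, smul_smul, mul_inv_cancel₀ hpC, one_smul]
  rw [h4, smul_smul, hc0]
  congr 1
  field_simp

/-! ### (F7) `T_r` commutes with the Fricke transform -/

section F7

variable (p : ℕ) [Fact p.Prime] (r : ℕ) [Fact r.Prime]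

/-- the index permutation `j ↦ -(p j)⁻¹ mod r`. -/
def fwSigma (j : ℕ) : ℕ := (-(((p * j : ℕ) : ZMod r))⁻¹).val

theorem fw_pj_ne_zero (hrp : r ≠ p) {j : ℕ} (hj : j ∈ Finset.Ico 1 r) :
    ((p * j : ℕ) : ZMod r) ≠ 0 := by
  rw [Finset.mem_Ico] at hj
  rw [Ne, ZMod.natCast_eq_zero_iff]
  intro h
  rcases (Nat.Prime.dvd_mul (Fact.out : r.Prime)).mp h with h | h
  · exact hrp ((Nat.prime_dvd_prime_iff_eq Fact.out Fact.out).mp h)
  · exact absurd (Nat.le_of_dvd (by omega) h) (by omega)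

theorem fwSigma_cast (j : ℕ) : ((fwSigma p r j : ℕ) : ZMod r) = -(((p * j : ℕ) : ZMod r))⁻¹ := by
  rw [fwSigma, ZMod.natCast_zmod_val]

theorem fwSigma_mem (hrp : r ≠ p) {j : ℕ} (hj : j ∈ Finset.Ico 1 r) :
    fwSigma p r j ∈ Finset.Ico 1 r := by
  have h0 := fw_pj_ne_zero p r hrp hj
  rw [Finset.mem_Ico]
  refine ⟨?_, ZMod.val_lt _⟩
  rw [Nat.one_le_iff_ne_zero, fwSigma, Ne, ZMod.val_eq_zero, neg_eq_zero, inv_eq_zero]
  exact h0

theorem fwSigma_dvd (hrp : r ≠ p) {j : ℕ} (hj : j ∈ Finset.Ico 1 r) :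
    (r : ℤ) ∣ (p : ℤ) * j * fwSigma p r j + 1 := by
  have h0 := fw_pj_ne_zero p r hrp hj
  rw [← ZMod.intCast_zmod_eq_zero_iff_dvd]
  push_cast
  have := fwSigma_cast p r j
  push_cast at this h0
  rw [this, mul_neg, mul_inv_cancel₀ h0]
  ring

theorem fwSigma_fwSigma (hrp : r ≠ p) {j : ℕ} (hj : j ∈ Finset.Ico 1 r) :
    fwSigma p r (fwSigma p r j) = j := by
  have h0 := fw_pj_ne_zero p r hrp hj
  have hj' := Finset.mem_Ico.mp hj
  have hp0 : ((p : ℕ) : ZMod r) ≠ 0 := by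
    intro h; apply h0; push_cast; rw [h, zero_mul]
  have hj0 : ((j : ℕ) : ZMod r) ≠ 0 := by
    intro h; apply h0; push_cast; rw [h, mul_zero]
  have h1 : ((fwSigma p r (fwSigma p r j) : ℕ) : ZMod r) = (j : ZMod r) := by
    rw [fwSigma_cast]
    push_cast
    rw [fwSigma_cast]
    push_cast
    field_simp
  have h2 := congrArg ZMod.val h1
  rw [ZMod.val_natCast, ZMod.val_natCast, Nat.mod_eq_of_lt hj'.2,
    Nat.mod_eq_of_lt (Finset.mem_Ico.mp (fwSigma_mem p r hrp (fwSigma_mem p r hrp hj))).2] at h2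
  exact h2

theorem fw_frW_mul_diag :
    frW p * heckeDiagMatrix r = heckeMatrix r 0 * frW p := by
  have hr0 : r ≠ 0 := (Fact.out : r.Prime).ne_zero
  apply Matrix.GeneralLinearGroup.ext
  intro i j
  rw [Matrix.GeneralLinearGroup.coe_mul, Matrix.GeneralLinearGroup.coe_mul, fr_val_frW,
    val_heckeDiagMatrix hr0, val_heckeMatrix hr0]
  fin_cases i <;> fin_cases j <;> simp [Matrix.mul_apply, Fin.sum_univ_two, mul_comm]

theorem fw_frW_mul_zero :
    frW p * heckeMatrix r 0 = heckeDiagMatrix r * frW p := by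
  have hr0 : r ≠ 0 := (Fact.out : r.Prime).ne_zero
  apply Matrix.GeneralLinearGroup.ext
  intro i j
  rw [Matrix.GeneralLinearGroup.coe_mul, Matrix.GeneralLinearGroup.coe_mul, fr_val_frW,
    val_heckeDiagMatrix hr0, val_heckeMatrix hr0]
  fin_cases i <;> fin_cases j <;> simp [Matrix.mul_apply, Fin.sum_univ_two, mul_comm]

theorem fw_frW_mul_heckeMatrix (hrp : r ≠ p) {j : ℕ} (hj : j ∈ Finset.Ico 1 r) :
    ∃ γ : SL(2, ℤ), γ ∈ Gamma0 p ∧
      frW p * heckeMatrix r j =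
        Matrix.SpecialLinearGroup.mapGL ℝ γ * (heckeMatrix r (fwSigma p r j) * frW p) := by
  have hr0 : r ≠ 0 := (Fact.out : r.Prime).ne_zero
  obtain ⟨m, hm⟩ := fwSigma_dvd p r hrp hj
  refine ⟨mkSL r (-(fwSigma p r j : ℤ)) (-((p : ℤ) * j)) m (by linear_combination -hm), ?_, ?_⟩
  · rw [Gamma0_mem]
    simp [mkSL]
  · have hmR : (p : ℝ) * j * (fwSigma p r j : ℝ) + 1 = (r : ℝ) * (m : ℝ) := by exact_mod_cast hm
    apply Matrix.GeneralLinearGroup.ext
    intro a b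
    rw [Matrix.GeneralLinearGroup.coe_mul, Matrix.GeneralLinearGroup.coe_mul,
      Matrix.GeneralLinearGroup.coe_mul, fr_val_frW, val_heckeMatrix hr0, val_heckeMatrix hr0,
      coe_GL_val]
    fin_cases a <;> fin_cases b <;>
      simp [mkSL, Matrix.mul_apply, Fin.sum_univ_two]
    · ring
    · linear_combination (p : ℝ) * hmR

variable {k : ℤ}

/-- slash by `W` commutes with `T_r` on `Γ₀(p)`-invariant functions. -/
theorem fw_heckeT_slash_frW (hrp : r ≠ p) (f : ModularForm (Gamma0 p) k) :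
    (heckeT k r ⇑f) ∣[k] frW p = heckeT k r (⇑f ∣[k] frW p) := by
  have hrpos : 0 < r := (Fact.out : r.Prime).pos
  have hsum : ∑ j ∈ Finset.Ico 1 r, ⇑f ∣[k] (frW p * heckeMatrix r j) =
      ∑ j ∈ Finset.Ico 1 r, ⇑f ∣[k] (heckeMatrix r j * frW p) := by
    apply Finset.sum_nbij' (fwSigma p r) (fwSigma p r)
      (fun j hj => fwSigma_mem p r hrp hj) (fun j hj => fwSigma_mem p r hrp hj)
      (fun j hj => fwSigma_fwSigma p r hrp hj) (fun j hj => fwSigma_fwSigma p r hrp hj)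
    intro j hj
    obtain ⟨γ, hγ, h⟩ := fw_frW_mul_heckeMatrix p r hrp hj
    have hinv : ⇑f ∣[k] Matrix.SpecialLinearGroup.mapGL ℝ γ = ⇑f :=
      SlashInvariantFormClass.slash_action_eq f _
        (show Matrix.SpecialLinearGroup.mapGL ℝ γ ∈ (Gamma0 p : Subgroup (GL (Fin 2) ℝ)) from
          ⟨γ, hγ, rfl⟩)
    rw [h, SlashAction.slash_mul, hinv]
  rw [heckeT_def, heckeT_def, SlashAction.add_slash, SlashAction.sum_slash]
  simp only [← SlashAction.slash_mul]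
  rw [Finset.sum_range_eq_add_Ico _ hrpos, Finset.sum_range_eq_add_Ico _ hrpos,
    fw_frW_mul_zero, fw_frW_mul_diag, hsum]
  abel

/-- **(F7)** `T_r` commutes with the Fricke transform (`r ≠ p` primes): if `F` is the form
`T_r f`, then `sharp F = T_r (sharp f)`. -/
theorem sharp_heckeT (hrp : r ≠ p) (f F : ModularForm (Gamma0 p) k)
    (hF : ⇑F = heckeT k r ⇑f) : sharp p F = heckeT k r (sharp p f) := by
  rw [sharp_eq_smul_slash, sharp_eq_smul_slash, heckeT_smul, hF, fw_heckeT_slash_frW p r hrp]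

/-- (F7) for the bundled prelude operator `heckeTLin`. -/
theorem sharp_heckeTLin (hrp : r ≠ p) (hr : r.Prime) (hrp' : ¬ r ∣ p)
    (f : ModularForm (Gamma0 p) k) :
    sharp p (ModularForm.heckeTLin k hr hrp' f) = heckeT k r (sharp p f) :=
  sharp_heckeT p r hrp f _ rfl

end F7

end Fermat.Agent.S16
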