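import Mathlib
import Fermat.Agent.S23.LevelOneConj

/-!
# S16: level-one Sturm bound modulo an additive subgroup

If the first `k/12 + 1` `q`-coefficients of a level-one modular form of weight `k` lie in an
additive subgroup `I ⊆ ℂ`, then all its coefficients lie in `I`.
(Induction on the weight through `F = a₀ B + Δ · H`, `B = E₄^a E₆^b` with integer coefficients.)
-/

set_option autoImplicit false

open UpperHalfPlane ModularForm ModularFormClass EisensteinSeries
open scoped MatrixGroups Manifold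

namespace Fermat.Agent.S16

namespace SMI

theorem E4_coeff (n : ℕ) :
    (qExpansion 1 E₄).coeff n = if n = 0 then 1 else 240 * (ArithmeticFunction.sigma 3 n : ℂ) := by
  rw [E_qExpansion_coeff _ ⟨2, rfl⟩]
  split_ifs with h
  · rfl
  · norm_num [show bernoulli 4 = -1 / 30 by decide +kernel]

theorem E6_coeff (n : ℕ) :
    (qExpansion 1 E₆).coeff n = if n = 0 then 1 else -504 * (ArithmeticFunction.sigma 5 n : ℂ) := by
  rw [E_qExpansion_coeff _ ⟨3, rfl⟩]
  split_ifs with h
  · rfl
  · norm_num [show bernoulli 6 = 1 / 42 by decide +kernel]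

/-- `∑ σ₃(n) qⁿ` over `ℤ` -/
noncomputable def A3 : PowerSeries ℤ := PowerSeries.mk fun n => (ArithmeticFunction.sigma 3 n : ℤ)

/-- `∑ σ₅(n) qⁿ` over `ℤ` -/
noncomputable def A5 : PowerSeries ℤ := PowerSeries.mk fun n => (ArithmeticFunction.sigma 5 n : ℤ)

/-- `E₄` over `ℤ` -/
noncomputable def E4z : PowerSeries ℤ := 1 + PowerSeries.C (240 : ℤ) * A3

/-- `E₆` over `ℤ` -/
noncomputable def E6z : PowerSeries ℤ := 1 - PowerSeries.C (504 : ℤ) * A5

theorem sigma_zero (k : ℕ) : ArithmeticFunction.sigma k 0 = 0 := by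
  simp

theorem E4z_map : E4z.map (Int.castRingHom ℂ) = qExpansion 1 E₄ := by
  ext n
  rw [E4_coeff]
  simp only [E4z, A3, map_add, map_one, map_mul, PowerSeries.map_C, PowerSeries.coeff_one,
    PowerSeries.coeff_C_mul, PowerSeries.coeff_map, PowerSeries.coeff_mk]
  split_ifs with h
  · subst h; simp
  · simp

theorem E6z_map : E6z.map (Int.castRingHom ℂ) = qExpansion 1 E₆ := by
  ext n
  rw [E6_coeff]
  simp only [E6z, A5, map_sub, map_one, map_mul, PowerSeries.map_C, PowerSeries.coeff_one,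
    PowerSeries.coeff_C_mul, PowerSeries.coeff_map, PowerSeries.coeff_mk]
  split_ifs with h
  · subst h; simp
  · simp

theorem twelve_dvd_pow (d : ℕ) : (12 : ℤ) ∣ 5 * (d : ℤ) ^ 3 + 7 * (d : ℤ) ^ 5 := by
  have h : ∀ x : ZMod 12, 5 * x ^ 3 + 7 * x ^ 5 = 0 := by decide
  have := h (d : ZMod 12)
  have h2 : ((5 * (d : ℤ) ^ 3 + 7 * (d : ℤ) ^ 5 : ℤ) : ZMod 12) = 0 := by
    push_cast
    exact this
  exact (ZMod.intCast_zmod_eq_zero_iff_dvd _ 12).mp h2

theorem twelve_dvd_sigma (n : ℕ) :
    (12 : ℤ) ∣ 5 * (ArithmeticFunction.sigma 3 n : ℤ) + 7 * (ArithmeticFunction.sigma 5 n : ℤ) := by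
  simp only [ArithmeticFunction.sigma_apply]
  push_cast
  rw [Finset.mul_sum, Finset.mul_sum, ← Finset.sum_add_distrib]
  exact Finset.dvd_sum fun d _ => twelve_dvd_pow d

/-- `(5 σ₃ + 7 σ₅)/12` -/
noncomputable def A6 : PowerSeries ℤ :=
  PowerSeries.mk fun n =>
    (5 * (ArithmeticFunction.sigma 3 n : ℤ) + 7 * (ArithmeticFunction.sigma 5 n : ℤ)) / 12

theorem twelve_A6 : PowerSeries.C (12 : ℤ) * A6 = PowerSeries.C (5 : ℤ) * A3 + PowerSeries.C (7 : ℤ) * A5 := by
  ext n
  simp only [A6, A3, A5, PowerSeries.coeff_C_mul, PowerSeries.coeff_mk, map_add]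
  exact Int.mul_ediv_cancel' (twelve_dvd_sigma n)

/-- `Δ` over `ℤ` -/
noncomputable def deltaZ : PowerSeries ℤ :=
  A6 + PowerSeries.C (100 : ℤ) * A3 ^ 2 + PowerSeries.C (8000 : ℤ) * A3 ^ 3 -
    PowerSeries.C (147 : ℤ) * A5 ^ 2

theorem deltaZ_mul : PowerSeries.C (1728 : ℤ) * deltaZ = E4z ^ 3 - E6z ^ 2 := by
  have h := twelve_A6
  have e1 : (PowerSeries.C (1728 : ℤ) : PowerSeries ℤ) = 1728 := by
    rw [map_ofNat]
  have e2 : (PowerSeries.C (12 : ℤ) : PowerSeries ℤ) = 12 := by rw [map_ofNat]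
  have e3 : (PowerSeries.C (5 : ℤ) : PowerSeries ℤ) = 5 := by rw [map_ofNat]
  have e4 : (PowerSeries.C (7 : ℤ) : PowerSeries ℤ) = 7 := by rw [map_ofNat]
  have e5 : (PowerSeries.C (100 : ℤ) : PowerSeries ℤ) = 100 := by rw [map_ofNat]
  have e6 : (PowerSeries.C (8000 : ℤ) : PowerSeries ℤ) = 8000 := by rw [map_ofNat]
  have e7 : (PowerSeries.C (147 : ℤ) : PowerSeries ℤ) = 147 := by rw [map_ofNat]
  have e8 : (PowerSeries.C (240 : ℤ) : PowerSeries ℤ) = 240 := by rw [map_ofNat]
  have e9 : (PowerSeries.C (504 : ℤ) : PowerSeries ℤ) = 504 := by rw [map_ofNat]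
  simp only [deltaZ, E4z, E6z, e1, e2, e3, e4, e5, e6, e7, e8, e9] at h ⊢
  linear_combination (144 : PowerSeries ℤ) * h

open Fermat.Agent.S23.LOC in
theorem deltaZ_map : deltaZ.map (Int.castRingHom ℂ) = qExpansion 1 ModularForm.discriminant := by
  have hfun : (ModularForm.discriminant : ℍ → ℂ) = (1 / 1728 : ℂ) • ⇑e4e6 := by
    ext z
    rw [discriminant_eq_E₄_cube_sub_E₆_sq z, Pi.smul_apply, e4e6_apply, smul_eq_mul]
    ring
  rw [hfun, ModularForm.qExpansion_smul one_pos one_mem_strictPeriods_SL, e4e6_qExpansion,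
    ← E4z_map, ← E6z_map]
  have h := congrArg (PowerSeries.map (Int.castRingHom ℂ)) deltaZ_mul
  simp only [map_mul, map_sub, map_pow, PowerSeries.map_C] at h
  have h1728 : (PowerSeries.C ((Int.castRingHom ℂ) 1728) : PowerSeries ℂ) = (1728 : ℂ) • 1 := by
    ext n; simp [PowerSeries.coeff_C, PowerSeries.coeff_one]
  have : E4z.map (Int.castRingHom ℂ) * E4z.map (Int.castRingHom ℂ) * E4z.map (Int.castRingHom ℂ) -
      E6z.map (Int.castRingHom ℂ) * E6z.map (Int.castRingHom ℂ) =
      (1728 : ℂ) • deltaZ.map (Int.castRingHom ℂ) := by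
    rw [h1728] at h
    rw [smul_mul_assoc, one_mul] at h
    rw [h]; ring
  rw [this, smul_smul]
  norm_num

theorem deltaZ_coeff_zero : deltaZ.coeff 0 = 0 := by
  simp [deltaZ, A6, A3, A5, pow_succ]

theorem deltaZ_coeff_one : deltaZ.coeff 1 = 1 := by
  simp [deltaZ, A6, A3, A5, PowerSeries.coeff_mul, pow_succ, Finset.Nat.antidiagonal_succ]

/-- the unit part of `Δ` -/
noncomputable def deltaU : PowerSeries ℤ := PowerSeries.mk fun n => deltaZ.coeff (n + 1)

theorem deltaZ_eq : deltaZ = PowerSeries.X * deltaU := by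
  have := PowerSeries.eq_X_mul_shift_add_const deltaZ
  rw [this]
  simp only [deltaU]
  rw [show PowerSeries.constantCoeff deltaZ = 0 from by
    rw [← PowerSeries.coeff_zero_eq_constantCoeff_apply]; exact deltaZ_coeff_zero]
  simp

/-- the inverse of the unit part of `Δ` -/
noncomputable def deltaV : PowerSeries ℤ := deltaU.invOfUnit 1

theorem deltaU_mul_deltaV : deltaU * deltaV = 1 :=
  PowerSeries.mul_invOfUnit deltaU 1 (by
    rw [← PowerSeries.coeff_zero_eq_constantCoeff_apply]
    simp [deltaU, deltaZ_coeff_one])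

/-- coefficients of (integer series) × (series with coefficients in `I` up to `n`) -/
theorem coeff_intMap_mul_mem (I : AddSubgroup ℂ) (Z : PowerSeries ℤ) (P : PowerSeries ℂ) (n : ℕ)
    (hP : ∀ j ≤ n, P.coeff j ∈ I) : (Z.map (Int.castRingHom ℂ) * P).coeff n ∈ I := by
  rw [PowerSeries.coeff_mul]
  refine I.sum_mem fun x hx => ?_
  have hx2 : x.2 ≤ n := by
    have := Finset.HasAntidiagonal.mem_antidiagonal.mp hx
    omega
  rw [PowerSeries.coeff_map, eq_intCast, ← zsmul_eq_mul]
  exact I.zsmul_mem (hP _ hx2) _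

theorem exists_eisMonomial (m : ℕ) (hm : 4 ≤ m) (hm2 : Even m) :
    ∃ (B : ModularForm 𝒮ℒ (m : ℤ)) (Bz : PowerSeries ℤ),
      qExpansion 1 B = Bz.map (Int.castRingHom ℂ) ∧ Bz.coeff 0 = 1 := by
  induction m using Nat.strong_induction_on with
  | _ m ih =>
  obtain ⟨t, ht⟩ := hm2
  rcases Nat.lt_or_ge m 8 with h8 | h8
  · -- m = 4 or m = 6
    have : m = 4 ∨ m = 6 := by omega
    rcases this with rfl | rfl
    · exact ⟨E₄, E4z, E4z_map.symm, by simp [E4z, A3]⟩
    · exact ⟨E₆, E6z, E6z_map.symm, by simp [E6z, A5]⟩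
  · obtain ⟨B, Bz, hB, hB0⟩ := ih (m - 4) (by omega) (by omega) ⟨t - 2, by omega⟩
    refine ⟨ModularForm.mcast (by push_cast [Nat.cast_sub (show 4 ≤ m by omega)]; ring)
      (B.mul E₄), Bz * E4z, ?_, ?_⟩
    · rw [coe_mcast, ModularForm.qExpansion_mul one_pos one_mem_strictPeriods_SL, hB, ← E4z_map,
        map_mul]
    · rw [PowerSeries.coeff_zero_eq_constantCoeff_apply, map_mul,
        ← PowerSeries.coeff_zero_eq_constantCoeff_apply,
        ← PowerSeries.coeff_zero_eq_constantCoeff_apply, hB0]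
      simp [E4z, A3]

end SMI

open SMI in
/-- **Level-one Sturm bound modulo an additive subgroup of `ℂ`.** -/
theorem sturm_levelOne_addSubgroup (I : AddSubgroup ℂ) {k : ℤ} (F : ModularForm 𝒮ℒ k)
    (h0 : ∀ n : ℕ, (n : ℤ) * 12 ≤ k → (qExpansion 1 F).coeff n ∈ I) :
    ∀ n, (qExpansion 1 F).coeff n ∈ I := by
  induction hn : k.toNat using Nat.strong_induction_on generalizing k with
  | _ N ih =>
  have hzero : ∀ {k : ℤ} (F : ModularForm 𝒮ℒ k), (F : ℍ → ℂ) = 0 →
      ∀ n, (qExpansion 1 F).coeff n ∈ I := by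
    intro k F hF n
    rw [hF, qExpansion_zero]
    simp
  rcases lt_trichotomy k 0 with hk | hk | hk
  · exact hzero F (levelOne_neg_weight_eq_zero hk F)
  · subst hk
    obtain ⟨c, hc⟩ := levelOne_weight_zero_const F
    have h1 : (F : ℍ → ℂ) = c • ⇑(1 : ModularForm 𝒮ℒ 0) := by
      rw [hc]; ext z; simp
    have hq : qExpansion 1 F = c • (1 : PowerSeries ℂ) := by
      rw [h1, ModularForm.qExpansion_smul one_pos one_mem_strictPeriods_SL,
        ModularForm.qExpansion_one]
    intro n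
    rcases Nat.eq_zero_or_pos n with rfl | hn0
    · exact h0 0 (by simp)
    · rw [hq]
      simp [PowerSeries.coeff_one, hn0.ne']
  · rcases Int.even_or_odd k with hev | hodd
    swap
    · exact hzero F (by rw [levelOne_odd_weight_eq_zero hodd F]; rfl)
    obtain ⟨m, rfl⟩ : ∃ m : ℕ, k = (m : ℤ) := ⟨k.toNat, (Int.toNat_of_nonneg hk.le).symm⟩
    have hm2 : Even m := by exact_mod_cast hev
    have hm0 : 0 < m := by exact_mod_cast hk
    rcases Nat.lt_or_ge m 4 with hm3 | hm3
    · obtain rfl : m = 2 := by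
        obtain ⟨t, ht⟩ := hm2
        omega
      have : F = 0 := rank_zero_iff_forall_zero.mp levelOne_weight_two_rank_zero F
      exact hzero F (by rw [this]; rfl)
    · obtain ⟨B, Bz, hB, hB0⟩ := exists_eisMonomial m hm3 hm2
      set a0 : ℂ := (qExpansion 1 F).coeff 0 with ha0
      have ha0I : a0 ∈ I := h0 0 (by positivity)
      set G : ModularForm 𝒮ℒ (m : ℤ) := F - a0 • B with hG
      have hGq : qExpansion 1 G = qExpansion 1 F - a0 • qExpansion 1 B := by
        rw [hG, FunLike.coe_sub, ModularForm.qExpansion_sub one_pos one_mem_strictPeriods_SL,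
          FunLike.coe_smul, ModularForm.qExpansion_smul one_pos one_mem_strictPeriods_SL]
      have haB : ∀ n, (a0 • qExpansion 1 B).coeff n ∈ I := by
        intro n
        rw [hB, PowerSeries.coeff_smul, PowerSeries.coeff_map, eq_intCast, smul_eq_mul, mul_comm,
          ← zsmul_eq_mul]
        exact I.zsmul_mem ha0I _
      have hG0 : (qExpansion 1 G).coeff 0 = 0 := by
        rw [hGq, map_sub, PowerSeries.coeff_smul, hB, PowerSeries.coeff_map, hB0]
        simp [ha0]
      have hGlow : ∀ n : ℕ, (n : ℤ) * 12 ≤ (m : ℤ) → (qExpansion 1 G).coeff n ∈ I := by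
        intro n hn
        rw [hGq, map_sub]
        exact I.sub_mem (h0 n hn) (haB n)
      set H : ModularForm 𝒮ℒ ((m : ℤ) - 12) := CuspForm.discriminantEquiv (toCuspForm G hG0)
        with hH
      have hGH : qExpansion 1 G = qExpansion 1 ModularForm.discriminant * qExpansion 1 H :=
        qExpansion_eq_qExpansion_discriminant_mul G hG0
      -- `X * qExpansion H = V * qExpansion G`
      have hXH : (PowerSeries.X : PowerSeries ℂ) * qExpansion 1 H =
          deltaV.map (Int.castRingHom ℂ) * qExpansion 1 G := by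
        rw [hGH, ← deltaZ_map, deltaZ_eq, map_mul, PowerSeries.map_X]
        have := congrArg (PowerSeries.map (Int.castRingHom ℂ)) deltaU_mul_deltaV
        rw [map_mul, map_one] at this
        calc (PowerSeries.X : PowerSeries ℂ) * qExpansion 1 H
            = (deltaU.map (Int.castRingHom ℂ) * deltaV.map (Int.castRingHom ℂ)) *
                (PowerSeries.X * qExpansion 1 H) := by rw [this, one_mul]
          _ = _ := by ring
      have hHlow : ∀ n : ℕ, (n : ℤ) * 12 ≤ (m : ℤ) - 12 → (qExpansion 1 H).coeff n ∈ I := by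
        intro n hn
        rw [← PowerSeries.coeff_succ_X_mul, hXH]
        refine coeff_intMap_mul_mem I _ _ _ fun j hj => hGlow j ?_
        have : (j : ℤ) ≤ n + 1 := by exact_mod_cast hj
        nlinarith
      have hHall := ih ((m : ℤ) - 12).toNat (by omega) H hHlow rfl
      intro n
      have hGn : (qExpansion 1 G).coeff n ∈ I := by
        rw [hGH, ← deltaZ_map]
        exact coeff_intMap_mul_mem I _ _ _ fun j _ => hHall j
      have : (qExpansion 1 F).coeff n = (qExpansion 1 G).coeff n + (a0 • qExpansion 1 B).coeff n := by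
        rw [hGq, map_sub]; ring
      rw [this]
      exact I.add_mem hGn (haB n)

end Fermat.Agent.S16
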