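import Mathlib
import Fermat.Agent.S16.EisLevel
import Fermat.Agent.S16.FrickeWt
import Fermat.Agent.S16.SturmModIdeal
import Fermat.Prelude.Thm_UpperHalfPlane_qCoeff_heckeU

/-!
# S16 library, block [B]: the bound `ℓ ^ a ∣ (p² - 1) / 24`

If a cusp form `g ∈ S₂(Γ₀(p))` with integral `q`-expansion is congruent to the Eisenstein series
modulo `ℓ ^ a` (coefficients of `qⁿ`, `n ≥ 1`), then `ℓ ^ a ∣ (p² - 1) / 24`.
-/

set_option autoImplicit false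

open UpperHalfPlane ModularForm CongruenceSubgroup Matrix Filter Topology
open scoped MatrixGroups ModularForm Manifold Pointwise Real

noncomputable section

namespace Fermat.Agent.S16

open Fermat.Agent.S23 Fermat.Agent.S23.QF

/-! ### The arithmetic core -/

theorem bb_sigmaP_self {p : ℕ} (hp : p.Prime) : sigmaP p p = 1 := by
  have h := sigmaP_mul_self hp 1
  rw [mul_one, sigmaP_one p hp.one_lt] at h
  exact h

theorem bb_sigmaP_two {p : ℕ} (hp5 : 5 ≤ p) : sigmaP p 2 = 3 := by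
  have h2 : ¬ p ∣ 2 := fun h ↦ by
    have := Nat.le_of_dvd (by norm_num) h
    omega
  rw [sigmaP_of_not_dvd h2]
  decide

theorem bb_sigma_three_prime {p : ℕ} (hp : p.Prime) :
    ArithmeticFunction.sigma 3 p = 1 + p ^ 3 := by
  rw [ArithmeticFunction.sigma_apply, hp.divisors]
  rw [Finset.sum_insert (by simp [hp.one_lt.ne]), Finset.sum_singleton]
  simp

theorem bb_arith (p : ℕ) (hp : p.Prime) (hp5 : 5 ≤ p) (ℓ a : ℕ) (hℓ : ℓ.Prime) (N₀ : ℤ)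
    (hN₀ : 24 * N₀ = (p : ℤ) ^ 2 - 1) (d : ℕ → ℤ) (hd : ∀ n, 1 ≤ n → (ℓ : ℤ) ^ a ∣ d n)
    (hstar : ∀ k, 1 ≤ k →
      N₀ * ((sigmaP p k : ℤ) - 10 * ((p : ℤ) - 1) * (ArithmeticFunction.sigma 3 k : ℤ) + d k) =
        -((p : ℤ) * ∑ i ∈ Finset.Ioo 0 k, d i * (sigmaP p (k - i) : ℤ) +
          ∑ i ∈ Finset.Ioo 0 (k * p), d (i * p) * (sigmaP p (k * p - i) : ℤ))) :
    (ℓ : ℤ) ^ a ∣ N₀ := by
  have hℓZ : Prime (ℓ : ℤ) := Nat.prime_iff_prime_int.mp hℓ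
  -- the congruence for every `k`
  have hdiv : ∀ k, 1 ≤ k → (ℓ : ℤ) ^ a ∣
      N₀ * ((sigmaP p k : ℤ) - 10 * ((p : ℤ) - 1) * (ArithmeticFunction.sigma 3 k : ℤ) + d k) := by
    intro k hk
    rw [hstar k hk]
    refine (dvd_add (Dvd.dvd.mul_left (Finset.dvd_sum fun i hi ↦ ?_) _)
      (Finset.dvd_sum fun i hi ↦ ?_)).neg_right
    · exact Dvd.dvd.mul_right (hd i (Finset.mem_Ioo.mp hi).1) _
    · exact Dvd.dvd.mul_right
        (hd (i * p) (Nat.mul_pos (Finset.mem_Ioo.mp hi).1 hp.pos)) _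
  rcases Nat.eq_zero_or_pos a with rfl | ha
  · simp
  -- a unit bracket gives the claim
  have hunit : ∀ u : ℤ, (ℓ : ℤ) ∣ u - 1 → (ℓ : ℤ) ^ a ∣ N₀ * u → (ℓ : ℤ) ^ a ∣ N₀ := by
    intro u hu h
    have hcop : IsCoprime ((ℓ : ℤ) ^ a) u := by
      apply IsCoprime.pow_left
      obtain ⟨c, hc⟩ := hu
      exact ⟨-c, 1, by linear_combination hc⟩
    exact hcop.dvd_of_dvd_mul_right h
  have hℓd : ∀ n, 1 ≤ n → (ℓ : ℤ) ∣ d n := fun n hn ↦
    (dvd_pow_self (ℓ : ℤ) ha.ne').trans (hd n hn)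
  by_cases h1 : (ℓ : ℤ) ∣ (p : ℤ) - 1
  · -- `k = 1`
    have := hdiv 1 le_rfl
    rw [sigmaP_one p hp.one_lt] at this
    refine hunit _ ?_ this
    have : ((1 : ℕ) : ℤ) - 10 * ((p : ℤ) - 1) * (ArithmeticFunction.sigma 3 1 : ℤ) + d 1 - 1 =
        -10 * (ArithmeticFunction.sigma 3 1 : ℤ) * ((p : ℤ) - 1) + d 1 := by push_cast; ring
    rw [this]
    exact dvd_add (Dvd.dvd.mul_left h1 _) (hℓd 1 le_rfl)
  by_cases h2 : (ℓ : ℤ) ∣ (p : ℤ) + 1
  · -- `k = p`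
    have := hdiv p hp.one_lt.le
    rw [bb_sigmaP_self hp, bb_sigma_three_prime hp] at this
    refine hunit _ ?_ this
    have : ((1 : ℕ) : ℤ) - 10 * ((p : ℤ) - 1) * ((1 + p ^ 3 : ℕ) : ℤ) + d p - 1 =
        -10 * ((p : ℤ) - 1) * ((p : ℤ) ^ 2 - p + 1) * ((p : ℤ) + 1) + d p := by push_cast; ring
    rw [this]
    exact dvd_add (Dvd.dvd.mul_left h2 _) (hℓd p hp.one_lt.le)
  · -- `ℓ ∤ p² - 1`: impossible for `a ≥ 1`
    exfalso
    have hN : ¬ (ℓ : ℤ) ∣ 24 * N₀ := by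
      rw [hN₀, show (p : ℤ) ^ 2 - 1 = ((p : ℤ) - 1) * ((p : ℤ) + 1) by ring]
      exact fun h ↦ (hℓZ.dvd_or_dvd h).elim h1 h2
    have hN0 : ¬ (ℓ : ℤ) ∣ N₀ := fun h ↦ hN (Dvd.dvd.mul_left h _)
    have h24 : ¬ (ℓ : ℤ) ∣ 24 := fun h ↦ hN (Dvd.dvd.mul_right h _)
    have hk1 := (dvd_pow_self (ℓ : ℤ) ha.ne').trans (hdiv 1 le_rfl)
    have hk2 := (dvd_pow_self (ℓ : ℤ) ha.ne').trans (hdiv 2 (by norm_num))
    rw [sigmaP_one p hp.one_lt] at hk1
    rw [bb_sigmaP_two hp5] at hk2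
    have hu1 := (hℓZ.dvd_or_dvd hk1).resolve_left hN0
    have hu2 := (hℓZ.dvd_or_dvd hk2).resolve_left hN0
    have hs1 : (ArithmeticFunction.sigma 3 1 : ℤ) = 1 := by simp
    have hs2 : (ArithmeticFunction.sigma 3 2 : ℤ) = 9 := by
      have : ArithmeticFunction.sigma 3 2 = 9 := by decide
      rw [this]; rfl
    rw [hs1] at hu1
    rw [hs2] at hu2
    have e1 : (ℓ : ℤ) ∣ 1 - 10 * ((p : ℤ) - 1) := by
      have := dvd_sub hu1 (hℓd 1 le_rfl)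
      simpa using this
    have e2 : (ℓ : ℤ) ∣ 3 - 90 * ((p : ℤ) - 1) := by
      have := dvd_sub hu2 (hℓd 2 (by norm_num))
      have h3 : ((3 : ℕ) : ℤ) - 10 * ((p : ℤ) - 1) * 9 + d 2 - d 2 = 3 - 90 * ((p : ℤ) - 1) := by
        push_cast; ring
      rwa [h3] at this
    have e6 : (ℓ : ℤ) ∣ 6 := by
      have := dvd_sub (Dvd.dvd.mul_left e1 9) e2
      have h6 : 9 * (1 - 10 * ((p : ℤ) - 1)) - (3 - 90 * ((p : ℤ) - 1)) = 6 := by ring
      rwa [h6] at this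
    exact h24 (e6.trans ⟨4, by norm_num⟩)

/-! ### Extraction of the coefficient identity -/

theorem bb_coeff_mul {R : Type*} [CommSemiring R] (A B : PowerSeries R) (k : ℕ) (hk : 1 ≤ k) :
    (A * B).coeff k = A.coeff 0 * B.coeff k + A.coeff k * B.coeff 0 +
      ∑ i ∈ Finset.Ioo 0 k, A.coeff i * B.coeff (k - i) := by
  rw [PowerSeries.coeff_mul, Finset.Nat.sum_antidiagonal_eq_sum_range_succ_mk]
  have h : Finset.range (k + 1) = insert 0 (insert k (Finset.Ioo 0 k)) := by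
    ext i
    simp only [Finset.mem_range, Finset.mem_insert, Finset.mem_Ioo]
    omega
  rw [h, Finset.sum_insert (by simp; omega), Finset.sum_insert (by simp)]
  simp [add_assoc]

variable (p : ℕ) [Fact p.Prime]

/-- The `q`-coefficient identity coming from (F6) applied to `(f, eisP)`. -/
theorem bb_coeff_identity (f : ModularForm (Gamma0 p) 2) (k : ℕ) :
    (p : ℂ) * (qExpansion 1 ⇑f * qExpansion 1 ⇑(eisP p)).coeff k +
        (qExpansion 1 (heckeU 2 p ⇑f) * qExpansion 1 ⇑(eisP p)).coeff (k * p) =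
      (((p : ℂ) + 1) * (qExpansion 1 f).coeff 0 * (qExpansion 1 (eisP p)).coeff 0) *
        (qExpansion 1 E₄).coeff k := by
  have hf := fr_isQFun_coe p f
  have hE := fr_isQFun_coe p (eisP p)
  have hUf := fw_isQFun_heckeU p hf 2
  have hUU := fw_isQFun_heckeU p (hUf.mul hE) 4
  have h6 := heckeU_mul_identity p f (eisP p)
  rw [heckeU_eisP] at h6
  have h7 := congrArg (fun F ↦ (qExpansion 1 F).coeff k) h6
  beta_reduce at h7
  rw [qExpansion_add ((hf.mul hE).smul _).analyticAt hUU.analyticAt,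
    qExpansion_smul (hf.mul hE).analyticAt, qExpansion_mul hf.analyticAt hE.analyticAt,
    qExpansion_smul (fr_isQFun_of_modularForm one_mem_strictPeriods_SL E₄).analyticAt,
    map_add, PowerSeries.coeff_smul, PowerSeries.coeff_smul,
    fw_coeff_heckeU p (hUf.mul hE) 4 k, qExpansion_mul hUf.analyticAt hE.analyticAt,
    smul_eq_mul, smul_eq_mul] at h7
  exact h7

theorem bb_dvd_sq_sub_one {p : ℕ} (hp : p.Prime) (hp5 : 5 ≤ p) :
    ∃ N₀ : ℤ, 24 * N₀ = (p : ℤ) ^ 2 - 1 := by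
  have h2 : p % 2 = 1 := by
    rcases hp.eq_two_or_odd with h | h <;> omega
  have h3 : p % 3 ≠ 0 := by
    intro h
    have := (Nat.prime_dvd_prime_iff_eq Nat.prime_three hp).mp (Nat.dvd_of_mod_eq_zero h)
    omega
  have h24 : p % 24 = 1 ∨ p % 24 = 5 ∨ p % 24 = 7 ∨ p % 24 = 11 ∨ p % 24 = 13 ∨ p % 24 = 17 ∨
      p % 24 = 19 ∨ p % 24 = 23 := by omega
  have h1 : (p ^ 2) % 24 = 1 := by
    rw [Nat.pow_mod]
    rcases h24 with h | h | h | h | h | h | h | h <;> rw [h]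
  obtain ⟨q, hq⟩ : ∃ q, q = p ^ 2 := ⟨_, rfl⟩
  rw [← hq] at h1
  refine ⟨((q / 24 : ℕ) : ℤ), ?_⟩
  have : (p : ℤ) ^ 2 = (q : ℤ) := by rw [hq]; push_cast; ring
  rw [this]
  omega

/-- **Block [B]**: a cusp form of weight `2` and level `p` with integral coefficients which is
congruent to the Eisenstein series modulo `ℓ ^ a` forces `ℓ ^ a ∣ (p² - 1) / 24`. -/
theorem bound_B (hp5 : 5 ≤ p) (ℓ a : ℕ) (hℓ : ℓ.Prime) (g : CuspForm (Gamma0 p) 2) (m : ℕ → ℤ)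
    (hm : ∀ n, ModularFormClass.qCoeff ⇑g n = (m n : ℂ))
    (hc : ∀ n, 1 ≤ n → (ℓ : ℤ) ^ a ∣ m n - sigmaP p n) :
    (ℓ : ℤ) ^ a ∣ ((p : ℤ) ^ 2 - 1) / 24 := by
  have hp : p.Prime := Fact.out
  obtain ⟨N₀, hN₀⟩ := bb_dvd_sq_sub_one hp hp5
  have hdiv : ((p : ℤ) ^ 2 - 1) / 24 = N₀ := by
    rw [← hN₀]
    exact Int.mul_ediv_cancel_left _ (by norm_num)
  rw [hdiv]
  have hΓ : (1 : ℝ) ∈ ((Gamma0 p : Subgroup (GL (Fin 2) ℝ))).strictPeriods :=
    CongruenceSubgroup.one_mem_strictPeriods_Gamma0 p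
  set G : ModularForm (Gamma0 p) 2 := ModularFormClass.modularForm g with hG
  have hGcoe : (⇑G : ℍ → ℂ) = ⇑g := rfl
  set f : ModularForm (Gamma0 p) 2 := eisP p - G with hfdef
  have hfcoe : (⇑f : ℍ → ℂ) = ⇑(eisP p) - ⇑g := rfl
  have hE := fr_isQFun_coe p (eisP p)
  have hGq := fr_isQFun_coe p G
  have hfq := fr_isQFun_coe p f
  -- the coefficients
  have hE0 : (qExpansion 1 ⇑(eisP p)).coeff 0 = ((p : ℂ) - 1) / 24 := by
    rw [qExpansion_eisP, if_pos rfl]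
  have hEn : ∀ n, 1 ≤ n → (qExpansion 1 ⇑(eisP p)).coeff n = (sigmaP p n : ℂ) := by
    intro n hn
    rw [qExpansion_eisP, if_neg (by omega)]
  have hg0 : (qExpansion 1 ⇑g).coeff 0 = 0 :=
    CuspFormClass.qExpansion_coeff_zero g one_pos hΓ
  have hgn : ∀ n, (qExpansion 1 ⇑g).coeff n = (m n : ℂ) := hm
  have hfc : ∀ n, (qExpansion 1 ⇑f).coeff n =
      (qExpansion 1 ⇑(eisP p)).coeff n - (qExpansion 1 ⇑g).coeff n := by
    intro n
    rw [hfcoe, qExpansion_sub hE.analyticAt (hGcoe ▸ hGq).analyticAt, map_sub]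
  have hf0 : (qExpansion 1 ⇑f).coeff 0 = ((p : ℂ) - 1) / 24 := by
    rw [hfc, hE0, hg0, sub_zero]
  have hfn : ∀ n, 1 ≤ n → (qExpansion 1 ⇑f).coeff n = (((sigmaP p n : ℤ) - m n : ℤ) : ℂ) := by
    intro n hn
    rw [hfc, hEn n hn, hgn]
    push_cast
    ring
  have hun : ∀ n, (qExpansion 1 (heckeU 2 p ⇑f)).coeff n = (qExpansion 1 ⇑f).coeff (n * p) :=
    fun n ↦ fw_coeff_heckeU p hfq 2 n
  have huu : ∀ n, (qExpansion 1 ⇑f).coeff (n * p * p) = (qExpansion 1 ⇑f).coeff n := by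
    intro n
    rw [← hun, ← fw_coeff_heckeU p (fw_isQFun_heckeU p hfq 2) 2 n, heckeU_heckeU]
  refine bb_arith p hp hp5 ℓ a hℓ N₀ hN₀ (fun n ↦ (sigmaP p n : ℤ) - m n) ?_ ?_
  · intro n hn
    have := hc n hn
    rw [← dvd_neg]
    simpa using this
  · intro k hk
    have hkp : 1 ≤ k * p := Nat.mul_pos hk hp.pos
    have h := bb_coeff_identity p f k
    rw [bb_coeff_mul _ _ k hk, bb_coeff_mul _ _ (k * p) hkp, hf0, hE0, hEn k hk, hEn (k * p) hkp,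
      hfn k hk, hun 0, zero_mul, hf0, hun (k * p), huu k, hfn k hk, SMI.E4_coeff,
      if_neg (by omega), mul_comm k p, sigmaP_mul_self hp k] at h
    have hS1 : ∑ i ∈ Finset.Ioo 0 k,
        (qExpansion 1 ⇑f).coeff i * (qExpansion 1 ⇑(eisP p)).coeff (k - i) =
        ∑ i ∈ Finset.Ioo 0 k, (((sigmaP p i : ℤ) - m i : ℤ) : ℂ) * (sigmaP p (k - i) : ℂ) := by
      refine Finset.sum_congr rfl fun i hi ↦ ?_
      obtain ⟨hi1, hi2⟩ := Finset.mem_Ioo.mp hi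
      rw [hfn i hi1, hEn (k - i) (by omega)]
    have hS2 : ∑ i ∈ Finset.Ioo 0 (p * k),
        (qExpansion 1 (heckeU 2 p ⇑f)).coeff i * (qExpansion 1 ⇑(eisP p)).coeff (p * k - i) =
        ∑ i ∈ Finset.Ioo 0 (p * k), (((sigmaP p (i * p) : ℤ) - m (i * p) : ℤ) : ℂ) *
          (sigmaP p (p * k - i) : ℂ) := by
      refine Finset.sum_congr rfl fun i hi ↦ ?_
      obtain ⟨hi1, hi2⟩ := Finset.mem_Ioo.mp hi
      rw [hun i, hfn (i * p) (Nat.mul_pos hi1 hp.pos), hEn (p * k - i) (by omega)]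
    rw [hS1, hS2] at h
    have hN₀' : 24 * (N₀ : ℂ) = (p : ℂ) ^ 2 - 1 := by exact_mod_cast hN₀
    apply Int.cast_injective (α := ℂ)
    rw [mul_comm k p]
    push_cast
    push_cast at h
    linear_combination h + (((sigmaP p k : ℂ) -
      10 * ((p : ℂ) - 1) * (ArithmeticFunction.sigma 3 k : ℂ) +
        ((sigmaP p k : ℂ) - (m k : ℂ))) / 24) * hN₀'

end Fermat.Agent.S16
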