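import Mathlib
import Fermat.Agent.S16.Defs
import Fermat.Agent.S16.SturmModIdeal
import Fermat.Agent.S16.NormExpansion
import Fermat.Agent.S16.Fricke

/-!
# S16 library, piece [GL]: the generic "norm + Sturm" contradiction

* `QPair F P` : `F` is a `q`-function (`IsQFun`) with `q`-expansion `P`; closed under the ring
  operations and under `z ↦ F (p z)` (`expandP`).  This is the bookkeeping device for computing
  `q`-expansions of polynomial expressions in modular forms.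
* `sturm_contra` : let `X ∈ M_k(Γ₀(p))`, `ℓ` a prime, `δ₀ = q^m · U` an integral power series with
  `U(0) = 1`, `c` a unit of `Rl ℓ`, and suppose `qExp X ≡ δ₀` and
  `qExp (sharp X) ≡ c · δ₀(q^p)` modulo `ℓ · PS (Rl ℓ)`.  If `k (p+1) < 12 m (p+1)` this is
  impossible: the norm of `X` to level one would be congruent to `c^p δ₀^(p+1)` modulo `ℓ`,
  contradicting the level-one Sturm bound modulo `ℓ`.
-/

set_option autoImplicit false

open UpperHalfPlane hiding I
open Complex Function ModularForm CongruenceSubgroup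
open scoped Manifold Real MatrixGroups
open Fermat.Agent.S23 Fermat.Agent.S23.QF

noncomputable section

namespace Fermat.Agent.S16

/-- `F` is a `q`-function with `q`-expansion `P`. -/
structure QPair (F : ℍ → ℂ) (P : PowerSeries ℂ) : Prop where
  isQ : IsQFun F
  qexp : qExpansion 1 F = P

namespace QPair

variable {F G : ℍ → ℂ} {P Q : PowerSeries ℂ}

theorem of (hF : IsQFun F) : QPair F (qExpansion 1 F) := ⟨hF, rfl⟩

theorem congr (h : QPair F P) (hPQ : P = Q) : QPair F Q := hPQ ▸ h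

theorem congr_fun (h : QPair F P) (hFG : F = G) : QPair G P := hFG ▸ h

theorem one : QPair (1 : ℍ → ℂ) 1 := ⟨IsQFun.one, qExpansion_one 1⟩

theorem add (hF : QPair F P) (hG : QPair G Q) : QPair (F + G) (P + Q) :=
  ⟨hF.isQ.add hG.isQ, by rw [qExpansion_add hF.isQ.analyticAt hG.isQ.analyticAt, hF.qexp, hG.qexp]⟩

theorem sub (hF : QPair F P) (hG : QPair G Q) : QPair (F - G) (P - Q) :=
  ⟨hF.isQ.sub hG.isQ, by rw [qExpansion_sub hF.isQ.analyticAt hG.isQ.analyticAt, hF.qexp, hG.qexp]⟩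

theorem neg (hF : QPair F P) : QPair (-F) (-P) :=
  ⟨hF.isQ.neg, by rw [qExpansion_neg hF.isQ.analyticAt, hF.qexp]⟩

theorem mul (hF : QPair F P) (hG : QPair G Q) : QPair (F * G) (P * Q) :=
  ⟨hF.isQ.mul hG.isQ, by rw [qExpansion_mul hF.isQ.analyticAt hG.isQ.analyticAt, hF.qexp, hG.qexp]⟩

theorem smul (a : ℂ) (hF : QPair F P) : QPair (a • F) (a • P) :=
  ⟨hF.isQ.smul a, by rw [qExpansion_smul hF.isQ.analyticAt, hF.qexp]⟩

theorem pow (hF : QPair F P) (n : ℕ) : QPair (F ^ n) (P ^ n) :=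
  ⟨hF.isQ.pow n, by rw [qExpansion_pow_of_isQFun hF.isQ, hF.qexp]⟩

theorem alphaN (p : ℕ) [NeZero p] (hF : QPair F P) :
    QPair (fun z => F (alphaN p • z)) (expandP p P) :=
  ⟨ne_isQFun_alphaN p hF.isQ, by rw [ne_qExpansion_alphaN p hF.isQ, hF.qexp]⟩

end QPair

/-- Modular forms of level `Γ₀(N)` give `QPair`s. -/
theorem qPair_coe (N : ℕ) [NeZero N] {k : ℤ} (f : ModularForm (Gamma0 N) k) :
    QPair ⇑f (qExpansion 1 f) := QPair.of (fr_isQFun_coe N f)

/-- Modular forms of level one give `QPair`s. -/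
theorem qPair_levelOne {k : ℤ} (f : ModularForm 𝒮ℒ k) : QPair ⇑f (qExpansion 1 f) :=
  QPair.of (fr_isQFun_of_modularForm one_mem_strictPeriods_SL f)

/-- `sharp` ignores weight casts. -/
theorem sharp_mcast (N : ℕ) [NeZero N] {a b : ℤ} (h : a = b) (f : ModularForm (Gamma0 N) a) :
    sharp N (ModularForm.mcast h f) = sharp N f := by
  subst h
  rfl

section contra

variable (p : ℕ) [Fact p.Prime]

/-- **[GL]** the generic norm + Sturm contradiction. -/
theorem sturm_contra {ℓ : ℕ} (hℓ : ℓ.Prime) {k : ℤ} (X : ModularForm (Gamma0 p) k)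
    (δ₀ U : PowerSeries ℤ) (m : ℕ) (hδ₀ : δ₀ = PowerSeries.X ^ m * U)
    (hU : PowerSeries.constantCoeff U = 1)
    (hk : ∀ n : ℕ, (n : ℤ) * 12 ≤ k * (p + 1) → n < m * (p + 1))
    (c c' : ℂ) (hc : c ∈ Rl ℓ) (hc' : c' ∈ Rl ℓ) (hcc : c * c' = 1)
    (h1 : qExpansion 1 X - δ₀.map (Int.castRingHom ℂ) ∈ MI (Rl ℓ) ℓ)
    (h2 : qExpansion 1 (sharp p X) -
      PowerSeries.C c * expandP p (δ₀.map (Int.castRingHom ℂ)) ∈ MI (Rl ℓ) ℓ) : False := by
  have hp0 : p ≠ 0 := (Fact.out : p.Prime).ne_zero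
  set R := Rl ℓ with hR
  set δ := δ₀.map (Int.castRingHom ℂ) with hδ
  have hζ : cexp (2 * π * I / p) ∈ R := by
    have h := ne_zeta_pow p 1
    rw [pow_one] at h
    exact mem_Rl_of_pow_eq_one ℓ (Nat.pos_of_ne_zero hp0) h
  have hM : ((ℓ : ℕ) : ℂ) ∈ R := natCast_mem R ℓ
  -- the congruence for the norm
  have hν : IsQFun ⇑(fr_normOne p X) := fr_isQFun_of_modularForm one_mem_strictPeriods_SL _
  have hcong := ne_norm_congr p hν (fr_isQFun_coe p X) (isQFun_sharp p X) (fr_normOne_apply p X)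
    R hζ (ℓ : ℂ) hM δ (map_intCast_mem_PS R δ₀) c hc h1 h2
  -- coefficients of `δ ^ (p + 1)`
  have hδpow : δ ^ (p + 1) =
      (PowerSeries.X ^ (m * (p + 1)) * U ^ (p + 1)).map (Int.castRingHom ℂ) := by
    rw [hδ, hδ₀, ← map_pow, mul_pow, ← pow_mul]
  have hlow : ∀ n, n < m * (p + 1) → (PowerSeries.coeff n) (δ ^ (p + 1)) = 0 := by
    intro n hn
    rw [hδpow, PowerSeries.coeff_map, PowerSeries.coeff_X_pow_mul', if_neg (not_le.mpr hn),
      map_zero]
  have htop : (PowerSeries.coeff (m * (p + 1))) (δ ^ (p + 1)) = 1 := by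
    rw [hδpow, PowerSeries.coeff_map, PowerSeries.coeff_X_pow_mul', if_pos le_rfl, Nat.sub_self,
      PowerSeries.coeff_zero_eq_constantCoeff_apply, map_pow, hU, one_pow]
    simp
  -- Sturm
  have hsturm := sturm_levelOne_addSubgroup (mulSet R (ℓ : ℂ)) (fr_normOne p X) (by
    intro n hn
    have hn' := hk n hn
    have h3 := hcong n
    rw [map_sub, PowerSeries.coeff_C_mul, hlow n hn', mul_zero, sub_zero] at h3
    exact h3)
  have h4 := hsturm (m * (p + 1))
  have h5 := hcong (m * (p + 1))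
  rw [map_sub, PowerSeries.coeff_C_mul, htop, mul_one] at h5
  have h6 : c ^ p ∈ mulSet R (ℓ : ℂ) := by
    have := (mulSet R (ℓ : ℂ)).sub_mem h4 h5
    rwa [sub_sub_cancel] at this
  have h7 : (1 : ℂ) ∈ mulSet R (ℓ : ℂ) := by
    have := mul_mem_mulSet (R.pow_mem hc' p) h6
    rwa [← mul_pow, mul_comm c' c, hcc, one_pow] at this
  obtain ⟨y, hy, h8⟩ := h7
  exact one_ne_mul_of_mem hℓ hy h8

end contra

end Fermat.Agent.S16
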