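import Mathlib
import Fermat.Agent.S16.BoundB
import Fermat.Agent.S16.SturmContra
import Fermat.Prelude.Def_ModularCurve_ModularUnit

/-!
# S16 library, piece [C]: the congruence modulus divides the Eisenstein numerator

If a cusp form `g` of weight `2` on `Γ₀(p)` (`p ≥ 5`) with integral `q`-expansion is congruent to
the Eisenstein series `eisP p` modulo `ℓ ^ a`, then `ℓ ^ a ∣ (p - 1) / gcd (p - 1, 12)`.

* block [B] (`bound_B`) gives `ℓ ^ a ∣ (p² - 1) / 24`;
* when `ℓ ^ (v_ℓ(12) + 1) ∤ p + 1` this is enough (`cg_arith`, pure arithmetic of valuations);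
* otherwise `G := (24 / (p - 1)) • (eisP p - g)` is a modular form `≡ 1` modulo `8` (`ℓ = 2`),
  `9` (`ℓ = 3`) resp. `ℓ`, which is excluded by the blocks [A2] / [A3] (taken as hypotheses).
-/

set_option autoImplicit false

open UpperHalfPlane hiding I
open Complex Function ModularForm CongruenceSubgroup
open scoped Manifold Real MatrixGroups
open Fermat.Agent.S23 Fermat.Agent.S23.QF

noncomputable section

namespace Fermat.Agent.S16


theorem cg_fact12 (ℓ : ℕ) :
    (Nat.factorization 12) ℓ = if ℓ = 2 then 2 else if ℓ = 3 then 1 else 0 := by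
  have h12 : (12 : ℕ) = 2 ^ 2 * 3 := by norm_num
  rw [h12, Nat.factorization_mul (by norm_num) (by norm_num),
    Nat.Prime.factorization_pow Nat.prime_two, Nat.Prime.factorization Nat.prime_three]
  simp only [Finsupp.coe_add, Pi.add_apply, Finsupp.single_apply]
  split_ifs <;> omega

theorem cg_fact24 (ℓ : ℕ) :
    (Nat.factorization 24) ℓ = if ℓ = 2 then 3 else if ℓ = 3 then 1 else 0 := by
  have h24 : (24 : ℕ) = 2 ^ 3 * 3 := by norm_num
  rw [h24, Nat.factorization_mul (by norm_num) (by norm_num),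
    Nat.Prime.factorization_pow Nat.prime_two, Nat.Prime.factorization Nat.prime_three]
  simp only [Finsupp.coe_add, Pi.add_apply, Finsupp.single_apply]
  split_ifs <;> omega

/-- `b = v_ℓ(12) + 1`. -/
def cgB (ℓ : ℕ) : ℕ := if ℓ = 2 then 3 else if ℓ = 3 then 2 else 1

theorem cgB_eq (ℓ : ℕ) : cgB ℓ = (Nat.factorization 12) ℓ + 1 := by
  rw [cg_fact12, cgB]
  split_ifs <;> rfl

/-- Non-exceptional case. -/
theorem cg_arith {p ℓ a : ℕ} (hp : p.Prime) (hp5 : 5 ≤ p) (hℓ : ℓ.Prime)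
    (h : ℓ ^ a * 24 ∣ (p - 1) * (p + 1)) (hne : ¬ ℓ ^ cgB ℓ ∣ p + 1) :
    ℓ ^ a ∣ (p - 1) / Nat.gcd (p - 1) 12 := by
  set P := p - 1 with hP
  set Q := p + 1 with hQ
  set g := Nat.gcd P 12 with hg
  set n := P / g with hn
  have hP0 : P ≠ 0 := by omega
  have hQ0 : Q ≠ 0 := by omega
  have hg0 : g ≠ 0 := Nat.gcd_ne_zero_right (by norm_num)
  have hPng : P = n * g := (Nat.div_mul_cancel (Nat.gcd_dvd_left P 12)).symm
  have hn0 : n ≠ 0 := by
    intro h0
    rw [h0, zero_mul] at hPng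
    exact hP0 hPng
  have hQP : Q = P + 2 := by omega
  -- notation
  set f : ℕ → ℕ := fun x => (Nat.factorization x) ℓ with hf
  have hfmul : ∀ x y : ℕ, x ≠ 0 → y ≠ 0 → f (x * y) = f x + f y := by
    intro x y hx hy
    simp only [hf, Nat.factorization_mul hx hy, Finsupp.coe_add, Pi.add_apply]
  have hℓa : f (ℓ ^ a) = a := by
    simp only [hf, Nat.Prime.factorization_pow hℓ, Finsupp.single_apply, if_true]
  have hpow0 : ℓ ^ a ≠ 0 := pow_ne_zero _ hℓ.ne_zero
  -- step 1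
  have h1 : a + f 24 ≤ f n + f g + f Q := by
    have hle := (Nat.factorization_le_iff_dvd (mul_ne_zero hpow0 (by norm_num))
      (mul_ne_zero hP0 hQ0)).mpr h ℓ
    have e1 : f (ℓ ^ a * 24) = a + f 24 := by rw [hfmul _ _ hpow0 (by norm_num), hℓa]
    have e2 : f (P * Q) = f n + f g + f Q := by
      rw [hfmul _ _ hP0 hQ0, hPng, hfmul _ _ hn0 hg0]
    have : f (ℓ ^ a * 24) ≤ f (P * Q) := hle
    omega
  -- f g = min
  have hfg : f g = min (f P) (f 12) := by
    simp only [hf, hg, Nat.factorization_gcd hP0 (by norm_num : (12 : ℕ) ≠ 0)]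
    rfl
  -- f Q ≤ f 12
  have hfQ : f Q ≤ f 12 := by
    by_contra hcon
    push Not at hcon
    apply hne
    rw [cgB_eq]
    exact (Nat.Prime.pow_dvd_iff_le_factorization hℓ hQ0).mpr hcon
  -- goal
  have hgoal : f g + f Q ≤ f 24 := by
    have h12 : f 12 = if ℓ = 2 then 2 else if ℓ = 3 then 1 else 0 := cg_fact12 ℓ
    have h24 : f 24 = if ℓ = 2 then 3 else if ℓ = 3 then 1 else 0 := cg_fact24 ℓ
    by_cases h2 : ℓ = 2
    · subst h2
      simp only [if_true] at h12 h24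
      -- p odd
      have hodd : p % 2 = 1 := by
        rcases hp.eq_two_or_odd with h | h
        · omega
        · exact h
      -- not both divisible by 4
      have hnot : ¬ (4 ∣ P ∧ 4 ∣ Q) := by
        rintro ⟨h4P, h4Q⟩
        omega
      have h2P : 2 ∣ P := by omega
      have h2Q : 2 ∣ Q := by omega
      have hfP1 : 1 ≤ f P := (Nat.Prime.pow_dvd_iff_le_factorization Nat.prime_two hP0).mp
        (by simpa using h2P)
      have hfQ1 : 1 ≤ f Q := (Nat.Prime.pow_dvd_iff_le_factorization Nat.prime_two hQ0).mp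
        (by simpa using h2Q)
      have hcases : f P ≤ 1 ∨ f Q ≤ 1 := by
        by_contra hcon
        push Not at hcon
        apply hnot
        constructor
        · exact (Nat.Prime.pow_dvd_iff_le_factorization Nat.prime_two hP0).mpr hcon.1
        · exact (Nat.Prime.pow_dvd_iff_le_factorization Nat.prime_two hQ0).mpr hcon.2
      rw [hfg, h24]
      rw [h12] at hfQ ⊢
      rcases hcases with hc | hc
      · have : min (f P) 2 ≤ 1 := le_trans (min_le_left _ _) hc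
        omega
      · have : min (f P) 2 ≤ 2 := min_le_right _ _
        omega
    · -- ℓ odd
      have h1224 : f 24 = f 12 := by
        rw [h12, h24]; simp only [h2, if_false]
      have hcases : f P = 0 ∨ f Q = 0 := by
        by_contra hcon
        push Not at hcon
        have hP1 : ℓ ∣ P := by
          have := (Nat.Prime.pow_dvd_iff_le_factorization hℓ hP0).mpr
            (Nat.one_le_iff_ne_zero.mpr hcon.1)
          simpa using this
        have hQ1 : ℓ ∣ Q := by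
          have := (Nat.Prime.pow_dvd_iff_le_factorization hℓ hQ0).mpr
            (Nat.one_le_iff_ne_zero.mpr hcon.2)
          simpa using this
        have : ℓ ∣ 2 := by
          have := (Nat.dvd_sub hQ1 hP1)
          rwa [hQP, Nat.add_sub_cancel_left] at this
        have := (Nat.prime_dvd_prime_iff_eq hℓ Nat.prime_two).mp this
        exact h2 this
      rw [hfg, h1224]
      rcases hcases with hc | hc
      · rw [hc]; simp only [Nat.zero_min, zero_add]; exact hfQ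
      · rw [hc]; simp only [add_zero]; exact min_le_right _ _
  have hfin : a ≤ f n := by omega
  exact (Nat.Prime.pow_dvd_iff_le_factorization hℓ hn0).mpr hfin


/-! ### The form `G = (24 / (p - 1)) • (eisP p - g)` -/

section key

variable (p : ℕ) [Fact p.Prime]

/-- The exceptional case: construction of a form `≡ 1 mod ℓ ^ b`. Here `24 / (p - 1)` is written
as `ℓ ^ (b - 1) * w / d` with `d` prime to `ℓ`. -/
theorem cg_key (hp5 : 5 ≤ p) {ℓ a b w d : ℕ} (hℓ : ℓ.Prime) (ha : 1 ≤ a) (hb : 1 ≤ b)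
    (hd : 0 < d) (hcop : d.Coprime ℓ) (hw : 24 * d = ℓ ^ (b - 1) * w * (p - 1))
    (g : CuspForm (Gamma0 p) 2) (m : ℕ → ℤ)
    (hm : ∀ n, ModularFormClass.qCoeff ⇑g n = (m n : ℂ))
    (hc : ∀ n, 1 ≤ n → (ℓ : ℤ) ^ a ∣ m n - sigmaP p n) :
    ∃ (G : ModularForm (Gamma0 p) 2) (h : PowerSeries ℂ), h ∈ PS (Rl ℓ) ∧
      qExpansion 1 G = 1 + PowerSeries.C ((ℓ : ℂ) ^ b) * h := by
  have hΓ : (1 : ℝ) ∈ ((Gamma0 p : Subgroup (GL (Fin 2) ℝ))).strictPeriods :=
    CongruenceSubgroup.one_mem_strictPeriods_Gamma0 p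
  -- the integers `t n`
  set t : ℕ → ℤ := fun n => (m n - sigmaP p n) / (ℓ : ℤ) ^ a with ht
  have htn : ∀ n, 1 ≤ n → (m n : ℂ) - (sigmaP p n : ℂ) = (ℓ : ℂ) ^ a * (t n : ℂ) := by
    intro n hn
    have h1 : (ℓ : ℤ) ^ a * t n = m n - sigmaP p n := Int.mul_ediv_cancel' (hc n hn)
    have h2 : (((ℓ : ℤ) ^ a * t n : ℤ) : ℂ) = ((m n - sigmaP p n : ℤ) : ℂ) := by rw [h1]
    push_cast at h2
    rw [← h2]
  -- the constant `c = (p - 1) / 24`
  have hp1 : ((p - 1 : ℕ) : ℂ) = (p : ℂ) - 1 := by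
    rw [Nat.cast_sub (by omega : 1 ≤ p), Nat.cast_one]
  have hpc : (p : ℂ) - 1 ≠ 0 := by
    rw [← hp1]
    exact Nat.cast_ne_zero.mpr (by omega)
  have hdC : (d : ℂ) ≠ 0 := Nat.cast_ne_zero.mpr hd.ne'
  have hℓC : (ℓ : ℂ) ≠ 0 := Nat.cast_ne_zero.mpr hℓ.ne_zero
  have hwC : 24 * (d : ℂ) = (ℓ : ℂ) ^ (b - 1) * (w : ℂ) * ((p : ℂ) - 1) := by
    rw [← hp1]
    exact_mod_cast hw
  have hapow : (ℓ : ℂ) ^ a = (ℓ : ℂ) * (ℓ : ℂ) ^ (a - 1) := by
    rw [← pow_succ', Nat.sub_add_cancel ha]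
  have hbpow : (ℓ : ℂ) ^ b = (ℓ : ℂ) * (ℓ : ℂ) ^ (b - 1) := by
    rw [← pow_succ', Nat.sub_add_cancel hb]
  set c : ℂ := ((p : ℂ) - 1) / 24 with hcdef
  have hc0 : c ≠ 0 := div_ne_zero hpc (by norm_num)
  -- the form
  set Gg : ModularForm (Gamma0 p) 2 := ModularFormClass.modularForm g with hGg
  have hGgcoe : (⇑Gg : ℍ → ℂ) = ⇑g := rfl
  set G : ModularForm (Gamma0 p) 2 := c⁻¹ • (eisP p - Gg) with hG
  have hGcoe : (⇑G : ℍ → ℂ) = c⁻¹ • (⇑(eisP p) - ⇑Gg) := rfl
  have hQ : QPair ⇑G (c⁻¹ • (qExpansion 1 (eisP p) - qExpansion 1 Gg)) := by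
    rw [hGcoe]
    exact ((qPair_coe p (eisP p)).sub (qPair_coe p Gg)).smul c⁻¹
  have hg0 : (qExpansion 1 ⇑Gg).coeff 0 = 0 := by
    rw [hGgcoe]
    exact CuspFormClass.qExpansion_coeff_zero g one_pos hΓ
  have hgn : ∀ n, (qExpansion 1 ⇑Gg).coeff n = (m n : ℂ) := by
    intro n
    rw [hGgcoe]
    exact hm n
  -- the series `h`
  set h : PowerSeries ℂ := PowerSeries.mk fun n =>
    if n = 0 then 0 else ((-((w : ℤ) * (ℓ : ℤ) ^ (a - 1) * t n) : ℤ) : ℂ) / (d : ℂ) with hh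
  refine ⟨G, h, ?_, ?_⟩
  · rw [mem_PS_iff]
    intro n
    rw [hh, PowerSeries.coeff_mk]
    split_ifs with hn
    · exact (Rl ℓ).zero_mem
    · exact intCast_div_natCast_mem_Rl _ hd hcop
  · rw [hQ.qexp]
    ext n
    rw [PowerSeries.coeff_smul, map_sub, map_add, PowerSeries.coeff_C_mul, hh,
      PowerSeries.coeff_mk, qExpansion_eisP, hgn, PowerSeries.coeff_one]
    by_cases hn : n = 0
    · subst hn
      rw [if_pos rfl, if_pos rfl, if_pos rfl, ← hgn 0, hg0, sub_zero, mul_zero, add_zero, smul_eq_mul,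
        inv_mul_cancel₀ hc0]
    · rw [if_neg hn, if_neg hn, if_neg hn, zero_add, smul_eq_mul]
      have h1 := htn n (Nat.one_le_iff_ne_zero.mpr hn)
      have h2 : (sigmaP p n : ℂ) - (m n : ℂ) = -((ℓ : ℂ) ^ a * (t n : ℂ)) := by
        rw [← h1]; ring
      rw [h2, hcdef, hapow, hbpow]
      push_cast
      rw [inv_div, div_mul_eq_mul_div, ← mul_div_assoc, div_eq_div_iff hpc hdC]
      linear_combination (-(ℓ : ℂ) * (ℓ : ℂ) ^ (a - 1) * (t n : ℂ)) * hwC

end key

/-! ### The main statement -/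

section main

variable (p : ℕ) [Fact p.Prime]

theorem cgB_pos (ℓ : ℕ) : 1 ≤ cgB ℓ := by
  rw [cgB_eq]
  omega

/-- Bridge from the integer statement of `bound_B` to natural numbers. -/
theorem cg_bridge (hp5 : 5 ≤ p) {ℓ a : ℕ} (h : (ℓ : ℤ) ^ a ∣ ((p : ℤ) ^ 2 - 1) / 24) :
    ℓ ^ a * 24 ∣ (p - 1) * (p + 1) := by
  have hp : p.Prime := Fact.out
  obtain ⟨N₀, hN₀⟩ := bb_dvd_sq_sub_one hp hp5
  have hdiv : ((p : ℤ) ^ 2 - 1) / 24 = N₀ := by
    rw [← hN₀]
    exact Int.mul_ediv_cancel_left _ (by norm_num)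
  rw [hdiv] at h
  obtain ⟨k, hk⟩ := h
  have hcast : (((p - 1) * (p + 1) : ℕ) : ℤ) = (p : ℤ) ^ 2 - 1 := by
    rw [Nat.cast_mul, Nat.cast_sub (by omega : 1 ≤ p)]
    push_cast
    ring
  rw [← Int.natCast_dvd_natCast, hcast, ← hN₀, hk]
  refine ⟨k, ?_⟩
  push_cast
  ring

/-- **Block [C]**: the modulus of a congruence between a cusp form and the Eisenstein series
divides the Eisenstein numerator. The blocks [A2] and [A3] are taken as hypotheses. -/
theorem cong_modulus (hp5 : 5 ≤ p)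
    (hA2 : p % 8 = 7 → ∀ (G : ModularForm (Gamma0 p) 2) (h : PowerSeries ℂ), h ∈ PS (Rl 2) →
      qExpansion 1 G = 1 + PowerSeries.C 8 * h → False)
    (hA3 : ∀ ℓ : ℕ, ℓ.Prime → ℓ ≠ 2 → ℓ ≠ p → ∀ b : ℕ, b = (if ℓ = 3 then 2 else 1) →
      ∀ (G : ModularForm (Gamma0 p) 2) (h : PowerSeries ℂ), h ∈ PS (Rl ℓ) →
      qExpansion 1 G = 1 + PowerSeries.C ((ℓ : ℂ) ^ b) * h → False) :
    ∀ ℓ a : ℕ, ℓ.Prime → 1 ≤ a → ∀ (g : CuspForm (Gamma0 p) 2) (m : ℕ → ℤ),
      (∀ k, ModularFormClass.qCoeff ⇑g k = (m k : ℂ)) →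
      (∀ k, 1 ≤ k → (ℓ : ℤ) ^ a ∣ m k - sigmaP p k) →
      ℓ ^ a ∣ ModularCurve.eisensteinNumerator p := by
  intro ℓ a hℓ ha g m hm hc
  have hp : p.Prime := Fact.out
  have hB := bound_B p hp5 ℓ a hℓ g m hm hc
  have hbr := cg_bridge p hp5 hB
  by_cases hexc : ℓ ^ cgB ℓ ∣ p + 1
  · exfalso
    have hℓp1 : ℓ ∣ p + 1 := dvd_trans (dvd_pow_self ℓ (by have := cgB_pos ℓ; omega)) hexc
    have hℓp : ℓ ≠ p := by
      rintro rfl
      have : ℓ ∣ 1 := (Nat.dvd_add_right (dvd_refl ℓ)).mp hℓp1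
      exact hℓ.one_lt.ne' (Nat.dvd_one.mp this)
    by_cases h2 : ℓ = 2
    · subst h2
      have h8 : 8 ∣ p + 1 := by
        have : cgB 2 = 3 := rfl
        rw [this] at hexc
        exact hexc
      have hp8 : p % 8 = 7 := by omega
      have hcop : ((p - 1) / 2).Coprime 2 :=
        Nat.Coprime.symm ((Nat.Prime.coprime_iff_not_dvd Nat.prime_two).mpr (by omega))
      obtain ⟨G, h, hh, hG⟩ := cg_key p hp5 (ℓ := 2) (a := a) (b := 3) (w := 3)
        (d := (p - 1) / 2) Nat.prime_two ha (by norm_num) (by omega) hcop (by omega) g m hm hc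
      refine hA2 hp8 G h hh ?_
      rw [hG]
      norm_num
    · by_cases h3 : ℓ = 3
      · subst h3
        have h9 : 9 ∣ p + 1 := by
          have : cgB 3 = 2 := rfl
          rw [this] at hexc
          exact hexc
        have hcop : (p - 1).Coprime 3 :=
          Nat.Coprime.symm ((Nat.Prime.coprime_iff_not_dvd Nat.prime_three).mpr (by omega))
        obtain ⟨G, h, hh, hG⟩ := cg_key p hp5 (ℓ := 3) (a := a) (b := 2) (w := 8)
          (d := p - 1) Nat.prime_three ha (by norm_num) (by omega) hcop (by omega) g m hm hc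
        exact hA3 3 Nat.prime_three (by norm_num) hℓp 2 (by simp) G h hh hG
      · have hcop : (p - 1).Coprime ℓ := by
          refine Nat.Coprime.symm ((Nat.Prime.coprime_iff_not_dvd hℓ).mpr ?_)
          intro hd
          have h2' : ℓ ∣ 2 := by
            have := Nat.dvd_sub hℓp1 hd
            have e : p + 1 - (p - 1) = 2 := by omega
            rwa [e] at this
          exact h2 ((Nat.prime_dvd_prime_iff_eq hℓ Nat.prime_two).mp h2')
        obtain ⟨G, h, hh, hG⟩ := cg_key p hp5 (ℓ := ℓ) (a := a) (b := 1) (w := 24)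
          (d := p - 1) hℓ ha le_rfl (by omega) hcop (by simp) g m hm hc
        exact hA3 ℓ hℓ h2 hℓp 1 (by simp [h3]) G h hh hG
  · exact cg_arith hp hp5 hℓ hbr hexc

end main

end Fermat.Agent.S16
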