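import Mathlib
import Fermat.Prelude.Def_HeckeGalois_EichlerShimura

/-!
# S16 library, piece [R]: the index of an "eigen-ideal" image is detected by congruences

`A` a commutative ring with a ring homomorphism `χ : A → ℤ` (e.g. `A = MvPolynomial σ ℤ` and
`χ = aeval a`), `φ : A →+* T` surjective.  Then `T ⧸ φ(ker χ)` is a quotient of `ℤ`, and its
cardinality is `n` as soon as

* (i) there is a ring hom `ψ : T →+* ZMod n` with `ψ ∘ φ = χ mod n`, and
* (ii) every ring hom `ψ : T →+* ZMod (ℓ ^ a)` with `ψ ∘ φ = χ mod ℓ ^ a` has `ℓ ^ a ∣ n`.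
-/

set_option autoImplicit false

namespace Fermat.Agent.S16

variable {A T F : Type*} [CommRing A] [CommRing T] [FunLike F A ℤ] [RingHomClass F A ℤ]

/-- In the quotient `T ⧸ φ(ker χ)`, the class of `φ P` is the integer `χ P`. -/
lemma red_mk_eq_intCast (χ : F) (φ : A →+* T) (P : A) :
    Ideal.Quotient.mk (Ideal.map φ (RingHom.ker χ)) (φ P) =
      ((χ P : ℤ) : T ⧸ Ideal.map φ (RingHom.ker χ)) := by
  have hmem : P - ((χ P : ℤ) : A) ∈ RingHom.ker χ := by
    rw [RingHom.mem_ker, map_sub, map_intCast, Int.cast_id, sub_self]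
  have h1 : φ (P - ((χ P : ℤ) : A)) ∈ Ideal.map φ (RingHom.ker χ) := Ideal.mem_map_of_mem φ hmem
  rw [map_sub, map_intCast] at h1
  have h2 := (Ideal.Quotient.eq (I := Ideal.map φ (RingHom.ker χ))).mpr h1
  rw [h2, map_intCast]

/-- The quotient `T ⧸ φ(ker χ)` is a quotient of `ℤ`. -/
lemma red_intCast_surjective (χ : F) (φ : A →+* T) (hφ : Function.Surjective φ) :
    Function.Surjective (Int.castRingHom (T ⧸ Ideal.map φ (RingHom.ker χ))) := by
  intro q
  obtain ⟨t, rfl⟩ := Ideal.Quotient.mk_surjective q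
  obtain ⟨P, rfl⟩ := hφ t
  exact ⟨χ P, by rw [red_mk_eq_intCast χ φ P]; rfl⟩

/-- The quotient `T ⧸ φ(ker χ)` is isomorphic to some `ZMod m`. -/
lemma red_exists_equiv_zmod (χ : F) (φ : A →+* T) (hφ : Function.Surjective φ) :
    ∃ m : ℕ, Nonempty ((T ⧸ Ideal.map φ (RingHom.ker χ)) ≃+* ZMod m) := by
  set Q := T ⧸ Ideal.map φ (RingHom.ker χ) with hQ
  have hsurj := red_intCast_surjective χ φ hφ
  obtain ⟨m', hm'⟩ :=
    (IsPrincipalIdealRing.principal (RingHom.ker (Int.castRingHom Q))).principal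
  refine ⟨m'.natAbs, ⟨?_⟩⟩
  exact (RingHom.quotientKerEquivOfSurjective hsurj).symm.trans
    ((Ideal.quotEquivOfEq hm').trans (Int.quotientSpanEquivZMod m'))

/-- A ring hom `ZMod m →+* ZMod n` forces `n ∣ m`. -/
lemma red_dvd_of_ringHom {m n : ℕ} (f : ZMod m →+* ZMod n) : n ∣ m := by
  have h : ((m : ℕ) : ZMod n) = 0 := by
    rw [← map_natCast f, ZMod.natCast_self, map_zero]
  exact (ZMod.natCast_eq_zero_iff m n).mp h

/-- **Piece [R].** -/
theorem red_card_quotient (χ : F) (φ : A →+* T) (hφ : Function.Surjective φ) (n : ℕ)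
    (hn : 1 ≤ n)
    (h1 : ∃ ψ : T →+* ZMod n, ∀ P : A, ψ (φ P) = ((χ P : ℤ) : ZMod n))
    (h2 : ∀ ℓ a : ℕ, ℓ.Prime → 1 ≤ a → ∀ ψ : T →+* ZMod (ℓ ^ a),
      (∀ P : A, ψ (φ P) = ((χ P : ℤ) : ZMod (ℓ ^ a))) → ℓ ^ a ∣ n) :
    Nat.card (T ⧸ Ideal.map φ (RingHom.ker χ)) = n := by
  set J := Ideal.map φ (RingHom.ker χ) with hJ
  obtain ⟨m, ⟨e⟩⟩ := red_exists_equiv_zmod χ φ hφ
  have hcard : Nat.card (T ⧸ J) = m := by
    rw [Nat.card_congr e.toEquiv, Nat.card_zmod]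
  rw [hcard]
  -- (i) gives `n ∣ m`
  have hnm : n ∣ m := by
    obtain ⟨ψ, hψ⟩ := h1
    have hker : ∀ t ∈ J, ψ t = 0 := by
      intro t ht
      have hle : J ≤ RingHom.ker ψ := by
        rw [hJ, Ideal.map_le_iff_le_comap]
        intro P hP
        rw [Ideal.mem_comap, RingHom.mem_ker, hψ P, RingHom.mem_ker.mp hP, Int.cast_zero]
      exact RingHom.mem_ker.mp (hle ht)
    exact red_dvd_of_ringHom ((Ideal.Quotient.lift J ψ hker).comp e.symm.toRingHom)
  -- (ii) gives: every prime power dividing `m` divides `n`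
  have hpp : ∀ ℓ a : ℕ, ℓ.Prime → 1 ≤ a → ℓ ^ a ∣ m → ℓ ^ a ∣ n := by
    intro ℓ a hℓ ha hdvd
    apply h2 ℓ a hℓ ha
      (((ZMod.castHom hdvd (ZMod (ℓ ^ a))).comp e.toRingHom).comp (Ideal.Quotient.mk J))
    intro P
    simp only [RingHom.coe_comp, Function.comp_apply]
    rw [red_mk_eq_intCast χ φ P, map_intCast, map_intCast]
  -- hence `m ≠ 0` and `m ∣ n`
  have hm0 : m ≠ 0 := by
    rintro rfl
    have h := hpp 2 n Nat.prime_two hn (dvd_zero _)
    have hlt : n < 2 ^ n := Nat.lt_two_pow_self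
    exact absurd (Nat.le_of_dvd hn h) (not_le.mpr hlt)
  have hmn : m ∣ n := by
    rw [← Nat.factorization_prime_le_iff_dvd hm0 (by omega)]
    intro ℓ hℓ
    by_contra hcon
    rw [not_le] at hcon
    have ha : 1 ≤ m.factorization ℓ := by omega
    have hd : ℓ ^ (m.factorization ℓ) ∣ n := hpp ℓ _ hℓ ha (Nat.ordProj_dvd m ℓ)
    have := (hℓ.pow_dvd_iff_le_factorization (by omega)).mp hd
    omega
  exact Nat.dvd_antisymm hmn hnm

/-- Piece [R] in the shape of the frozen statement: the ideal is the image of the prelude's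
`eisensteinIdeal p = ker (aeval (eisensteinSystem p))`. -/
theorem red_card_eisenstein (p : ℕ) (φ : ModularCurve.HeckeAlg →+* T)
    (hφ : Function.Surjective φ) (n : ℕ) (hn : 1 ≤ n)
    (h1 : ∃ ψ : T →+* ZMod n, ∀ P : ModularCurve.HeckeAlg,
      ψ (φ P) = ((MvPolynomial.aeval (R := ℤ) (ModularCurve.eisensteinSystem p) P : ℤ) : ZMod n))
    (h2 : ∀ ℓ a : ℕ, ℓ.Prime → 1 ≤ a → ∀ ψ : T →+* ZMod (ℓ ^ a),
      (∀ P : ModularCurve.HeckeAlg, ψ (φ P) =
        ((MvPolynomial.aeval (R := ℤ) (ModularCurve.eisensteinSystem p) P : ℤ) : ZMod (ℓ ^ a))) →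
      ℓ ^ a ∣ n) :
    Nat.card (T ⧸ Ideal.map φ (ModularCurve.eisensteinIdeal p)) = n :=
  red_card_quotient (MvPolynomial.aeval (R := ℤ) (ModularCurve.eisensteinSystem p)) φ hφ n hn h1 h2

end Fermat.Agent.S16
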