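import Fermat.Agent.S16.Defs

/-!
# S16 library: the Hecke relation for `σ'(n)` (sum of the divisors prime to `p`)

For primes `r ≠ p` and `n ≥ 1`:  `σ'(n r) + [r ∣ n] r σ'(n / r) = (1 + r) σ'(n)`.
-/

set_option autoImplicit false

namespace Fermat.Agent.S16

/-- The divisors `e` of `n` prime to `p` with `r e ∣ n` are the divisors of `n / r` prime to `p`
(when `r ∣ n`), and there are none when `r ∤ n`. -/
lemma sh_sum_filter_mul_dvd (p r n : ℕ) (hr : 0 < r) (hn : 0 < n) :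
    ∑ e ∈ (n.divisors.filter (fun d => ¬ p ∣ d)).filter (fun e => r * e ∣ n), e =
      if r ∣ n then sigmaP p (n / r) else 0 := by
  split_ifs with hdvd
  · unfold sigmaP
    apply Finset.sum_congr _ (fun _ _ => rfl)
    ext e
    simp only [Finset.mem_filter, Nat.mem_divisors]
    obtain ⟨m, rfl⟩ := hdvd
    rw [Nat.mul_div_cancel_left m hr]
    have hm : m ≠ 0 := by
      rintro rfl; simp at hn
    constructor
    · rintro ⟨⟨⟨-, -⟩, h2⟩, h3⟩
      exact ⟨⟨(Nat.mul_dvd_mul_iff_left hr).mp h3, hm⟩, h2⟩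
    · rintro ⟨⟨h1, -⟩, h2⟩
      exact ⟨⟨⟨Dvd.dvd.mul_left h1 r, hn.ne'⟩, h2⟩, Nat.mul_dvd_mul_left r h1⟩
  · apply Finset.sum_eq_zero
    intro e he
    simp only [Finset.mem_filter] at he
    exact absurd ((dvd_mul_right r e).trans he.2) hdvd

/-- **Hecke relation for `σ'`** (in `ℕ`, additive form). -/
theorem sh_sigmaP_hecke {p r : ℕ} (hp : p.Prime) (hr : r.Prime) (hrp : r ≠ p) (n : ℕ)
    (hn : 0 < n) :
    sigmaP p (n * r) + (if r ∣ n then r * sigmaP p (n / r) else 0) = (1 + r) * sigmaP p n := by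
  set A := n.divisors.filter (fun d => ¬ p ∣ d) with hA
  have hnr : n * r ≠ 0 := Nat.mul_ne_zero hn.ne' hr.ne_zero
  have hpr : ¬ p ∣ r := fun h => hrp ((Nat.prime_dvd_prime_iff_eq hp hr).mp h).symm
  -- split the divisors of `n r` prime to `p` into those dividing `n` and the others
  have hsplit : sigmaP p (n * r) =
      ∑ d ∈ ((n * r).divisors.filter (fun d => ¬ p ∣ d)).filter (fun d => d ∣ n), d +
      ∑ d ∈ ((n * r).divisors.filter (fun d => ¬ p ∣ d)).filter (fun d => ¬ d ∣ n), d := by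
    rw [sigmaP]
    exact (Finset.sum_filter_add_sum_filter_not _ _ _).symm
  have h1 : ((n * r).divisors.filter (fun d => ¬ p ∣ d)).filter (fun d => d ∣ n) = A := by
    ext d
    simp only [hA, Finset.mem_filter, Nat.mem_divisors]
    constructor
    · rintro ⟨⟨⟨-, -⟩, h2⟩, h3⟩
      exact ⟨⟨h3, hn.ne'⟩, h2⟩
    · rintro ⟨⟨h1, -⟩, h2⟩
      exact ⟨⟨⟨Dvd.dvd.mul_right h1 r, hnr⟩, h2⟩, h1⟩
  have h2 : ((n * r).divisors.filter (fun d => ¬ p ∣ d)).filter (fun d => ¬ d ∣ n) =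
      (A.filter (fun e => ¬ r * e ∣ n)).image (fun e => r * e) := by
    ext d
    simp only [hA, Finset.mem_filter, Nat.mem_divisors, Finset.mem_image]
    constructor
    · rintro ⟨⟨⟨h1, -⟩, h2⟩, h3⟩
      have hrd : r ∣ d := by
        by_contra hrd
        have hcop : Nat.Coprime d r := ((Nat.Prime.coprime_iff_not_dvd hr).mpr hrd).symm
        exact h3 (hcop.dvd_of_dvd_mul_right h1)
      obtain ⟨e, rfl⟩ := hrd
      refine ⟨e, ⟨⟨⟨?_, hn.ne'⟩, fun hpe => h2 (Dvd.dvd.mul_left hpe r)⟩, h3⟩, rfl⟩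
      rw [mul_comm n r] at h1
      exact (Nat.mul_dvd_mul_iff_left hr.pos).mp h1
    · rintro ⟨e, ⟨⟨⟨h1, -⟩, h2⟩, h3⟩, rfl⟩
      refine ⟨⟨⟨?_, hnr⟩, ?_⟩, h3⟩
      · rw [mul_comm n r]; exact Nat.mul_dvd_mul_left r h1
      · intro hpe
        rcases (Nat.Prime.dvd_mul hp).mp hpe with h | h
        · exact hpr h
        · exact h2 h
  have h3 : ∑ d ∈ (A.filter (fun e => ¬ r * e ∣ n)).image (fun e => r * e), d =
      r * ∑ e ∈ A.filter (fun e => ¬ r * e ∣ n), e := by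
    rw [Finset.sum_image, Finset.mul_sum]
    intro x _ y _ hxy
    exact Nat.eq_of_mul_eq_mul_left hr.pos hxy
  have h4 : ∑ e ∈ A.filter (fun e => r * e ∣ n), e + ∑ e ∈ A.filter (fun e => ¬ r * e ∣ n), e =
      sigmaP p n := by
    rw [sigmaP, ← hA]
    exact Finset.sum_filter_add_sum_filter_not _ _ _
  have h5 := sh_sum_filter_mul_dvd p r n hr.pos hn
  rw [← hA] at h5
  rw [hsplit, h1, h2, h3]
  have hA' : ∑ d ∈ A, d = sigmaP p n := by rw [sigmaP, ← hA]
  rw [hA']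
  split_ifs with hdvd
  · rw [if_pos hdvd] at h5
    rw [← h5, ← h4]
    ring
  · rw [if_neg hdvd] at h5
    rw [h5, zero_add] at h4
    rw [h4]
    ring

end Fermat.Agent.S16
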