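import Fermat.Agent.S16.DualityMain
import Fermat.Agent.S16.SigmaHecke
import Fermat.Agent.S16.Reduction

/-!
# S16 library, piece [D], part 3: instantiation with `σ'` and the reduction of the frozen
statement to the two congruence statements (existence [X] and bound [C])
-/

set_option autoImplicit false
set_option linter.unusedSectionVars false

open CuspForm CongruenceSubgroup ModularFormClass

namespace Fermat.Agent.S16

noncomputable section

variable (p : ℕ) [Fact p.Prime]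

/-- The coefficients `σ'(n)` of the Eisenstein series satisfy the Hecke recursions. -/
theorem du_isEisSeq_sigmaP : du_IsEisSeq p (fun n => (sigmaP p n : ℤ)) where
  one := by
    show ((sigmaP p 1 : ℕ) : ℤ) = 1
    rw [sigmaP_one p (Fact.out : p.Prime).one_lt]; rfl
  hecke := by
    intro r hr hrp n hn
    have h := sh_sigmaP_hecke (Fact.out : p.Prime) hr hrp n hn
    show ((sigmaP p (n * r) : ℕ) : ℤ) + (if r ∣ n then (r : ℤ) * ((sigmaP p (n / r) : ℕ) : ℤ)
      else 0) = (1 + (r : ℤ)) * ((sigmaP p n : ℕ) : ℤ)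
    have h' : ((sigmaP p (n * r) + (if r ∣ n then r * sigmaP p (n / r) else 0) : ℕ) : ℤ) =
        (((1 + r) * sigmaP p n : ℕ) : ℤ) := by rw [h]
    split_ifs with hdvd
    · rw [if_pos hdvd] at h'
      push_cast at h'
      exact h'
    · rw [if_neg hdvd] at h'
      push_cast at h'
      exact h'
  atp := by
    intro n _
    show ((sigmaP p (n * p) : ℕ) : ℤ) = ((sigmaP p n : ℕ) : ℤ)
    rw [mul_comm, sigmaP_mul_self (Fact.out : p.Prime)]

/-- From a cusp form with integral coefficients `m` to an element of the lattice. -/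
theorem du_exists_lattice_elt (g : CuspForm (Gamma0 p) 2) (m : ℕ → ℤ)
    (hm : ∀ k, qCoeff ⇑g k = (m k : ℂ)) :
    ∃ g' : ↥(intLattice p 2), (g' : CuspForm (Gamma0 p) 2) = g ∧ ∀ k, du_cz p k g' = m k := by
  have hmem : g ∈ intLattice p 2 :=
    (Fermat.Agent.S49.mem_intLattice_iff' g).mpr fun k => ⟨m k, hm k⟩
  exact ⟨⟨g, hmem⟩, rfl, fun k => du_cz_eq_of p k ⟨g, hmem⟩ (hm k)⟩

/-- **(D1)** for `σ'`, in terms of cusp forms. -/
theorem du_D1 (M : ℕ) (f : CuspForm (Gamma0 p) 2) (m : ℕ → ℤ)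
    (hm : ∀ k, qCoeff ⇑f k = (m k : ℂ))
    (hc : ∀ k, 1 ≤ k → (M : ℤ) ∣ m k - sigmaP p k) :
    ∃ ψ : du_T p →+* ZMod M, ∀ P : ModularCurve.HeckeAlg,
      ψ (du_phi p P) = ((du_chi p P : ℤ) : ZMod M) := by
  obtain ⟨f', -, hf'⟩ := du_exists_lattice_elt p f m hm
  exact du_exists_char_of_form p (du_isEisSeq_sigmaP p) M f'
    (fun k hk => by rw [hf' k]; exact hc k hk)

/-- **(D2)** for `σ'`, in terms of cusp forms. -/
theorem du_D2 (M : ℕ) (ψ : du_T p →+* ZMod M)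
    (hψ : ∀ P : ModularCurve.HeckeAlg, ψ (du_phi p P) = ((du_chi p P : ℤ) : ZMod M)) :
    ∃ (g : CuspForm (Gamma0 p) 2) (m : ℕ → ℤ), (∀ k, qCoeff ⇑g k = (m k : ℂ)) ∧
      ∀ k, 1 ≤ k → (M : ℤ) ∣ m k - sigmaP p k := by
  obtain ⟨g, hg⟩ := du_exists_form_of_char p (du_isEisSeq_sigmaP p) M ψ hψ
  exact ⟨g, fun k => du_cz p k g, fun k => du_cz_spec p k g, hg⟩

/-- **Reduction of the frozen statement S16** to the existence statement [X] and the congruence
bound [C]. -/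
theorem du_card_eq (n : ℕ) (hn : 1 ≤ n)
    (hX : ∃ (f : CuspForm (Gamma0 p) 2) (m : ℕ → ℤ), (∀ k, qCoeff ⇑f k = (m k : ℂ)) ∧
      ∀ k, 1 ≤ k → (n : ℤ) ∣ m k - sigmaP p k)
    (hC : ∀ ℓ a : ℕ, ℓ.Prime → 1 ≤ a → ∀ (g : CuspForm (Gamma0 p) 2) (m : ℕ → ℤ),
      (∀ k, qCoeff ⇑g k = (m k : ℂ)) → (∀ k, 1 ≤ k → (ℓ : ℤ) ^ a ∣ m k - sigmaP p k) →
      ℓ ^ a ∣ n) :
    Nat.card (↥(heckeLatticeAlgebra p ∅) ⧸
        Ideal.map ((latticeRestrictHom p ∅).toRingHom.comp (heckeEvalForms p 2))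
          (ModularCurve.eisensteinIdeal p)) = n := by
  refine red_card_eisenstein p (du_phi p) (du_phi_surjective p) n hn ?_ ?_
  · obtain ⟨f, m, hm, hc⟩ := hX
    exact du_D1 p n f m hm hc
  · intro ℓ a hℓ ha ψ hψ
    obtain ⟨g, m, hm, hc⟩ := du_D2 p (ℓ ^ a) ψ hψ
    refine hC ℓ a hℓ ha g m hm (fun k hk => ?_)
    have := hc k hk
    push_cast at this
    exact this

end

end Fermat.Agent.S16
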