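import Mathlib
import Fermat.Agent.S16.SturmContra
import Fermat.Agent.S16.FrickeWt
import Fermat.Agent.S16.EisLevel
import Fermat.Prelude.Def_ModularCurve_ModularUnit
import Fermat.Prelude.Def_FLTPrelim_Modularity

/-!
# S16 library, piece [X]: existence of a cusp form congruent to the Eisenstein series

From a form `Θ ∈ M₂(Γ₀(p))` with `a₀ = 1` and even higher coefficients (the theta series of a
maximal order) we get, with `d = gcd(p-1, 12) = u (p-1) + 12 v` and `n = (p-1)/d`: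
`M' = u E + (v/2) Θ` has `a₀ = d/24` and integral higher coefficients, and `f = E - n M'` has
`a₀ = 0` (so it is a cusp form) and `a_k(f) ≡ σ'(k) mod n`.
-/

set_option autoImplicit false

open UpperHalfPlane hiding I
open Complex Function ModularForm CongruenceSubgroup
open scoped Manifold Real MatrixGroups
open Fermat.Agent.S23 Fermat.Agent.S23.QF

noncomputable section

namespace Fermat.Agent.S16

variable (p : ℕ) [Fact p.Prime]

/-- **[X]** existence of a cusp form with integral coefficients congruent to the Eisenstein series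
modulo the Eisenstein numerator. -/
theorem exists_eisenstein_congruent
    (hΘ : ∃ Θ : ModularForm (Gamma0 p) 2, (qExpansion 1 Θ).coeff 0 = 1 ∧
      ∀ n, 1 ≤ n → ∃ m : ℤ, (qExpansion 1 Θ).coeff n = 2 * m) :
    ∃ (f : CuspForm (Gamma0 p) 2) (m : ℕ → ℤ),
      (∀ k, ModularFormClass.qCoeff ⇑f k = (m k : ℂ)) ∧
      ∀ k, 1 ≤ k → ((ModularCurve.eisensteinNumerator p : ℕ) : ℤ) ∣ m k - sigmaP p k := by
  obtain ⟨Θ, hΘ0, hΘn⟩ := hΘ
  choose t ht using hΘn
  have hp1 : 1 ≤ p := (Fact.out : p.Prime).one_lt.le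
  set d : ℕ := Nat.gcd (p - 1) 12 with hd
  set n : ℕ := ModularCurve.eisensteinNumerator p with hn
  have hnd : n * d = p - 1 := Nat.div_mul_cancel (Nat.gcd_dvd_left _ _)
  set u : ℤ := Int.gcdA ((p - 1 : ℕ) : ℤ) 12 with hu
  set v : ℤ := Int.gcdB ((p - 1 : ℕ) : ℤ) 12 with hv
  have hbez : (d : ℤ) = ((p - 1 : ℕ) : ℤ) * u + 12 * v := by
    have := Int.gcd_eq_gcd_ab ((p - 1 : ℕ) : ℤ) 12
    rw [hd, hu, hv]
    exact_mod_cast this
  have hpC : ((p - 1 : ℕ) : ℂ) = (p : ℂ) - 1 := by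
    rw [Nat.cast_sub hp1, Nat.cast_one]
  -- the form
  let F : ModularForm (Gamma0 p) 2 :=
    eisP p - (n : ℂ) • ((u : ℂ) • eisP p + ((v : ℂ) / 2) • Θ)
  have hFq : QPair ⇑F (qExpansion 1 (eisP p) -
      (n : ℂ) • ((u : ℂ) • qExpansion 1 (eisP p) + ((v : ℂ) / 2) • qExpansion 1 Θ)) :=
    (qPair_coe p (eisP p)).sub
      ((((qPair_coe p (eisP p)).smul (u : ℂ)).add ((qPair_coe p Θ).smul ((v : ℂ) / 2))).smul (n : ℂ))
  have hcoeff : ∀ k, (qExpansion 1 F).coeff k =
      (qExpansion 1 (eisP p)).coeff k - (n : ℂ) * ((u : ℂ) * (qExpansion 1 (eisP p)).coeff k +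
        ((v : ℂ) / 2) * (qExpansion 1 Θ).coeff k) := by
    intro k
    rw [hFq.qexp]
    simp only [map_sub, map_add, PowerSeries.coeff_smul, smul_eq_mul]
  have hF0 : (qExpansion 1 F).coeff 0 = 0 := by
    rw [hcoeff 0, qExpansion_eisP, if_pos rfl, hΘ0]
    have h1 : ((n * d : ℕ) : ℂ) = (p : ℂ) - 1 := by rw [hnd, hpC]
    have h2 : ((d : ℤ) : ℂ) = ((p : ℂ) - 1) * u + 12 * v := by
      rw [hbez]; push_cast; rw [hpC]
    push_cast at h1 h2
    linear_combination (-1 / 24 : ℂ) * h1 + ((n : ℂ) / 24) * h2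
  obtain ⟨g, hg⟩ := exists_cuspForm_of_coeff_zero p F hF0
  set t' : ℕ → ℤ := fun k => if h : 1 ≤ k then t k h else 0 with ht'
  have ht'k : ∀ k, 1 ≤ k → (qExpansion 1 Θ).coeff k = 2 * (t' k : ℂ) := by
    intro k hk
    simp only [ht', dif_pos hk]
    exact ht k hk
  refine ⟨g, fun k => if k = 0 then 0 else (sigmaP p k : ℤ) - n * (u * sigmaP p k + v * t' k),
    ?_, ?_⟩
  · intro k
    rw [ModularFormClass.qCoeff, hg]
    beta_reduce
    by_cases hk : k = 0
    · rw [if_pos hk, hk, hF0, Int.cast_zero]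
    · rw [if_neg hk, hcoeff k, qExpansion_eisP, if_neg hk,
        ht'k k (Nat.one_le_iff_ne_zero.mpr hk)]
      push_cast
      ring
  · intro k hk
    have hk0 : k ≠ 0 := Nat.one_le_iff_ne_zero.mp hk
    simp only [if_neg hk0]
    refine ⟨-(u * sigmaP p k + v * t' k), ?_⟩
    ring

end Fermat.Agent.S16
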