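import Mathlib
import Fermat.Agent.S16.Defs
import Fermat.Agent.S16.SturmModIdeal
import Fermat.Agent.S16.NormExpansion
import Fermat.Agent.S16.Fricke
import Fermat.Agent.S16.FrickeWt
import Fermat.Agent.S16.SturmContra
import Fermat.Prelude.Thm_UpperHalfPlane_qCoeff_heckeT
import Fermat.Prelude.Thm_ModularForm_mdifferentiable_heckeT
import Fermat.Prelude.Thm_ModularForm_isBoundedAtImInfty_heckeT
import Fermat.Prelude.Thm_ModularForm_periodic_heckeT_comp_ofComplex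
import Fermat.Prelude.Thm_ModularForm_sturm_bound_Gamma0

/-!
# S16 library, piece [A3]: the Hecke trick at odd primes `ℓ ≠ p`

`no_one_mod_odd`: there is no `G ∈ M₂(Γ₀(p))` whose `q`-expansion is `≡ 1` modulo `ℓ ^ b`
(`b = 2` if `ℓ = 3`, `b = 1` otherwise; coefficients `ℓ`-integral algebraic numbers), for `ℓ` an
odd prime different from the odd prime `p`.

Proof.  `H := T₂(G Δ) - τ(2) · G Δ ∈ M₁₄(Γ₀(p))`.  Because `Δ` is a `T₂`-eigenform in weight
`12` (level-one Sturm bound) and `T₂` in weight `14` differs from `T₂` in weight `12` by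
`(2¹³ - 2¹¹) · V₂`, the `q`-expansion of `H` is `≡ 3 · 2¹¹ · Δ(q²)` modulo `ℓ ^ b`; the same
computation after the Fricke involution (which commutes with `T₂`, and `sharp G = -U_p G / p`)
gives `sharp H ≡ -(1/p) · 3 · 2¹¹ · Δ(q^{2p})`.  Dividing by `3 · 2¹¹` and applying the generic
norm + Sturm contradiction `sturm_contra` (weight `14`, `δ₀ = Δ(q²) = q² · …`) finishes.
-/

set_option autoImplicit false

open UpperHalfPlane hiding I
open Complex Function ModularForm CongruenceSubgroup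
open scoped Manifold Real MatrixGroups
open Fermat.Agent.S23 Fermat.Agent.S23.QF

noncomputable section

namespace Fermat.Agent.S16

open PowerSeries

/-! ### `T₂` in weight `k` on `q`-expansions -/

/-- `T₂` in weight `k` on power series: `a_n ↦ a_{2n} + 2^(k-1) a_{n/2}`. -/
def htT (k : ℤ) (P : PowerSeries ℂ) : PowerSeries ℂ :=
  PowerSeries.mk fun n => coeff (n * 2) P +
    if 2 ∣ n then (2 : ℂ) ^ (k - 1) * coeff (n / 2) P else 0

theorem ht_coeff_htT (k : ℤ) (P : PowerSeries ℂ) (n : ℕ) :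
    coeff n (htT k P) = coeff (n * 2) P +
      if 2 ∣ n then (2 : ℂ) ^ (k - 1) * coeff (n / 2) P else 0 := by
  rw [htT, coeff_mk]

theorem ht_htT_add (k : ℤ) (P Q : PowerSeries ℂ) : htT k (P + Q) = htT k P + htT k Q := by
  ext n
  simp only [ht_coeff_htT, map_add]
  split_ifs <;> ring

theorem ht_htT_sub (k : ℤ) (P Q : PowerSeries ℂ) : htT k (P - Q) = htT k P - htT k Q := by
  ext n
  simp only [ht_coeff_htT, map_sub]
  split_ifs <;> ring

theorem ht_htT_smul (k : ℤ) (a : ℂ) (P : PowerSeries ℂ) : htT k (a • P) = a • htT k P := by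
  ext n
  simp only [ht_coeff_htT, coeff_smul, smul_eq_mul]
  split_ifs <;> ring

theorem ht_htT_C_mul (k : ℤ) (a : ℂ) (P : PowerSeries ℂ) : htT k (C a * P) = C a * htT k P := by
  rw [← smul_eq_C_mul, ← smul_eq_C_mul, ht_htT_smul]

theorem ht_htT_mem_PS {R : Subring ℂ} {k : ℤ} (h2 : (2 : ℂ) ^ (k - 1) ∈ R) {P : PowerSeries ℂ}
    (hP : P ∈ PS R) : htT k P ∈ PS R := by
  intro n
  rw [ht_coeff_htT]
  split_ifs
  · exact R.add_mem (hP _) (R.mul_mem h2 (hP _))
  · rw [add_zero]; exact hP _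

/-- `T₂` in weight `k` is `U₂ + 2^(k-1) V₂`; hence the difference between two weights. -/
theorem ht_htT_weight (k k' : ℤ) (P : PowerSeries ℂ) :
    htT k P = htT k' P + ((2 : ℂ) ^ (k - 1) - (2 : ℂ) ^ (k' - 1)) • expandP 2 P := by
  ext n
  simp only [ht_coeff_htT, map_add, coeff_smul, coeff_expandP, smul_eq_mul]
  split_ifs <;> ring

/-- `T₂` commutes with `q ↦ q ^ p` for odd `p`. -/
theorem ht_htT_expandP (k : ℤ) {p : ℕ} (hp : Odd p) (P : PowerSeries ℂ) :
    htT k (expandP p P) = expandP p (htT k P) := by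
  have hp0 : 0 < p := hp.pos
  have hcop : Nat.Coprime p 2 := Nat.coprime_two_right.mpr hp
  ext n
  rw [ht_coeff_htT, coeff_expandP, coeff_expandP, coeff_expandP]
  by_cases hpn : p ∣ n
  · obtain ⟨m, rfl⟩ := hpn
    have h1 : p ∣ p * m * 2 := ⟨m * 2, by ring⟩
    have h2 : p * m * 2 / p = m * 2 := by
      rw [mul_assoc]; exact Nat.mul_div_cancel_left _ hp0
    rw [if_pos h1, h2, if_pos (dvd_mul_right p m), Nat.mul_div_cancel_left _ hp0, ht_coeff_htT]
    congr 1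
    by_cases h2m : 2 ∣ m
    · obtain ⟨m', rfl⟩ := h2m
      have h3 : 2 ∣ p * (2 * m') := ⟨p * m', by ring⟩
      have h4 : p * (2 * m') / 2 = p * m' := by
        rw [show p * (2 * m') = 2 * (p * m') by ring]; exact Nat.mul_div_cancel_left _ two_pos
      rw [if_pos h3, if_pos (dvd_mul_right 2 m'), h4, if_pos (dvd_mul_right p m'),
        Nat.mul_div_cancel_left _ hp0, Nat.mul_div_cancel_left _ two_pos]
    · have h3 : ¬ 2 ∣ p * m := by
        intro h
        exact h2m ((Nat.Coprime.dvd_of_dvd_mul_left hcop.symm) h)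
      rw [if_neg h3, if_neg h2m]
  · have h1 : ¬ p ∣ n * 2 := by
      intro h
      exact hpn ((Nat.Coprime.dvd_of_dvd_mul_right hcop) h)
    rw [if_neg h1, if_neg hpn, zero_add]
    split_ifs with h2 h3
    · exfalso
      apply hpn
      obtain ⟨m, rfl⟩ := h2
      rw [Nat.mul_div_cancel_left _ two_pos] at h3
      exact Dvd.dvd.mul_left h3 2
    · rw [mul_zero]
    · rfl

/-- `T₂` on `q`-functions. -/
theorem ht_qPair_heckeT {F : ℍ → ℂ} {P : PowerSeries ℂ} (h : QPair F P) (k : ℤ) :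
    QPair (heckeT k 2 F) (htT k P) := by
  refine ⟨⟨ModularForm.mdifferentiable_heckeT h.isQ.mdiff k 2,
    ModularForm.periodic_heckeT_comp_ofComplex h.isQ.periodic k 2,
    ModularForm.isBoundedAtImInfty_heckeT h.isQ.bdd k 2⟩, ?_⟩
  ext n
  have := UpperHalfPlane.qCoeff_heckeT h.isQ.periodic h.isQ.mdiff h.isQ.bdd k (p := 2)
    two_ne_zero n
  rw [ht_coeff_htT, ← h.qexp]
  simpa [ModularFormClass.qCoeff, coeffHeckeT] using this

/-- `U_p` on power series: `a_n ↦ a_{np}`. -/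
def htU (p : ℕ) (P : PowerSeries ℂ) : PowerSeries ℂ := PowerSeries.mk fun n => coeff (n * p) P

theorem ht_coeff_htU (p : ℕ) (P : PowerSeries ℂ) (n : ℕ) : coeff n (htU p P) = coeff (n * p) P := by
  rw [htU, coeff_mk]

theorem ht_htU_mem_PS {R : Subring ℂ} (p : ℕ) {P : PowerSeries ℂ} (hP : P ∈ PS R) :
    htU p P ∈ PS R := by
  intro n
  rw [ht_coeff_htU]
  exact hP _

theorem ht_htU_one_add {p : ℕ} (hp : p ≠ 0) (M : ℂ) (h : PowerSeries ℂ) :
    htU p (1 + C M * h) = 1 + C M * htU p h := by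
  ext n
  simp only [ht_coeff_htU, map_add, coeff_C_mul, coeff_one, mul_eq_zero, hp, or_false]

/-- `U_p` on `q`-functions. -/
theorem ht_qPair_heckeU (p : ℕ) [Fact p.Prime] {F : ℍ → ℂ} {P : PowerSeries ℂ} (h : QPair F P)
    (k : ℤ) : QPair (heckeU k p F) (htU p P) := by
  refine ⟨fw_isQFun_heckeU p h.isQ k, ?_⟩
  ext n
  rw [fw_coeff_heckeU p h.isQ k n, ht_coeff_htU, h.qexp]

/-! ### `Δ` is a `T₂`-eigenform in weight `12` -/

/-- `Δ` as a level-one modular form. -/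
def htDelta : ModularForm 𝒮ℒ 12 := ModularFormClass.modularForm CuspForm.discriminant

theorem ht_coe_htDelta : ⇑htDelta = ModularForm.discriminant := rfl

/-- The `q`-expansion of `Δ`, with complex coefficients. -/
def htDc : PowerSeries ℂ := SMI.deltaZ.map (Int.castRingHom ℂ)

theorem ht_htDc_mem_PS (R : Subring ℂ) : htDc ∈ PS R := map_intCast_mem_PS R _

theorem ht_qPair_delta : QPair (ModularForm.discriminant : ℍ → ℂ) htDc :=
  (qPair_levelOne htDelta).congr SMI.deltaZ_map.symm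

/-- `τ(2)`. -/
def htTau2 : ℤ := coeff 2 SMI.deltaZ

theorem ht_coeff_htDc (n : ℕ) : coeff n htDc = ((coeff n SMI.deltaZ : ℤ) : ℂ) := by
  rw [htDc, coeff_map, eq_intCast]

theorem ht_index_Gamma0_one : (CongruenceSubgroup.Gamma0 1).index = 1 := by
  have : CongruenceSubgroup.Gamma0 1 = ⊤ := by
    ext A
    simp only [CongruenceSubgroup.Gamma0_mem, Subgroup.mem_top, iff_true]
    exact Subsingleton.elim _ _
  rw [this, Subgroup.index_top]

/-- `T₂ Δ = τ(2) Δ` on `q`-expansions (weight `12`). -/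
theorem ht_delta_eigen : htT 12 htDc = (htTau2 : ℂ) • htDc := by
  have : NeZero (1 : ℕ) := ⟨one_ne_zero⟩
  have h21 : ¬ 2 ∣ 1 := by norm_num
  set D1 : ModularForm (Gamma0 1) 12 := fr_ofLevelOne 1 htDelta with hD1
  set F : ModularForm (Gamma0 1) 12 :=
    ModularForm.heckeTLin 12 Nat.prime_two h21 D1 - (htTau2 : ℂ) • D1 with hF
  have h1 : QPair ⇑D1 htDc := ht_qPair_delta
  have hq : QPair ⇑F (htT 12 htDc - (htTau2 : ℂ) • htDc) :=
    ((ht_qPair_heckeT h1 12).sub (h1.smul _)).congr_fun rfl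
  have hF0 : F = 0 := by
    apply ModularForm.sturm_bound_Gamma0 1 F
    intro n hn
    rw [ht_index_Gamma0_one] at hn
    have hn1 : n ≤ 1 := by
      norm_num at hn
      exact hn
    rw [hq.qexp, map_sub, ht_coeff_htT, coeff_smul, smul_eq_mul]
    interval_cases n
    · simp [ht_coeff_htDc, SMI.deltaZ_coeff_zero]
    · simp [ht_coeff_htDc, SMI.deltaZ_coeff_one, htTau2]
  have h0 : qExpansion 1 ⇑F = 0 := by
    rw [hF0]
    exact qExpansion_zero 1
  rw [hq.qexp] at h0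
  exact sub_eq_zero.mp h0

/-! ### The operator `T₂ - τ(2)` in weight `14` -/

/-- `T₂ - τ(2)` in weight `2 + 12` on power series. -/
def htL (P : PowerSeries ℂ) : PowerSeries ℂ := htT (2 + 12) P - (htTau2 : ℂ) • P

theorem ht_htL_add (P Q : PowerSeries ℂ) : htL (P + Q) = htL P + htL Q := by
  simp only [htL, ht_htT_add, smul_add]
  ring

theorem ht_htL_smul (a : ℂ) (P : PowerSeries ℂ) : htL (a • P) = a • htL P := by
  simp only [htL, ht_htT_smul, smul_sub, smul_comm a]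

theorem ht_htL_C_mul (a : ℂ) (P : PowerSeries ℂ) : htL (C a * P) = C a * htL P := by
  rw [← smul_eq_C_mul, ← smul_eq_C_mul, ht_htL_smul]

theorem ht_htL_mem_PS (R : Subring ℂ) {P : PowerSeries ℂ} (hP : P ∈ PS R) : htL P ∈ PS R := by
  have h2 : (2 : ℂ) ^ ((2 : ℤ) + 12 - 1) ∈ R := by
    have : (2 : ℂ) ^ ((2 : ℤ) + 12 - 1) = ((8192 : ℕ) : ℂ) := by norm_num
    rw [this]
    exact natCast_mem R _
  exact (PS R).sub_mem (ht_htT_mem_PS h2 hP) (smul_mem_PS (intCast_mem R _) hP)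

theorem ht_expandP_smul (p : ℕ) (a : ℂ) (P : PowerSeries ℂ) :
    expandP p (a • P) = a • expandP p P := by
  ext n
  simp only [coeff_expandP, coeff_smul, smul_eq_mul]
  split_ifs
  · rfl
  · rw [mul_zero]

theorem ht_htL_expandP {p : ℕ} (hp : Odd p) (P : PowerSeries ℂ) :
    htL (expandP p P) = expandP p (htL P) := by
  rw [htL, htL, ht_htT_expandP _ hp, expandP_sub, ht_expandP_smul]

/-- `(T₂ - τ(2)) Δ = 3 · 2¹¹ · Δ(q²)` in weight `14`. -/
theorem ht_htL_delta : htL htDc = (6144 : ℂ) • expandP 2 htDc := by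
  rw [htL, ht_htT_weight (2 + 12) 12, ht_delta_eigen, add_sub_cancel_left]
  congr 1
  norm_num

/-- The key computation: `L ((a (1 + M h)) E) = a L E + M K` with `K` integral. -/
theorem ht_htL_main (R : Subring ℂ) {a M : ℂ} (ha : a ∈ R) {h E : PowerSeries ℂ}
    (hh : h ∈ PS R) (hE : E ∈ PS R) :
    ∃ K ∈ PS R, htL ((a • (1 + C M * h)) * E) = a • htL E + C M * K := by
  refine ⟨htL (a • (h * E)), ht_htL_mem_PS R (smul_mem_PS ha ((PS R).mul_mem hh hE)), ?_⟩
  have : (a • (1 + C M * h)) * E = a • E + C M * (a • (h * E)) := by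
    simp only [smul_eq_C_mul]
    ring
  rw [this, ht_htL_add, ht_htL_smul, ht_htL_C_mul]

/-! ### The main theorem -/

/-- `ℓ ^ b / (3 · 2¹¹) = ℓ · r` with `r` an `ℓ`-integral number. -/
theorem ht_exists_unit {ℓ : ℕ} (hℓ : ℓ.Prime) (hℓ2 : ℓ ≠ 2) (b : ℕ)
    (hb : b = if ℓ = 3 then 2 else 1) :
    ∃ r ∈ Rl ℓ, (6144 : ℂ)⁻¹ * (ℓ : ℂ) ^ b = (ℓ : ℂ) * r := by
  by_cases h3 : ℓ = 3
  · subst h3
    rw [if_pos rfl] at hb
    subst hb
    refine ⟨((2048 : ℕ) : ℂ)⁻¹, inv_natCast_mem_Rl (by norm_num) (by norm_num), ?_⟩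
    norm_num
  · rw [if_neg h3] at hb
    subst hb
    refine ⟨((6144 : ℕ) : ℂ)⁻¹, inv_natCast_mem_Rl (by norm_num) ?_, ?_⟩
    · have hnd : ¬ ℓ ∣ 6144 := by
        intro hd
        have e : 6144 = 2 ^ 11 * 3 := by norm_num
        rw [e] at hd
        rcases (Nat.Prime.dvd_mul hℓ).mp hd with h | h
        · exact hℓ2 ((Nat.prime_dvd_prime_iff_eq hℓ Nat.prime_two).mp (hℓ.dvd_of_dvd_pow h))
        · exact h3 ((Nat.prime_dvd_prime_iff_eq hℓ Nat.prime_three).mp h)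
      exact Nat.Coprime.symm ((Nat.Prime.coprime_iff_not_dvd hℓ).mpr hnd)
    · push_cast
      ring

section main

variable (p : ℕ) [Fact p.Prime]

/-- **[A3]** no form of weight `2` on `Γ₀(p)` is `≡ 1` modulo `ℓ ^ b` (`ℓ` odd, `ℓ ≠ p`, `p` odd;
`b = 2` for `ℓ = 3`, else `b = 1`). -/
theorem no_one_mod_odd (ℓ : ℕ) (hℓ : ℓ.Prime) (hℓ2 : ℓ ≠ 2) (hℓp : ℓ ≠ p) (hp2 : p ≠ 2)
    (b : ℕ) (hb : b = if ℓ = 3 then 2 else 1) (G : ModularForm (Gamma0 p) 2)
    (h : PowerSeries ℂ) (hh : h ∈ PS (Rl ℓ))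
    (hG : qExpansion 1 G = 1 + C ((ℓ : ℂ) ^ b) * h) : False := by
  have hpp : p.Prime := Fact.out
  have hp0 : p ≠ 0 := hpp.ne_zero
  have hpodd : Odd p := hpp.odd_of_ne_two hp2
  have h2p : ¬ 2 ∣ p := fun hd =>
    hp2 ((Nat.prime_dvd_prime_iff_eq Nat.prime_two hpp).mp hd).symm
  have : Fact (Nat.Prime 2) := ⟨Nat.prime_two⟩
  set R := Rl ℓ with hR
  set M : ℂ := (ℓ : ℂ) ^ b with hM
  obtain ⟨r, hr, hur⟩ := ht_exists_unit hℓ hℓ2 b hb
  -- `c = -1/p`
  have hcop : Nat.Coprime p ℓ := (Nat.coprime_primes hpp hℓ).mpr (Ne.symm hℓp)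
  have hpinv : ((p : ℂ))⁻¹ ∈ R := inv_natCast_mem_Rl hpp.pos hcop
  set c : ℂ := -(p : ℂ)⁻¹ with hc
  have hcR : c ∈ R := R.neg_mem hpinv
  have hc'R : -(p : ℂ) ∈ R := R.neg_mem (natCast_mem R p)
  have hpC : (p : ℂ) ≠ 0 := by exact_mod_cast hp0
  have hcc : c * -(p : ℂ) = 1 := by
    rw [hc]; field_simp
  -- the forms
  set D : ModularForm (Gamma0 p) 12 := fr_ofLevelOne p htDelta with hD
  set GD : ModularForm (Gamma0 p) (2 + 12) := G.mul D with hGD
  set X : ModularForm (Gamma0 p) (2 + 12) :=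
    (6144 : ℂ)⁻¹ • (ModularForm.heckeTLin (2 + 12) Nat.prime_two h2p GD - (htTau2 : ℂ) • GD)
    with hX
  -- `q`-expansions
  have hqG : QPair ⇑G (1 + C M * h) := (qPair_coe p G).congr hG
  have hqD : QPair ⇑D htDc := ht_qPair_delta
  have hqGD : QPair ⇑GD ((1 + C M * h) * htDc) := (hqG.mul hqD).congr_fun rfl
  have hqX : QPair ⇑X ((6144 : ℂ)⁻¹ • htL ((1 + C M * h) * htDc)) :=
    (((ht_qPair_heckeT hqGD (2 + 12)).sub (hqGD.smul _)).smul _).congr_fun rfl
  -- the Fricke side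
  have hsG : QPair (sharp p G) (c • (1 + C M * htU p h)) := by
    rw [sharp_eq_heckeU, ← ht_htU_one_add hp0]
    exact (ht_qPair_heckeU p hqG 2).smul _
  have hsD : QPair (sharp p D) (expandP p htDc) := by
    rw [hD, sharp_levelOne]
    exact QPair.alphaN p ht_qPair_delta
  have hsGD : QPair (sharp p GD) ((c • (1 + C M * htU p h)) * expandP p htDc) := by
    rw [hGD, sharp_mul]
    exact hsG.mul hsD
  have hsX : QPair (sharp p X)
      ((6144 : ℂ)⁻¹ • htL ((c • (1 + C M * htU p h)) * expandP p htDc)) := by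
    rw [hX, sharp_smul, sharp_sub, sharp_smul,
      sharp_heckeTLin p 2 (Ne.symm hp2) Nat.prime_two h2p]
    exact ((ht_qPair_heckeT hsGD (2 + 12)).sub (hsGD.smul _)).smul _
  -- the two congruences
  obtain ⟨K₁, hK₁, e₁⟩ := ht_htL_main R (a := 1) (M := M) R.one_mem hh (ht_htDc_mem_PS R)
  obtain ⟨K₂, hK₂, e₂⟩ := ht_htL_main R (a := c) (M := M) hcR (ht_htU_mem_PS p hh)
    (expandP_mem_PS p (ht_htDc_mem_PS R))
  rw [one_smul, one_smul, ht_htL_delta] at e₁
  rw [ht_htL_expandP hpodd, ht_htL_delta, ht_expandP_smul] at e₂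
  have hδ : (PowerSeries.expand 2 two_ne_zero SMI.deltaZ).map (Int.castRingHom ℂ) =
      expandP 2 htDc := by
    rw [PowerSeries.map_expand, expandP_eq_expand two_ne_zero]
    rfl
  have hmem : ∀ K ∈ PS R, C ((6144 : ℂ)⁻¹ * M) * K ∈ MI R (ℓ : ℂ) := by
    intro K hK
    rw [hur, map_mul, mul_assoc]
    exact C_mul_mem_MI _ ((PS R).mul_mem (C_mem_PS hr) hK)
  have h6144 : (6144 : ℂ) ≠ 0 := by norm_num
  refine sturm_contra p hℓ X (PowerSeries.expand 2 two_ne_zero SMI.deltaZ)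
    (PowerSeries.expand 2 two_ne_zero SMI.deltaU) 2 ?_ ?_ ?_ c (-(p : ℂ)) hcR hc'R hcc ?_ ?_
  · rw [SMI.deltaZ_eq, map_mul, PowerSeries.expand_X]
  · rw [PowerSeries.constantCoeff_expand, ← PowerSeries.coeff_zero_eq_constantCoeff_apply]
    simp [SMI.deltaU, SMI.deltaZ_coeff_one]
  · intro n hn
    have h1 : (n : ℤ) * 12 ≤ 14 * ((p : ℤ) + 1) := by linarith
    have h2 : (n : ℤ) < 2 * ((p : ℤ) + 1) := by
      have : (0 : ℤ) ≤ p := Int.natCast_nonneg p
      nlinarith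
    exact_mod_cast h2
  · rw [hqX.qexp, hδ, e₁, smul_add, smul_smul, inv_mul_cancel₀ h6144, one_smul,
      add_sub_cancel_left, smul_eq_C_mul, ← mul_assoc, ← map_mul]
    exact hmem K₁ hK₁
  · rw [hsX.qexp, hδ, e₂, smul_add, smul_comm c, smul_smul, inv_mul_cancel₀ h6144, one_smul,
      smul_eq_C_mul (a := c), add_sub_cancel_left, smul_eq_C_mul, ← mul_assoc, ← map_mul]
    exact hmem K₂ hK₂

end main

end Fermat.Agent.S16
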