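import Mathlib

/-!
# S16 library, piece [B8]: the weight-8 identity behind the case `ℓ = 2`

Let `g = 1 + 8 h`, `e₄ = 1 + 240 a₃`, `e₆ = 1 - 504 a₅` and `12 a₆ = 5 a₃ + 7 a₅`
(so that `a₆ = ∑ σ₅ ... ` is the integral series with `1728 Δ = e₄³ - e₆²`, `Δ = D`).
Then the weight-8 combination `-g⁴ + 6 g² e₄ - 8 g e₆ + 3 e₄²` is divisible by `256`, and the
quotient `X` is congruent to `D` modulo `2`.
-/

set_option autoImplicit false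

namespace Fermat.Agent.S16

variable {A : Type*} [CommRing A]

/-- The quotient `X = (-g⁴ + 6 g² e₄ - 8 g e₆ + 3 e₄²)/256`, as a polynomial in `h, a₃, a₆`. -/
def b8X (h a3 a6 : A) : A :=
  (1 + 8 * h) * (27 * a6 + 90 * h * a3 - 3 * h ^ 2 - 8 * h ^ 3) + 3 * (h + 4 * h ^ 2 - 15 * a3) ^ 2

/-- The discriminant series `D = a₆ + 100 a₃² + 8000 a₃³ - 147 a₅²`. -/
def b8D (a3 a5 a6 : A) : A :=
  a6 + 100 * a3 ^ 2 + 8000 * a3 ^ 3 - 147 * a5 ^ 2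

/-- The remainder: `X = D + 2 r`. -/
def b8R (h a3 a5 a6 : A) : A :=
  (a3 - a5) * (6 * a6 - 2 * a3 - 3 * a5) +
    (13 * a6 + 74 * a5 ^ 2 + 287 * a3 ^ 2 - 4000 * a3 ^ 3 + 108 * h * a6 + 180 * h ^ 2 * a3
      - 4 * h ^ 3 - 8 * h ^ 4)

theorem b8_X (h a3 a5 a6 : A) (rel : 12 * a6 = 5 * a3 + 7 * a5) :
    256 * b8X h a3 a6 =
      -(1 + 8 * h) ^ 4 + 6 * (1 + 8 * h) ^ 2 * (1 + 240 * a3)
        - 8 * (1 + 8 * h) * (1 - 504 * a5) + 3 * (1 + 240 * a3) ^ 2 := by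
  unfold b8X
  linear_combination (576 * (1 + 8 * h)) * rel

theorem b8_D (a3 a5 a6 : A) (rel : 12 * a6 = 5 * a3 + 7 * a5) :
    1728 * b8D a3 a5 a6 = (1 + 240 * a3) ^ 3 - (1 - 504 * a5) ^ 2 := by
  unfold b8D
  linear_combination 144 * rel

theorem b8_X_eq (h a3 a5 a6 : A) (rel : 12 * a6 = 5 * a3 + 7 * a5) :
    b8X h a3 a6 = b8D a3 a5 a6 + 2 * b8R h a3 a5 a6 := by
  unfold b8X b8D b8R
  linear_combination (-(a3 - a5)) * rel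

end Fermat.Agent.S16
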