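import Mathlib
import Fermat.Agent.S16.SturmContra
import Fermat.Agent.S16.FrickeWt
import Fermat.Agent.S16.B8Identity
import Fermat.Prelude.Thm_UpperHalfPlane_qCoeff_heckeU
import Fermat.Prelude.Thm_ModularForm_isBoundedAtImInfty_heckeU
import Fermat.Prelude.Thm_ModularForm_mdifferentiable_heckeU
import Fermat.Prelude.Thm_ModularForm_periodic_heckeU_comp_ofComplex

/-!
# S16 library, piece [A2]: no weight-2 form on `Γ₀(p)`, `p ≡ 7 mod 8`, is `≡ 1 mod 8`
-/

set_option autoImplicit false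

open UpperHalfPlane hiding I
open Complex Function ModularForm CongruenceSubgroup EisensteinSeries
open scoped Manifold Real MatrixGroups
open Fermat.Agent.S23 Fermat.Agent.S23.QF

noncomputable section

namespace Fermat.Agent.S16

/-! ### Functoriality of the `b8` polynomials -/

section maps

variable {A B F : Type*} [CommRing A] [CommRing B] [FunLike F A B] [RingHomClass F A B] (f : F)

theorem map_b8X (h a3 a6 : A) : f (b8X h a3 a6) = b8X (f h) (f a3) (f a6) := by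
  simp only [b8X, map_add, map_mul, map_sub, map_pow, map_one, map_ofNat]

theorem map_b8D (a3 a5 a6 : A) : f (b8D a3 a5 a6) = b8D (f a3) (f a5) (f a6) := by
  simp only [b8D, map_add, map_mul, map_sub, map_pow, map_ofNat]

theorem map_b8R (h a3 a5 a6 : A) : f (b8R h a3 a5 a6) = b8R (f h) (f a3) (f a5) (f a6) := by
  simp only [b8R, map_add, map_mul, map_sub, map_pow, map_ofNat]

end maps

theorem b8R_mem {R : Subring ℂ} {h a3 a5 a6 : PowerSeries ℂ} (hh : h ∈ PS R) (h3 : a3 ∈ PS R)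
    (h5 : a5 ∈ PS R) (h6 : a6 ∈ PS R) : b8R h a3 a5 a6 ∈ PS R := by
  have := map_b8R (PS R).subtype ⟨h, hh⟩ ⟨a3, h3⟩ ⟨a5, h5⟩ ⟨a6, h6⟩
  simp only [Subring.subtype_apply] at this
  rw [← this]
  exact (b8R (⟨h, hh⟩ : PS R) ⟨a3, h3⟩ ⟨a5, h5⟩ ⟨a6, h6⟩).2

/-! ### The core `q`-expansion computation -/

/-- The weight-8 combination of a weight-2 function `Gf` and `E4f`, `E6f`. -/
def b8Fun (Gf E4f E6f : ℍ → ℂ) : ℍ → ℂ :=
  (1 / 256 : ℂ) • (-((Gf * Gf) * (Gf * Gf)) + (6 : ℂ) • ((Gf * Gf) * E4f) - (8 : ℂ) • (Gf * E6f)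
    + (3 : ℂ) • (E4f * E4f))

theorem b8_core {Gf E4f E6f : ℍ → ℂ} {h a3 a5 a6 : PowerSeries ℂ}
    (hG : QPair Gf (1 + 8 * h)) (hE4 : QPair E4f (1 + 240 * a3)) (hE6 : QPair E6f (1 - 504 * a5))
    (rel : 12 * a6 = 5 * a3 + 7 * a5) :
    QPair (b8Fun Gf E4f E6f) (b8D a3 a5 a6 + 2 * b8R h a3 a5 a6) := by
  have h1 := ((((hG.mul hG).mul (hG.mul hG)).neg.add (((hG.mul hG).mul hE4).smul 6)).sub
    ((hG.mul hE6).smul 8)).add ((hE4.mul hE4).smul 3)
  have h2 := h1.smul (1 / 256 : ℂ)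
  refine h2.congr ?_
  rw [← b8_X_eq h a3 a5 a6 rel]
  have h256 : (256 : PowerSeries ℂ) = PowerSeries.C (256 : ℂ) := (map_ofNat _ 256).symm
  have key := b8_X h a3 a5 a6 rel
  simp only [PowerSeries.smul_eq_C_mul, map_ofNat]
  have e : PowerSeries.C (1 / 256 : ℂ) * (256 : PowerSeries ℂ) = 1 := by
    rw [h256, ← map_mul]
    norm_num
  calc PowerSeries.C (1 / 256 : ℂ) * (-((1 + 8 * h) * (1 + 8 * h) * ((1 + 8 * h) * (1 + 8 * h))) +
          6 * ((1 + 8 * h) * (1 + 8 * h) * (1 + 240 * a3)) - 8 * ((1 + 8 * h) * (1 - 504 * a5)) +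
          3 * ((1 + 240 * a3) * (1 + 240 * a3)))
      = PowerSeries.C (1 / 256 : ℂ) * (256 * b8X h a3 a6) := by rw [key]; ring
    _ = (PowerSeries.C (1 / 256 : ℂ) * 256) * b8X h a3 a6 := by ring
    _ = b8X h a3 a6 := by rw [e, one_mul]

/-! ### The operator `U_p` on power series -/

/-- `U_p` on power series: `∑ aₙ qⁿ ↦ ∑ a_{np} qⁿ`. -/
def upSeries (p : ℕ) (φ : PowerSeries ℂ) : PowerSeries ℂ :=
  PowerSeries.mk fun n => PowerSeries.coeff (n * p) φ

theorem coeff_upSeries (p : ℕ) (φ : PowerSeries ℂ) (n : ℕ) :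
    PowerSeries.coeff n (upSeries p φ) = PowerSeries.coeff (n * p) φ := by
  rw [upSeries, PowerSeries.coeff_mk]

theorem upSeries_mem_PS {R : Subring ℂ} (p : ℕ) {φ : PowerSeries ℂ} (hφ : φ ∈ PS R) :
    upSeries p φ ∈ PS R := by
  intro n
  rw [coeff_upSeries]
  exact hφ _

theorem upSeries_one_add_mul {p : ℕ} (hp : p ≠ 0) (a : ℂ) (φ : PowerSeries ℂ) :
    upSeries p (1 + PowerSeries.C a * φ) = 1 + PowerSeries.C a * upSeries p φ := by
  ext n
  simp only [coeff_upSeries, map_add, PowerSeries.coeff_C_mul, PowerSeries.coeff_one]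
  congr 2
  simp [hp]

/-- `U_p` on `q`-functions. -/
theorem QPair.heckeU {F : ℍ → ℂ} {P : PowerSeries ℂ} (hF : QPair F P) (k : ℤ) {p : ℕ}
    (hp : p ≠ 0) : QPair (ModularForm.heckeU k p F) (upSeries p P) := by
  refine ⟨⟨ModularForm.mdifferentiable_heckeU hF.isQ.mdiff k p,
    ModularForm.periodic_heckeU_comp_ofComplex hF.isQ.periodic k p,
    ModularForm.isBoundedAtImInfty_heckeU hF.isQ.bdd k p⟩, ?_⟩
  ext n
  have := UpperHalfPlane.qCoeff_heckeU hF.isQ.periodic hF.isQ.mdiff hF.isQ.bdd k hp n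
  rw [coeff_upSeries, ← hF.qexp]
  exact this

/-! ### The main theorem -/

section main

variable (p : ℕ) [Fact p.Prime]

local notation "ι" => Int.castRingHom ℂ

theorem b8_E4 : qExpansion 1 E₄ = 1 + 240 * SMI.A3.map ι := by
  rw [← SMI.E4z_map, SMI.E4z]
  simp only [map_add, map_one, map_mul, map_ofNat]

theorem b8_E6 : qExpansion 1 E₆ = 1 - 504 * SMI.A5.map ι := by
  rw [← SMI.E6z_map, SMI.E6z]
  simp only [map_sub, map_one, map_mul, map_ofNat]

theorem b8_rel : 12 * SMI.A6.map ι = 5 * SMI.A3.map ι + 7 * SMI.A5.map ι := by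
  have := congrArg (PowerSeries.map ι) SMI.twelve_A6
  simpa only [map_add, map_mul, PowerSeries.map_C, map_ofNat] using this

theorem b8_delta : SMI.deltaZ.map ι = b8D (SMI.A3.map ι) (SMI.A5.map ι) (SMI.A6.map ι) := by
  rw [← map_b8D (PowerSeries.map ι)]
  congr 1

/-- The weight-8 form attached to a weight-2 form `G` on `Γ₀(p)`. -/
def b8Form (G : ModularForm (Gamma0 p) 2) : ModularForm (Gamma0 p) 8 :=
  (1 / 256 : ℂ) • (-(ModularForm.mcast (by norm_num) ((G.mul G).mul (G.mul G)))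
    + (6 : ℂ) • ModularForm.mcast (by norm_num) ((G.mul G).mul (fr_ofLevelOne p E₄))
    - (8 : ℂ) • ModularForm.mcast (by norm_num) (G.mul (fr_ofLevelOne p E₆))
    + (3 : ℂ) • ModularForm.mcast (by norm_num) ((fr_ofLevelOne p E₄).mul (fr_ofLevelOne p E₄)))

theorem coe_b8Form (G : ModularForm (Gamma0 p) 2) : ⇑(b8Form p G) = b8Fun ⇑G ⇑E₄ ⇑E₆ := rfl

theorem sharp_b8Form (G : ModularForm (Gamma0 p) 2) :
    sharp p (b8Form p G) =
      b8Fun (sharp p G) (fun z => E₄ (alphaN p • z)) (fun z => E₆ (alphaN p • z)) := by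
  simp only [b8Form, sharp_smul, sharp_add, sharp_sub, sharp_neg, sharp_mcast, sharp_mul,
    sharp_levelOne]
  rfl

/-- **[A2]** for `p ≡ 7 mod 8` there is no form of weight `2` on `Γ₀(p)` whose `q`-expansion is
`≡ 1 mod 8` (coefficients in the `2`-integral algebraic numbers). -/
theorem no_one_mod_eight (hp : p % 8 = 7) (G : ModularForm (Gamma0 p) 2) (h : PowerSeries ℂ)
    (hh : h ∈ PS (Rl 2)) (hG : qExpansion 1 G = 1 + PowerSeries.C 8 * h) : False := by
  have hp0 : p ≠ 0 := (Fact.out : p.Prime).ne_zero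
  have hpC : (p : ℂ) ≠ 0 := Nat.cast_ne_zero.mpr hp0
  set R := Rl 2 with hR
  have h8 : (PowerSeries.C (8 : ℂ) : PowerSeries ℂ) = 8 := map_ofNat _ 8
  rw [h8] at hG
  set a3 := SMI.A3.map ι with ha3
  set a5 := SMI.A5.map ι with ha5
  set a6 := SMI.A6.map ι with ha6
  have m3 : a3 ∈ PS R := map_intCast_mem_PS R _
  have m5 : a5 ∈ PS R := map_intCast_mem_PS R _
  have m6 : a6 ∈ PS R := map_intCast_mem_PS R _
  -- the form `X` and its `q`-expansion
  have hGq : QPair ⇑G (1 + 8 * h) := (qPair_coe p G).congr hG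
  have hE4q : QPair ⇑E₄ (1 + 240 * a3) := (qPair_levelOne E₄).congr b8_E4
  have hE6q : QPair ⇑E₆ (1 - 504 * a5) := (qPair_levelOne E₆).congr b8_E6
  have hX := b8_core hGq hE4q hE6q b8_rel
  rw [← coe_b8Form] at hX
  have hM2 : ((2 : ℕ) : ℂ) = 2 := by norm_num
  have h1 : qExpansion 1 (b8Form p G) - SMI.deltaZ.map ι ∈ MI R ((2 : ℕ) : ℂ) := by
    rw [hX.qexp, b8_delta, add_sub_cancel_left, hM2]
    have : (2 : PowerSeries ℂ) = PowerSeries.C (2 : ℂ) := (map_ofNat _ 2).symm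
    rw [this]
    exact C_mul_mem_MI _ (b8R_mem hh m3 m5 m6)
  -- the Fricke transform of `X`
  have hcop : Nat.Coprime p 2 :=
    (Nat.coprime_primes (Fact.out : p.Prime) Nat.prime_two).mpr (by omega)
  have hpinv : (-(p : ℂ)⁻¹) ∈ R := R.neg_mem (inv_natCast_mem_Rl (Nat.pos_of_ne_zero hp0) hcop)
  set h' : PowerSeries ℂ :=
    PowerSeries.C ((-(p : ℂ)⁻¹ - 1) / 8) + PowerSeries.C (-(p : ℂ)⁻¹) * upSeries p h with hh'
  have hconst : ((-(p : ℂ)⁻¹ - 1) / 8) ∈ R := by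
    obtain ⟨t, ht⟩ : ∃ t : ℕ, p + 1 = 8 * t := ⟨(p + 1) / 8, by omega⟩
    have : ((-(p : ℂ)⁻¹ - 1) / 8) = ((-(t : ℤ) : ℤ) : ℂ) / ((p : ℕ) : ℂ) := by
      have ht' : (p : ℂ) + 1 = 8 * t := by exact_mod_cast ht
      push_cast
      field_simp
      linear_combination (-1) * ht'
    rw [this]
    exact intCast_div_natCast_mem_Rl _ (Nat.pos_of_ne_zero hp0) hcop
  have mh' : h' ∈ PS R :=
    (PS R).add_mem (C_mem_PS hconst) ((PS R).mul_mem (C_mem_PS hpinv) (upSeries_mem_PS p hh))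
  have hGs : QPair (sharp p G) (1 + 8 * h') := by
    have h2 := (hGq.heckeU 2 hp0).smul (-(p : ℂ)⁻¹)
    rw [← sharp_eq_heckeU] at h2
    refine h2.congr ?_
    rw [← h8, upSeries_one_add_mul hp0, PowerSeries.smul_eq_C_mul, hh', h8]
    have e1 : (8 : PowerSeries ℂ) * PowerSeries.C ((-(p : ℂ)⁻¹ - 1) / 8) =
        PowerSeries.C (-(p : ℂ)⁻¹) - 1 := by
      rw [← h8, ← map_mul, ← map_one (PowerSeries.C (R := ℂ)), ← map_sub]
      congr 1
      field_simp
    linear_combination (-1 : PowerSeries ℂ) * e1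
  set E := PowerSeries.expand (R := ℂ) p hp0 with hE
  have hE4s : QPair (fun z => E₄ (alphaN p • z)) (1 + 240 * E a3) := by
    refine (hE4q.alphaN p).congr ?_
    rw [expandP_eq_expand hp0]
    simp only [map_add, map_one, map_mul, map_ofNat, hE]
  have hE6s : QPair (fun z => E₆ (alphaN p • z)) (1 - 504 * E a5) := by
    refine (hE6q.alphaN p).congr ?_
    rw [expandP_eq_expand hp0]
    simp only [map_sub, map_one, map_mul, map_ofNat, hE]
  have rel' : 12 * E a6 = 5 * E a3 + 7 * E a5 := by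
    have := congrArg E b8_rel
    simpa only [map_add, map_mul, map_ofNat] using this
  have hXs := b8_core hGs hE4s hE6s rel'
  rw [← sharp_b8Form] at hXs
  have mE : ∀ {φ : PowerSeries ℂ}, φ ∈ PS R → E φ ∈ PS R := by
    intro φ hφ
    rw [hE, ← expandP_eq_expand hp0]
    exact expandP_mem_PS p hφ
  have h2 : qExpansion 1 (sharp p (b8Form p G)) -
      PowerSeries.C 1 * expandP p (SMI.deltaZ.map ι) ∈ MI R ((2 : ℕ) : ℂ) := by
    rw [hXs.qexp, map_one, one_mul, b8_delta, expandP_eq_expand hp0, ← hE,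
      map_b8D E, add_sub_cancel_left, hM2]
    have : (2 : PowerSeries ℂ) = PowerSeries.C (2 : ℂ) := (map_ofNat _ 2).symm
    rw [this]
    exact C_mul_mem_MI _ (b8R_mem mh' (mE m3) (mE m5) (mE m6))
  -- conclusion
  refine sturm_contra p Nat.prime_two (b8Form p G) SMI.deltaZ SMI.deltaU 1
    (by rw [pow_one]; exact SMI.deltaZ_eq) ?_ ?_ 1 1 R.one_mem R.one_mem (one_mul 1) h1 h2
  · have := SMI.deltaZ_coeff_one
    rw [← PowerSeries.coeff_zero_eq_constantCoeff_apply, SMI.deltaU, PowerSeries.coeff_mk]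
    exact this
  · intro n hn
    have : (n : ℤ) < 1 * ((p : ℤ) + 1) := by linarith
    exact_mod_cast this

end main

end Fermat.Agent.S16
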