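import Fermat.Agent.S16.DualityFinal
import Fermat.Prelude.Thm_ModularForm_sturm_bound_Gamma0
import Fermat.Prelude.Thm_CongruenceSubgroup_one_mem_strictPeriods_Gamma0
import Fermat.Prelude.Def_ModularCurve_ModularUnit

/-!
# S16 library, piece [P23]: the levels `p = 2, 3`

`S₂(Γ₀(p)) = 0` for `p = 2, 3` (Sturm bound: the index of `Γ₀(p)` is at most `p + 1 ≤ 4`, so a
weight-2 form is determined by its constant coefficient), and the frozen statement S16 for these
two primes.
-/

set_option autoImplicit false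

open CuspForm CongruenceSubgroup ModularFormClass UpperHalfPlane ModularForm

open scoped MatrixGroups

namespace Fermat.Agent.S16

section index

variable (p : ℕ) [Fact p.Prime]

/-- The point of `P¹(𝔽_p)` attached to the first column `(a : c)`. -/
def sl_proj (a c : ZMod p) : Option (ZMod p) := if c = 0 then none else some (a * c⁻¹)

theorem sl_proj_eq_iff {a c a' c' : ZMod p} (h : a ≠ 0 ∨ c ≠ 0) (h' : a' ≠ 0 ∨ c' ≠ 0) :
    a * c' - c * a' = 0 ↔ sl_proj p a c = sl_proj p a' c' := by
  unfold sl_proj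
  by_cases hc : c = 0
  · have ha : a ≠ 0 := h.resolve_right (not_not.mpr hc)
    by_cases hc' : c' = 0
    · simp [hc, hc']
    · simp [hc, hc', ha]
  · by_cases hc' : c' = 0
    · have ha' : a' ≠ 0 := h'.resolve_right (not_not.mpr hc')
      simp [hc, hc', ha']
    · simp only [hc, hc', if_false, Option.some.injEq]
      constructor
      · intro h1
        field_simp
        linear_combination h1
      · intro h1
        field_simp at h1
        linear_combination h1

theorem sl_entry_inv_mul (g h : SL(2, ℤ)) :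
    ((g⁻¹ * h) 1 0 : ℤ) = g 0 0 * h 1 0 - g 1 0 * h 0 0 := by
  rw [Matrix.SpecialLinearGroup.coe_mul, Matrix.SpecialLinearGroup.coe_inv,
    Matrix.adjugate_fin_two, Matrix.mul_apply, Fin.sum_univ_two]
  simp
  ring

theorem sl_det_eq_one (g : SL(2, ℤ)) : (g 0 0 : ℤ) * g 1 1 - g 0 1 * g 1 0 = 1 := by
  have := g.det_coe
  rw [Matrix.det_fin_two] at this
  exact this

theorem sl_col_ne_zero (g : SL(2, ℤ)) :
    ((g 0 0 : ℤ) : ZMod p) ≠ 0 ∨ ((g 1 0 : ℤ) : ZMod p) ≠ 0 := by
  by_contra hcon
  push Not at hcon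
  have hg := congrArg (Int.cast : ℤ → ZMod p) (sl_det_eq_one g)
  push_cast at hg
  rw [hcon.1, hcon.2] at hg
  simp at hg

theorem sl_mem_iff (g h : SL(2, ℤ)) :
    g⁻¹ * h ∈ CongruenceSubgroup.Gamma0 p ↔
      sl_proj p ((g 0 0 : ℤ) : ZMod p) ((g 1 0 : ℤ) : ZMod p)
        = sl_proj p ((h 0 0 : ℤ) : ZMod p) ((h 1 0 : ℤ) : ZMod p) := by
  rw [CongruenceSubgroup.Gamma0_mem, sl_entry_inv_mul,
    ← sl_proj_eq_iff p (sl_col_ne_zero p g) (sl_col_ne_zero p h)]
  push_cast
  constructor <;> intro h1 <;> linear_combination h1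

/-- The index of `Γ₀(p)` in `SL(2, ℤ)` is at most `p + 1`. -/
theorem sl_index_gamma0_le : (CongruenceSubgroup.Gamma0 p).index ≤ p + 1 := by
  classical
  let φ : SL(2, ℤ) ⧸ (CongruenceSubgroup.Gamma0 p) → Option (ZMod p) :=
    Quotient.lift (fun g : SL(2, ℤ) =>
      sl_proj p ((g 0 0 : ℤ) : ZMod p) ((g 1 0 : ℤ) : ZMod p)) (by
      intro g h hgh
      have := QuotientGroup.leftRel_apply.mp hgh
      rwa [sl_mem_iff] at this)
  have hinj : Function.Injective φ := by
    intro x y
    induction x using Quotient.inductionOn with | _ g => ?_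
    induction y using Quotient.inductionOn with | _ h => ?_
    intro hxy
    apply Quotient.sound
    apply QuotientGroup.leftRel_apply.mpr
    rw [sl_mem_iff]
    exact hxy
  calc (CongruenceSubgroup.Gamma0 p).index
      = Nat.card (SL(2, ℤ) ⧸ (CongruenceSubgroup.Gamma0 p)) := rfl
    _ ≤ Nat.card (Option (ZMod p)) := Nat.card_le_card_of_injective φ hinj
    _ = p + 1 := by
        rw [Nat.card_eq_fintype_card, Fintype.card_option, ZMod.card]

end index

/-- `S₂(Γ₀(p)) = 0` for `p = 2, 3`. -/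
theorem sl_cuspForm_eq_zero (p : ℕ) [Fact p.Prime] (hp : p = 2 ∨ p = 3)
    (f : CuspForm (CongruenceSubgroup.Gamma0 p) 2) : f = 0 := by
  have hp0 : NeZero p := ⟨(Fact.out : p.Prime).ne_zero⟩
  have hF : ModularFormClass.modularForm f = 0 := by
    apply ModularForm.sturm_bound_Gamma0 p (ModularFormClass.modularForm f)
    intro n hn
    have hidx := sl_index_gamma0_le p
    have hn0 : n = 0 := by
      have h1 : ((2 : ℤ) * ((CongruenceSubgroup.Gamma0 p).index : ℤ)).toNat ≤ 8 := by
        rcases hp with rfl | rfl <;> omega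
      have h2 : ((2 : ℤ) * ((CongruenceSubgroup.Gamma0 p).index : ℤ)).toNat / 12 = 0 := by
        omega
      omega
    subst hn0
    exact CuspFormClass.qExpansion_coeff_zero f one_pos
      (CongruenceSubgroup.one_mem_strictPeriods_Gamma0 p)
  ext z
  exact DFunLike.congr_fun hF z

theorem sl_cuspForm_two_eq_zero (f : CuspForm (CongruenceSubgroup.Gamma0 2) 2) : f = 0 :=
  haveI : Fact (Nat.Prime 2) := ⟨Nat.prime_two⟩
  sl_cuspForm_eq_zero 2 (Or.inl rfl) f

theorem sl_cuspForm_three_eq_zero (f : CuspForm (CongruenceSubgroup.Gamma0 3) 2) : f = 0 :=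
  haveI : Fact (Nat.Prime 3) := ⟨Nat.prime_three⟩
  sl_cuspForm_eq_zero 3 (Or.inr rfl) f

/-- The frozen statement S16 for the primes `p = 2, 3`. -/
theorem sl_card_quotient (p : ℕ) [Fact p.Prime] (hp : p = 2 ∨ p = 3) :
    Nat.card (↥(heckeLatticeAlgebra p ∅) ⧸
        Ideal.map ((latticeRestrictHom p ∅).toRingHom.comp (heckeEvalForms p 2))
          (ModularCurve.eisensteinIdeal p)) = ModularCurve.eisensteinNumerator p := by
  have hnum : ModularCurve.eisensteinNumerator p = 1 := by
    rcases hp with rfl | rfl <;> decide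
  rw [hnum]
  refine du_card_eq p 1 le_rfl ⟨0, 0, fun k => ?_, fun k _ => ?_⟩ ?_
  · simp [ModularFormClass.qCoeff, qExpansion_zero]
  · simp
  · intro ℓ a hℓ ha g m hm hc
    have hg : g = 0 := sl_cuspForm_eq_zero p hp g
    have hm1 : m 1 = 0 := by
      have h1 := hm 1
      rw [hg] at h1
      have h0 : ModularFormClass.qCoeff (⇑(0 : CuspForm (Gamma0 p) 2)) 1 = 0 := by
        simp [ModularFormClass.qCoeff, qExpansion_zero]
      rw [h0] at h1
      exact_mod_cast h1.symm
    have h1 := hc 1 le_rfl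
    rw [hm1, sigmaP_one p (Fact.out : p.Prime).one_lt] at h1
    have h2 : ((ℓ ^ a : ℕ) : ℤ) ∣ 1 := by
      push_cast
      simpa using h1
    exact_mod_cast h2

end Fermat.Agent.S16
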