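import Fermat.Agent.S49.Basic
import Fermat.Prelude.Def_CuspForm_HeckeLocal
import Fermat.Prelude.Def_CuspForm_HeckeEvalForms

/-!
# S16 library, piece [D]: duality between the Hecke algebra and the lattice of integral forms

`L = intLattice p 2`, `T = heckeLatticeAlgebra p ∅ ⊆ End_ℤ L`,
`φ = latticeRestrictHom ∘ heckeEvalForms : HeckeAlg →+* T` (surjective).

* `du_cz n : L →ₗ[ℤ] ℤ` : the `n`-th `q`-coefficient.
* (D0) for every `k ≥ 1` there is `P_k : HeckeAlg` with `a₁(φ(P_k) g) = a_k(g)` for all `g ∈ L`.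
* (D1) a form `f ∈ L` with `a_n(f) ≡ s n (mod M)` for all `n ≥ 1` gives a ring hom
  `ψ : T →+* ZMod M` with `ψ ∘ φ = χ mod M`.
* (D2) conversely such a `ψ` gives a form.

Here `s : ℕ → ℤ` is any sequence satisfying the Hecke recursions of the Eisenstein series
(`du_IsEisSeq`), and `χ = aeval (eisensteinSystem p)`.
-/

set_option autoImplicit false
set_option linter.unusedSectionVars false

open CuspForm CongruenceSubgroup ModularFormClass

namespace Fermat.Agent.S16

noncomputable section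

open Fermat.Agent.S49 (qc_add qc_zero qc_smul qc_coeff_zero qc_ext qc_heckeT qc_heckeU
  mem_intLattice_iff')

variable (p : ℕ) [Fact p.Prime]

/-- The integral Hecke algebra acting on the lattice of integral forms. -/
abbrev du_T : Type := ↥(heckeLatticeAlgebra p ∅)

/-- The evaluation map `HeckeAlg →+* T` of the frozen statement. -/
def du_phi : ModularCurve.HeckeAlg →+* du_T p :=
  (latticeRestrictHom p ∅).toRingHom.comp (heckeEvalForms p 2)

/-- The Eisenstein character `HeckeAlg → ℤ`. -/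
def du_chi : ModularCurve.HeckeAlg →ₐ[ℤ] ℤ :=
  MvPolynomial.aeval (R := ℤ) (ModularCurve.eisensteinSystem p)

theorem du_phi_apply_coe (P : ModularCurve.HeckeAlg) (g : ↥(intLattice p 2)) :
    (((du_phi p P).1 g : ↥(intLattice p 2)) : CuspForm (Gamma0 p) 2) =
      ((heckeEvalForms p 2 P).1 : Module.End ℂ (CuspForm (Gamma0 p) 2))
        (g : CuspForm (Gamma0 p) 2) :=
  rfl

/-! ### The coefficient functionals -/

/-- The `n`-th `q`-coefficient of an integral form, as an integer. -/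
def du_czFun (n : ℕ) (g : ↥(intLattice p 2)) : ℤ :=
  Classical.choose ((mem_intLattice_iff' (g : CuspForm (Gamma0 p) 2)).mp g.2 n)

theorem du_czFun_spec (n : ℕ) (g : ↥(intLattice p 2)) :
    qCoeff ⇑(g : CuspForm (Gamma0 p) 2) n = (du_czFun p n g : ℂ) :=
  Classical.choose_spec ((mem_intLattice_iff' (g : CuspForm (Gamma0 p) 2)).mp g.2 n)

theorem du_czFun_eq_of (n : ℕ) (g : ↥(intLattice p 2)) {m : ℤ}
    (h : qCoeff ⇑(g : CuspForm (Gamma0 p) 2) n = (m : ℂ)) : du_czFun p n g = m := by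
  have := du_czFun_spec p n g
  rw [h] at this
  exact_mod_cast this.symm

/-- The `n`-th `q`-coefficient as a `ℤ`-linear functional on the lattice. -/
def du_cz (n : ℕ) : ↥(intLattice p 2) →ₗ[ℤ] ℤ where
  toFun := du_czFun p n
  map_add' f g := by
    apply du_czFun_eq_of
    rw [Submodule.coe_add, qc_add, du_czFun_spec, du_czFun_spec]
    push_cast
    rfl
  map_smul' c g := by
    apply du_czFun_eq_of
    rw [Submodule.coe_smul, ← Int.cast_smul_eq_zsmul ℂ, qc_smul, du_czFun_spec]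
    simp

theorem du_cz_spec (n : ℕ) (g : ↥(intLattice p 2)) :
    qCoeff ⇑(g : CuspForm (Gamma0 p) 2) n = (du_cz p n g : ℂ) :=
  du_czFun_spec p n g

theorem du_cz_eq_of (n : ℕ) (g : ↥(intLattice p 2)) {m : ℤ}
    (h : qCoeff ⇑(g : CuspForm (Gamma0 p) 2) n = (m : ℂ)) : du_cz p n g = m :=
  du_czFun_eq_of p n g h

theorem du_cz_zero (g : ↥(intLattice p 2)) : du_cz p 0 g = 0 :=
  du_cz_eq_of p 0 g (by rw [qc_coeff_zero]; simp)

/-- An integral form is determined by its coefficients. -/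
theorem du_ext {f g : ↥(intLattice p 2)} (h : ∀ n, 1 ≤ n → du_cz p n f = du_cz p n g) :
    f = g := by
  apply Subtype.ext
  apply qc_ext
  intro n
  rcases Nat.eq_zero_or_pos n with rfl | hn
  · rw [qc_coeff_zero, qc_coeff_zero]
  · rw [du_cz_spec, du_cz_spec, h n hn]

/-- The lattice of integral forms is saturated. -/
theorem du_saturated (g : ↥(intLattice p 2)) (D : ℤ) (hD : D ≠ 0)
    (h : ∀ n, 1 ≤ n → D ∣ du_cz p n g) : ∃ g' : ↥(intLattice p 2), g = D • g' := by
  have hDC : (D : ℂ) ≠ 0 := by exact_mod_cast hD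
  have hmem : ((D : ℂ)⁻¹ • (g : CuspForm (Gamma0 p) 2)) ∈ intLattice p 2 := by
    rw [mem_intLattice_iff']
    intro n
    rcases Nat.eq_zero_or_pos n with rfl | hn
    · exact ⟨0, by rw [qc_coeff_zero]; simp⟩
    · obtain ⟨k, hk⟩ := h n hn
      refine ⟨k, ?_⟩
      rw [qc_smul, du_cz_spec, hk]
      push_cast
      field_simp
  refine ⟨⟨_, hmem⟩, Subtype.ext ?_⟩
  rw [Submodule.coe_smul, ← Int.cast_smul_eq_zsmul ℂ, smul_smul, mul_inv_cancel₀ hDC, one_smul]

/-! ### Action of the generators on coefficients -/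

theorem du_prime_dvd_iff {r : ℕ} (hr : r.Prime) : r ∣ p ↔ r = p :=
  (Nat.prime_dvd_prime_iff_eq hr Fact.out)

/-- `T_r` (for a prime `r ≠ p`) on coefficients. -/
theorem du_cz_gen_of_ne (r : Nat.Primes) (hr : (r : ℕ) ≠ p) (n : ℕ) (g : ↥(intLattice p 2)) :
    du_cz p n ((du_phi p (MvPolynomial.X r)).1 g) =
      du_cz p (n * r) g + if (r : ℕ) ∣ n then (r : ℤ) * du_cz p (n / r) g else 0 := by
  have hnd : ¬ (r : ℕ) ∣ p := fun h => hr ((du_prime_dvd_iff p r.2).mp h)
  apply du_cz_eq_of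
  rw [du_phi_apply_coe]
  have : heckeEvalForms p 2 (MvPolynomial.X r) = heckeAlgebra.T r.2 hnd (Set.notMem_empty _) :=
    heckeEvalForms_heckeGen_of_not_dvd hnd
  rw [this, heckeAlgebra.coe_T, qc_heckeT, du_cz_spec]
  split_ifs with hdvd
  · rw [du_cz_spec]; push_cast; rfl
  · push_cast; rfl

/-- `U_p` on coefficients. -/
theorem du_cz_gen_self (r : Nat.Primes) (hr : (r : ℕ) = p) (n : ℕ) (g : ↥(intLattice p 2)) :
    du_cz p n ((du_phi p (MvPolynomial.X r)).1 g) = du_cz p (n * p) g := by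
  have hd : (r : ℕ) ∣ p := hr ▸ dvd_rfl
  apply du_cz_eq_of
  rw [du_phi_apply_coe]
  have : heckeEvalForms p 2 (MvPolynomial.X r) = heckeAlgebra.U r.2 hd (Set.notMem_empty _) :=
    heckeEvalForms_heckeGen_of_dvd hd
  rw [this, heckeAlgebra.coe_U, qc_heckeU r.2 hd, du_cz_spec, hr]

theorem du_chi_X_of_ne (r : Nat.Primes) (hr : (r : ℕ) ≠ p) :
    du_chi p (MvPolynomial.X r) = 1 + (r : ℕ) := by
  have hnd : ¬ (r : ℕ) ∣ p := fun h => hr ((du_prime_dvd_iff p r.2).mp h)
  rw [du_chi, MvPolynomial.aeval_X, ModularCurve.eisensteinSystem_of_not_dvd hnd]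

theorem du_chi_X_self (r : Nat.Primes) (hr : (r : ℕ) = p) :
    du_chi p (MvPolynomial.X r) = 1 := by
  have hd : (r : ℕ) ∣ p := hr ▸ dvd_rfl
  rw [du_chi, MvPolynomial.aeval_X, ModularCurve.eisensteinSystem_of_dvd hd]

theorem du_phi_mul_apply (P Q : ModularCurve.HeckeAlg) (g : ↥(intLattice p 2)) :
    (du_phi p (P * Q)).1 g = (du_phi p P).1 ((du_phi p Q).1 g) := by
  rw [map_mul]; rfl

/-! ### Eisenstein-type sequences -/

/-- The Hecke recursions satisfied by the coefficients `σ'(n)` of the Eisenstein series of level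
`p`. -/
structure du_IsEisSeq (s : ℕ → ℤ) : Prop where
  one : s 1 = 1
  hecke : ∀ r : ℕ, r.Prime → r ≠ p → ∀ n : ℕ, 1 ≤ n →
    s (n * r) + (if r ∣ n then (r : ℤ) * s (n / r) else 0) = (1 + (r : ℤ)) * s n
  atp : ∀ n : ℕ, 1 ≤ n → s (n * p) = s n

/-- **(D0)** For every `k ≥ 1` there is a Hecke polynomial `P_k` with `a₁(P_k g) = a_k(g)` and
`χ(P_k) = s k`. -/
theorem du_exists_heckePoly {s : ℕ → ℤ} (hs : du_IsEisSeq p s) (k : ℕ) (hk : 1 ≤ k) :
    ∃ P : ModularCurve.HeckeAlg,
      (∀ g : ↥(intLattice p 2), du_cz p 1 ((du_phi p P).1 g) = du_cz p k g) ∧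
        du_chi p P = s k := by
  induction k using Nat.strong_induction_on with
  | _ k ih =>
    rcases Nat.lt_or_ge k 2 with hk2 | hk2
    · have hk1 : k = 1 := by omega
      subst hk1
      refine ⟨1, fun g => ?_, ?_⟩
      · rw [map_one]; rfl
      · rw [map_one, hs.one]
    -- `k = m * r` with `r` the least prime factor
    have hk1 : k ≠ 1 := by omega
    set r := k.minFac with hr
    have hrp : r.Prime := Nat.minFac_prime hk1
    obtain ⟨m, hm⟩ : ∃ m, k = m * r := ⟨k / r, (Nat.div_mul_cancel (Nat.minFac_dvd k)).symm⟩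
    have hmpos : 1 ≤ m := by
      rcases Nat.eq_zero_or_pos m with rfl | h
      · omega
      · exact h
    have hmlt : m < k := by
      rw [hm]; exact lt_mul_of_one_lt_right hmpos hrp.one_lt
    obtain ⟨Pm, hPm, hχm⟩ := ih m hmlt hmpos
    let rr : Nat.Primes := ⟨r, hrp⟩
    by_cases hrpp : r = p
    · -- `U_p`
      refine ⟨Pm * MvPolynomial.X rr, fun g => ?_, ?_⟩
      · rw [du_phi_mul_apply, hPm, du_cz_gen_self p rr hrpp, hm, hrpp]
      · rw [map_mul, hχm, du_chi_X_self p rr hrpp, mul_one, hm, hrpp, hs.atp m hmpos]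
    · by_cases hdvd : r ∣ m
      · -- `T_r` with `r ∣ m`
        have hm'pos : 1 ≤ m / r := Nat.div_pos (Nat.le_of_dvd hmpos hdvd) hrp.pos
        have hm'lt : m / r < k := lt_of_le_of_lt (Nat.div_le_self m r) hmlt
        obtain ⟨Pm', hPm', hχm'⟩ := ih (m / r) hm'lt hm'pos
        refine ⟨Pm * MvPolynomial.X rr - MvPolynomial.C (r : ℤ) * Pm', fun g => ?_, ?_⟩
        · have h1 := du_cz_gen_of_ne p rr hrpp m g
          rw [if_pos hdvd] at h1
          have h2' : du_phi p (Pm * MvPolynomial.X rr - MvPolynomial.C (r : ℤ) * Pm') =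
              du_phi p Pm * du_phi p (MvPolynomial.X rr) - (r : ℤ) • du_phi p Pm' := by
            rw [map_sub, map_mul, MvPolynomial.C_mul', map_zsmul]
          have h2 : (du_phi p (Pm * MvPolynomial.X rr - MvPolynomial.C (r : ℤ) * Pm')).1 g =
              (du_phi p Pm).1 ((du_phi p (MvPolynomial.X rr)).1 g) -
                (r : ℤ) • (du_phi p Pm').1 g := by
            rw [h2']; rfl
          rw [h2, map_sub, map_smul, hPm, hPm', h1, hm]
          simp only [smul_eq_mul]
          ring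
        · have h3 := hs.hecke r hrp hrpp m hmpos
          rw [if_pos hdvd] at h3
          rw [map_sub, map_mul, map_mul, hχm, hχm', du_chi_X_of_ne p rr hrpp, hm]
          have hC : du_chi p (MvPolynomial.C (r : ℤ)) = (r : ℤ) := by
            rw [du_chi, MvPolynomial.aeval_C]; rfl
          rw [hC]
          show s m * (1 + ((r : ℕ) : ℤ)) - (r : ℤ) * s (m / r) = s (m * r)
          linear_combination -h3
      · -- `T_r` with `r ∤ m`
        refine ⟨Pm * MvPolynomial.X rr, fun g => ?_, ?_⟩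
        · have h1 := du_cz_gen_of_ne p rr hrpp m g
          rw [if_neg hdvd, add_zero] at h1
          rw [du_phi_mul_apply, hPm, h1, hm]
        · have h3 := hs.hecke r hrp hrpp m hmpos
          rw [if_neg hdvd, add_zero] at h3
          rw [map_mul, hχm, du_chi_X_of_ne p rr hrpp, hm, h3]
          show s m * (1 + ((r : ℕ) : ℤ)) = (1 + (r : ℤ)) * s m
          ring

/-! ### Surjectivity of `φ` -/

theorem du_heckeEvalForms_surjective (N : ℕ) [NeZero N] (k : ℤ) :
    Function.Surjective (heckeEvalForms N k) := by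
  have hrange : (MvPolynomial.aeval (R := ℤ) (heckeFormsGen N k)).range = ⊤ := by
    rw [← Algebra.adjoin_range_eq_range_aeval, eq_top_iff]
    have h' : (⊤ : Subalgebra ℤ ↥(heckeAlgebra N k ∅)) =
        Algebra.adjoin ℤ (((↑) : ↥(heckeAlgebra N k ∅) →
          Module.End ℂ (CuspForm (Gamma0 N) k)) ⁻¹' heckeGenerators N k ∅) :=
      (Algebra.adjoin_adjoin_coe_preimage (R := ℤ) (s := heckeGenerators N k ∅)).symm
    rw [h']
    apply Algebra.adjoin_mono
    rintro x (⟨ℓ, hℓ, hℓN, -, hx⟩ | ⟨q, hqN, hq, -, hx⟩)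
    · refine ⟨⟨ℓ, hℓ⟩, Subtype.ext ?_⟩
      rw [heckeFormsGen_of_not_dvd (N := N) (k := k) (ℓ := ⟨ℓ, hℓ⟩) hℓN, heckeAlgebra.coe_T]
      exact hx.symm
    · refine ⟨⟨q, hq⟩, Subtype.ext ?_⟩
      rw [heckeFormsGen_of_dvd (N := N) (k := k) (q := ⟨q, hq⟩) hqN, heckeAlgebra.coe_U]
      exact hx.symm
  intro t
  have ht : t ∈ (MvPolynomial.aeval (R := ℤ) (heckeFormsGen N k)).range := by
    rw [hrange]; exact Algebra.mem_top
  obtain ⟨P, hP⟩ := ht
  exact ⟨P, hP⟩

theorem du_phi_surjective : Function.Surjective (du_phi p) := by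
  intro t
  obtain ⟨u, rfl⟩ := latticeRestrictHom_surjective p ∅ t
  obtain ⟨P, rfl⟩ := du_heckeEvalForms_surjective p 2 u
  exact ⟨P, rfl⟩

/-! ### (D1): a congruence between a form and the Eisenstein sequence gives a character -/

/-- Saturation, allowing `D = 0`. -/
theorem du_saturated' (g : ↥(intLattice p 2)) (D : ℤ)
    (h : ∀ n, 1 ≤ n → D ∣ du_cz p n g) : ∃ g' : ↥(intLattice p 2), g = D • g' := by
  rcases eq_or_ne D 0 with rfl | hD
  · refine ⟨0, ?_⟩
    rw [smul_zero]
    apply du_ext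
    intro n hn
    rw [map_zero]
    exact zero_dvd_iff.mp (h n hn)
  · exact du_saturated p g D hD h

/-- `f` is an eigenvector modulo `M` of every generator. -/
theorem du_gen_eigen {s : ℕ → ℤ} (hs : du_IsEisSeq p s) (M : ℤ) (f : ↥(intLattice p 2))
    (hf : ∀ n, 1 ≤ n → M ∣ du_cz p n f - s n) (r : Nat.Primes) :
    ∃ h : ↥(intLattice p 2),
      (du_phi p (MvPolynomial.X r)).1 f = du_chi p (MvPolynomial.X r) • f + M • h := by
  have key : ∀ n, 1 ≤ n → M ∣ du_cz p n ((du_phi p (MvPolynomial.X r)).1 f -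
      du_chi p (MvPolynomial.X r) • f) := by
    intro n hn
    rw [map_sub, map_smul, smul_eq_mul]
    by_cases hr : (r : ℕ) = p
    · rw [du_cz_gen_self p r hr, du_chi_X_self p r hr, one_mul]
      have h1 := hf (n * p) (Nat.mul_pos hn (Fact.out : p.Prime).pos)
      have h2 := hf n hn
      have h3 := hs.atp n hn
      have : du_cz p (n * p) f - du_cz p n f =
          (du_cz p (n * p) f - s (n * p)) - (du_cz p n f - s n) := by rw [h3]; ring
      rw [this]
      exact dvd_sub h1 h2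
    · rw [du_cz_gen_of_ne p r hr, du_chi_X_of_ne p r hr]
      have h1 := hf (n * r) (Nat.mul_pos hn r.2.pos)
      have h2 := hf n hn
      have h3 := hs.hecke r r.2 hr n hn
      by_cases hdvd : (r : ℕ) ∣ n
      · rw [if_pos hdvd] at h3 ⊢
        have h4 := hf (n / r) (Nat.div_pos (Nat.le_of_dvd hn hdvd) r.2.pos)
        have : du_cz p (n * r) f + (r : ℤ) * du_cz p (n / r) f - (1 + ((r : ℕ) : ℤ)) * du_cz p n f =
            (du_cz p (n * r) f - s (n * r)) + (r : ℤ) * (du_cz p (n / r) f - s (n / r))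
              - (1 + ((r : ℕ) : ℤ)) * (du_cz p n f - s n) := by
          linear_combination h3
        rw [this]
        exact dvd_sub (dvd_add h1 (Dvd.dvd.mul_left h4 _)) (Dvd.dvd.mul_left h2 _)
      · rw [if_neg hdvd, add_zero] at h3 ⊢
        have : du_cz p (n * r) f - (1 + ((r : ℕ) : ℤ)) * du_cz p n f =
            (du_cz p (n * r) f - s (n * r)) - (1 + ((r : ℕ) : ℤ)) * (du_cz p n f - s n) := by
          linear_combination h3
        rw [this]
        exact dvd_sub h1 (Dvd.dvd.mul_left h2 _)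
  obtain ⟨h, hh⟩ := du_saturated' p _ M key
  exact ⟨h, by rw [← hh]; abel⟩

/-- `f` is an eigenvector modulo `M` of every Hecke polynomial, with eigenvalue `χ`. -/
theorem du_eigen {s : ℕ → ℤ} (hs : du_IsEisSeq p s) (M : ℤ) (f : ↥(intLattice p 2))
    (hf : ∀ n, 1 ≤ n → M ∣ du_cz p n f - s n) (P : ModularCurve.HeckeAlg) :
    ∃ h : ↥(intLattice p 2), (du_phi p P).1 f = du_chi p P • f + M • h := by
  induction P using MvPolynomial.induction_on with
  | C a =>
    refine ⟨0, ?_⟩
    have h1 : du_phi p (MvPolynomial.C a) = a • (1 : du_T p) := by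
      rw [← mul_one (MvPolynomial.C a), MvPolynomial.C_mul', map_zsmul, map_one]
    have h2 : du_chi p (MvPolynomial.C a) = a := by
      rw [du_chi, MvPolynomial.aeval_C]; rfl
    rw [h1, h2, smul_zero, add_zero]
    rfl
  | add P Q hP hQ =>
    obtain ⟨h1, e1⟩ := hP
    obtain ⟨h2, e2⟩ := hQ
    refine ⟨h1 + h2, ?_⟩
    have : (du_phi p (P + Q)).1 f = (du_phi p P).1 f + (du_phi p Q).1 f := by
      rw [map_add]; rfl
    rw [this, e1, e2, map_add, add_smul, smul_add]
    abel
  | mul_X P r hP =>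
    obtain ⟨h1, e1⟩ := hP
    obtain ⟨h2, e2⟩ := du_gen_eigen p hs M f hf r
    refine ⟨du_chi p (MvPolynomial.X r) • h1 + (du_phi p P).1 h2, ?_⟩
    rw [du_phi_mul_apply, e2, map_add, map_smul, map_smul, e1, map_mul, smul_add, smul_add,
      smul_smul, smul_smul, smul_smul, mul_comm (du_chi p (MvPolynomial.X r)) M,
      mul_comm (du_chi p (MvPolynomial.X r)) (du_chi p P)]
    abel

/-- **(D1)** -/
theorem du_exists_char_of_form {s : ℕ → ℤ} (hs : du_IsEisSeq p s) (M : ℕ)
    (f : ↥(intLattice p 2)) (hf : ∀ n, 1 ≤ n → (M : ℤ) ∣ du_cz p n f - s n) :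
    ∃ ψ : du_T p →+* ZMod M, ∀ P : ModularCurve.HeckeAlg,
      ψ (du_phi p P) = ((du_chi p P : ℤ) : ZMod M) := by
  have hker : RingHom.ker (du_phi p) ≤
      RingHom.ker ((Int.castRingHom (ZMod M)).comp (du_chi p : ModularCurve.HeckeAlg →+* ℤ)) := by
    intro P hP
    rw [RingHom.mem_ker] at hP ⊢
    obtain ⟨h, e⟩ := du_eigen p hs (M : ℤ) f hf P
    rw [hP] at e
    have e1 : (0 : ℤ) = du_chi p P * du_cz p 1 f + (M : ℤ) * du_cz p 1 h := by
      have := congrArg (du_cz p 1) e
      simpa using this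
    have h1 : (M : ℤ) ∣ du_cz p 1 f - 1 := by
      have := hf 1 le_rfl
      rwa [hs.one] at this
    have h2 : (M : ℤ) ∣ du_chi p P := by
      have : du_chi p P = -(du_chi p P * (du_cz p 1 f - 1)) - (M : ℤ) * du_cz p 1 h := by
        linear_combination (-1 : ℤ) * e1
      rw [this]
      exact dvd_sub (Dvd.dvd.neg_right (Dvd.dvd.mul_left h1 _)) (dvd_mul_right _ _)
    rw [RingHom.comp_apply]
    exact (ZMod.intCast_zmod_eq_zero_iff_dvd _ _).mpr h2
  refine ⟨(du_phi p).liftOfSurjective (du_phi_surjective p) ⟨_, hker⟩, fun P => ?_⟩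
  rw [RingHom.liftOfSurjective_comp_apply]
  rfl

end

end Fermat.Agent.S16
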