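import Mathlib

/-!
# S16 library: a nondegenerate saturated pairing of free `ℤ`-modules is perfect on one side

`L`, `T` free `ℤ`-modules of finite rank, `B : L →ₗ[ℤ] T →ₗ[ℤ] ℤ` with `B` and `B.flip`
injective.  If `L` is saturated for `B` (`D ∣ B g t` for all `t` implies `g ∈ D • L`), then
`B : L → Hom(T, ℤ)` is surjective.  Also: lifting an additive map `T → ZMod M` to `T → ℤ`.
-/

set_option autoImplicit false

namespace Fermat.Agent.S16

variable {L T : Type*} [AddCommGroup L] [Module.Free ℤ L] [Module.Finite ℤ L]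
  [AddCommGroup T] [Module.Free ℤ T] [Module.Finite ℤ T]

/-- The two injectivity hypotheses force equal ranks. -/
theorem pp_finrank_eq (B : L →ₗ[ℤ] T →ₗ[ℤ] ℤ) (hL : Function.Injective B)
    (hT : Function.Injective B.flip) : Module.finrank ℤ L = Module.finrank ℤ T := by
  have h1 : Module.finrank ℤ L ≤ Module.finrank ℤ (T →ₗ[ℤ] ℤ) :=
    LinearMap.finrank_le_finrank_of_injective hL
  have h2 : Module.finrank ℤ T ≤ Module.finrank ℤ (L →ₗ[ℤ] ℤ) :=
    LinearMap.finrank_le_finrank_of_injective hT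
  rw [Module.finrank_linearMap_self] at h1 h2
  exact le_antisymm h1 h2

/-- **Perfectness from nondegeneracy and saturation.** -/
theorem pp_surjective (B : L →ₗ[ℤ] T →ₗ[ℤ] ℤ) (hL : Function.Injective B)
    (hT : Function.Injective B.flip)
    (hsat : ∀ (g : L) (D : ℤ), D ≠ 0 → (∀ t, D ∣ B g t) → ∃ g' : L, g = D • g') :
    Function.Surjective B := by
  intro lam
  set R : Submodule ℤ (T →ₗ[ℤ] ℤ) := LinearMap.range B with hR
  have hrank : Module.finrank ℤ R = Module.finrank ℤ (T →ₗ[ℤ] ℤ) := by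
    rw [hR, LinearMap.finrank_range_of_inj hL, Module.finrank_linearMap_self]
    exact pp_finrank_eq B hL hT
  have : Finite ((T →ₗ[ℤ] ℤ) ⧸ R) := Submodule.finiteQuotientOfFreeOfRankEq R hrank
  -- `D • lam ∈ R` with `D` the index
  set D : ℕ := Nat.card ((T →ₗ[ℤ] ℤ) ⧸ R) with hD
  have hDpos : 0 < D := Nat.card_pos
  have hmem : (D : ℤ) • lam ∈ R := by
    have h0 : (D : ℤ) • (Submodule.Quotient.mk lam : (T →ₗ[ℤ] ℤ) ⧸ R) = 0 := by
      rw [natCast_zsmul, hD]
      exact card_nsmul_eq_zero'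
    rw [← Submodule.Quotient.mk_smul] at h0
    exact (Submodule.Quotient.mk_eq_zero R).mp h0
  obtain ⟨g, hg⟩ := hmem
  have hDne : (D : ℤ) ≠ 0 := by exact_mod_cast hDpos.ne'
  obtain ⟨g', rfl⟩ := hsat g D hDne (fun t => by
    rw [hg, LinearMap.smul_apply, smul_eq_mul]; exact dvd_mul_right _ _)
  refine ⟨g', ?_⟩
  rw [map_smul] at hg
  exact smul_right_injective _ hDne hg

/-- An additive map to `ZMod M` on a free `ℤ`-module lifts to `ℤ`. -/
theorem pp_exists_lift (M : ℕ) (ψ : T →+ ZMod M) :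
    ∃ lam : T →ₗ[ℤ] ℤ, ∀ t, ((lam t : ℤ) : ZMod M) = ψ t := by
  classical
  set b := Module.Free.chooseBasis ℤ T with hb
  have hrep : ∀ i, ∃ m : ℤ, (m : ZMod M) = ψ (b i) := fun i => ZMod.intCast_surjective _
  choose c hc using hrep
  refine ⟨b.constr ℤ c, fun t => ?_⟩
  have h1 : ((Int.castAddHom (ZMod M)).toIntLinearMap.comp (b.constr ℤ c)) =
      ψ.toIntLinearMap := by
    apply b.ext
    intro i
    simp [hc i]
  exact LinearMap.congr_fun h1 t

end Fermat.Agent.S16
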