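import Fermat.Agent.S16.Duality
import Fermat.Agent.S16.PerfectPairing

/-!
# S16 library, piece [D], part 2: a character of the Hecke algebra gives a form (D2)
-/

set_option autoImplicit false
set_option linter.unusedSectionVars false

open CuspForm CongruenceSubgroup ModularFormClass

namespace Fermat.Agent.S16

noncomputable section

variable (p : ℕ) [Fact p.Prime]

/-- The pairing `L × T → ℤ`, `(g, t) ↦ a₁(t g)`. -/
def du_pairing : ↥(intLattice p 2) →ₗ[ℤ] du_T p →ₗ[ℤ] ℤ :=
  LinearMap.mk₂ ℤ (fun g t => du_cz p 1 (t.1 g))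
    (fun g₁ g₂ t => by simp only [map_add])
    (fun c g t => by simp only [map_smul])
    (fun g t₁ t₂ => by
      simp only [Subalgebra.coe_add, LinearMap.add_apply, map_add])
    (fun c g t => by
      simp only [Subalgebra.coe_smul, LinearMap.smul_apply, map_smul])

theorem du_pairing_apply (g : ↥(intLattice p 2)) (t : du_T p) :
    du_pairing p g t = du_cz p 1 (t.1 g) := rfl

theorem du_cz_zero_right (n : ℕ) : du_cz p n 0 = 0 := map_zero _

/-- Left nondegeneracy. -/
theorem du_pairing_injective {s : ℕ → ℤ} (hs : du_IsEisSeq p s) :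
    Function.Injective (du_pairing p) := by
  rw [injective_iff_map_eq_zero]
  intro g hg
  apply du_ext
  intro k hk
  obtain ⟨P, hP, -⟩ := du_exists_heckePoly p hs k hk
  rw [map_zero, ← hP g, ← du_pairing_apply, hg]
  rfl

/-- Right nondegeneracy. -/
theorem du_pairing_flip_injective {s : ℕ → ℤ} (hs : du_IsEisSeq p s) :
    Function.Injective (du_pairing p).flip := by
  rw [injective_iff_map_eq_zero]
  intro t ht
  apply Subtype.ext
  apply LinearMap.ext
  intro g
  apply du_ext
  intro k hk
  obtain ⟨P, hP, -⟩ := du_exists_heckePoly p hs k hk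
  have h1 : (du_phi p P).1 (t.1 g) = t.1 ((du_phi p P).1 g) := by
    have : du_phi p P * t = t * du_phi p P := mul_comm _ _
    have h2 := congrArg (fun u : du_T p => u.1 g) this
    exact h2
  rw [← hP (t.1 g), h1]
  have h3 : du_pairing p ((du_phi p P).1 g) t = 0 := by
    have := LinearMap.congr_fun ht ((du_phi p P).1 g)
    exact this
  rw [du_pairing_apply] at h3
  rw [h3]
  simp

/-- Saturation in terms of the pairing. -/
theorem du_pairing_saturated {s : ℕ → ℤ} (hs : du_IsEisSeq p s) (g : ↥(intLattice p 2)) (D : ℤ)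
    (hD : D ≠ 0) (h : ∀ t, D ∣ du_pairing p g t) : ∃ g' : ↥(intLattice p 2), g = D • g' := by
  apply du_saturated p g D hD
  intro k hk
  obtain ⟨P, hP, -⟩ := du_exists_heckePoly p hs k hk
  rw [← hP g, ← du_pairing_apply]
  exact h _

/-- The pairing identifies `L` with the `ℤ`-dual of `T`. -/
theorem du_pairing_surjective {s : ℕ → ℤ} (hs : du_IsEisSeq p s) :
    Function.Surjective (du_pairing p) := by
  have := intLattice.moduleFree p
  have := intLattice.moduleFinite p
  exact pp_surjective (du_pairing p) (du_pairing_injective p hs) (du_pairing_flip_injective p hs)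
    (du_pairing_saturated p hs)

/-- **(D2)** -/
theorem du_exists_form_of_char {s : ℕ → ℤ} (hs : du_IsEisSeq p s) (M : ℕ)
    (ψ : du_T p →+* ZMod M)
    (hψ : ∀ P : ModularCurve.HeckeAlg, ψ (du_phi p P) = ((du_chi p P : ℤ) : ZMod M)) :
    ∃ g : ↥(intLattice p 2), ∀ n, 1 ≤ n → (M : ℤ) ∣ du_cz p n g - s n := by
  obtain ⟨lam, hlam⟩ := pp_exists_lift M ψ.toAddMonoidHom
  obtain ⟨g, hg⟩ := du_pairing_surjective p hs lam
  refine ⟨g, fun k hk => ?_⟩
  obtain ⟨P, hP, hχ⟩ := du_exists_heckePoly p hs k hk
  have h1 : du_cz p k g = lam (du_phi p P) := by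
    rw [← hP g, ← du_pairing_apply, hg]
  have h2 : ((lam (du_phi p P) : ℤ) : ZMod M) = ((s k : ℤ) : ZMod M) := by
    rw [hlam, ← hχ]
    exact hψ P
  rw [h1]
  exact (ZMod.intCast_eq_intCast_iff_dvd_sub _ _ _).mp h2.symm |> fun h => by
    have := h
    rwa [← neg_sub, dvd_neg] at this

end

end Fermat.Agent.S16
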