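import Mathlib
import Fermat.Agent.S16.SturmContra
import Fermat.Prelude.Thm_CongruenceSubgroup_one_mem_strictPeriods_Gamma0

/-!
# S16 library, piece [P23]: `S₂(Γ₀(p)) = 0` for `p = 2, 3`

The norm to level one of a cusp form of weight `2` on `Γ₀(p)` is a level-one form of weight
`2 (p + 1) ≤ 8` with vanishing constant term, hence `0` by the level-one Sturm bound; and the norm
vanishes only if the form does.
-/

set_option autoImplicit false

open UpperHalfPlane hiding I
open Complex Function ModularForm CongruenceSubgroup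
open scoped Manifold Real MatrixGroups
open Fermat.Agent.S23 Fermat.Agent.S23.QF

noncomputable section

namespace Fermat.Agent.S16

variable (p : ℕ) [Fact p.Prime]

/-- A modular form of weight `k` on `Γ₀(p)` with vanishing constant term and `k (p+1) < 12`
vanishes. -/
theorem modularForm_eq_zero_of_small {k : ℤ} (hk : k * (p + 1) < 12)
    (f : ModularForm (Gamma0 p) k) (h0 : (qExpansion 1 f).coeff 0 = 0) : f = 0 := by
  have hp0 : p ≠ 0 := (Fact.out : p.Prime).ne_zero
  have hν : IsQFun ⇑(fr_normOne p f) := fr_isQFun_of_modularForm one_mem_strictPeriods_SL _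
  -- the constant term of the norm vanishes
  have hc0 : (qExpansion 1 (fr_normOne p f)).coeff 0 = 0 := by
    rw [ne_coeff_qExpansion_prod p hν (fr_isQFun_coe p f) (isQFun_sharp p f)
      (fr_normOne_apply p f) 0, mul_zero, PowerSeries.coeff_zero_eq_constantCoeff_apply, map_mul,
      ← PowerSeries.coeff_zero_eq_constantCoeff_apply]
    have : (PowerSeries.coeff 0) (expandP p (qExpansion 1 ⇑f)) = 0 := by
      have h := coeff_expandP_mul (Nat.pos_of_ne_zero hp0) (qExpansion 1 ⇑f) 0
      rw [mul_zero] at h
      rw [h, h0]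
    rw [this, zero_mul]
  -- Sturm
  have hall := sturm_levelOne_addSubgroup ⊥ (fr_normOne p f) (by
    intro n hn
    have hn0 : n = 0 := by
      by_contra hne
      have : (1 : ℤ) ≤ n := by exact_mod_cast Nat.one_le_iff_ne_zero.mpr hne
      linarith
    rw [hn0, hc0]
    exact AddSubgroup.zero_mem _)
  have hzero : (fr_normOne p f : ℍ → ℂ) = 0 := by
    apply (hν.qExpansion_eq_zero_iff).mp
    ext n
    simpa using hall n
  -- the norm vanishes only if `f` does
  have hnorm : ModularForm.norm 𝒮ℒ f = 0 := by
    ext z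
    have := congrFun hzero z
    rw [fr_normOne_apply] at this
    rw [fr_norm_apply]
    exact this
  have hf0 : (f : ℍ → ℂ) = 0 := (ModularForm.norm_eq_zero_iff 𝒮ℒ f).mp hnorm
  exact DFunLike.coe_injective hf0

/-- **[P23]** there are no nonzero cusp forms of weight `2` on `Γ₀(2)` and `Γ₀(3)`. -/
theorem cuspForm_eq_zero_of_le_three (hp : p ≤ 3) (g : CuspForm (Gamma0 p) 2) : g = 0 := by
  have h0 : (qExpansion 1 (CuspForm.toModularFormₗ g)).coeff 0 = 0 :=
    CuspFormClass.qExpansion_coeff_zero g one_pos (CongruenceSubgroup.one_mem_strictPeriods_Gamma0 p)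
  have hk : (2 : ℤ) * (p + 1) < 12 := by
    have : (p : ℤ) ≤ 3 := by exact_mod_cast hp
    linarith
  have := modularForm_eq_zero_of_small p hk (CuspForm.toModularFormₗ g) h0
  exact CuspForm.toModularFormₗ_injective (by rw [this, map_zero])

end Fermat.Agent.S16
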